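import Fermat.Agent.S27.H.Defs

/-!
# S27, Part H: valuation subrings of a function field are places
Task H2 (see the `tasks` table, stmt = 'S27').  Sub-captain of Part H: helper87.  Owner: helper193.
-/

set_option autoImplicit false
set_option linter.style.haveILetI false

noncomputable section

namespace Fermat.Agent.S27.H

open AlgebraicCurve Fermat.Agent.S24.FF IntermediateField IsDedekindDomain
open scoped TensorProduct
open scoped IntermediateField.algebraAdjoinAdjoin

section Abstract

variable {F : Type*} [Field F]
variable {B : Type*} [CommRing B] [IsDedekindDomain B] [Algebra B F] [IsFractionRing B F]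

/-- A nontrivial valuation subring of the fraction field of a Dedekind domain `B` which contains
`B` is the valuation ring of a height one prime of `B`. -/
theorem exists_heightOneSpectrum_eq (A : ValuationSubring F)
    (hB : ∀ b : B, algebraMap B F b ∈ A) (hA : A ≠ ⊤) :
    ∃ w : HeightOneSpectrum B, (w.valuation F).valuationSubring = A := by
  let φ : B →+* A := (algebraMap B F).codRestrict A.toSubring hB
  have hinv : ∀ b : B, b ∉ (IsLocalRing.maximalIdeal A).comap φ → (algebraMap B F b)⁻¹ ∈ A := by
    intro b hnot
    rw [Ideal.mem_comap, IsLocalRing.mem_maximalIdeal, mem_nonunits_iff, not_not] at hnot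
    obtain ⟨c, hc⟩ := isUnit_iff_exists_inv.mp hnot
    have hc' : algebraMap B F b * (c : F) = 1 := congrArg Subtype.val hc
    rw [← eq_inv_of_mul_eq_one_right hc']
    exact c.2
  let w : HeightOneSpectrum B :=
    { asIdeal := (IsLocalRing.maximalIdeal A).comap φ
      isPrime := Ideal.comap_isPrime _ _
      ne_bot := by
        intro hbot
        apply hA
        refine SetLike.ext fun x => ⟨fun _ => ValuationSubring.mem_top x, fun _ => ?_⟩
        obtain ⟨a, s, hs, rfl⟩ := IsFractionRing.div_surjective (A := B) x
        rw [div_eq_mul_inv]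
        refine mul_mem (hB a) (hinv s ?_)
        rw [hbot]
        simpa using nonZeroDivisors.ne_zero hs }
  refine ⟨w, ?_⟩
  rw [← HeightOneSpectrum.valuationSubringAtPrime_eq_valuationSubring]
  refine ValuationSubring.eq_of_le_of_ne_top _ ?_ hA
  rw [HeightOneSpectrum.valuationSubringAtPrime_eq_valuationSubring]
  intro x hx
  rw [Valuation.mem_valuationSubring_iff] at hx
  obtain ⟨n, d, hnd⟩ := w.exists_primeCompl_mul_eq_of_integer x hx
  have hd : (d : B) ∉ w.asIdeal := d.2
  have hdinv : (algebraMap B F d)⁻¹ ∈ A := hinv d hd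
  have hd0 : algebraMap B F d ≠ 0 := by
    intro h0
    apply hd
    have : (d : B) = 0 := by simpa using h0
    rw [this]
    exact zero_mem _
  have : x = algebraMap B F n * (algebraMap B F d)⁻¹ := by
    rw [← hnd]; field_simp
  rw [this]
  exact mul_mem (hB n) hdinv

end Abstract

section H2
variable {K F : Type*} [Field K] [Field F] [Algebra K F] [IsAlgClosed K] [CharZero K] [IsFF1 K F]

omit [IsAlgClosed K] [CharZero K] [IsFF1 K F] in
theorem adjoin_le_valuationSubring (A : ValuationSubring F)
    (hK : ∀ a : K, algebraMap K F a ∈ A) {t : F} (ht : t ∈ A) :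
    ∀ a ∈ Algebra.adjoin K {t}, a ∈ A := by
  intro a ha
  induction ha using Algebra.adjoin_induction with
  | mem x hx =>
    rw [Set.mem_singleton_iff] at hx
    subst hx
    exact ht
  | algebraMap r => exact hK r
  | add x y _ _ hx hy => exact add_mem hx hy
  | mul x y _ _ hx hy => exact mul_mem hx hy

omit [IsAlgClosed K] [CharZero K] [IsFF1 K F] in
theorem mem_valuationSubring_of_isIntegral (A : ValuationSubring F) (R : Subalgebra K F)
    (hR : ∀ a ∈ R, a ∈ A) {b : F} (hb : IsIntegral R b) : b ∈ A := by
  letI : Algebra R A :=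
    ((algebraMap R F).codRestrict A.toSubring (fun a => hR a a.2)).toAlgebra
  letI : IsScalarTower R A F := IsScalarTower.of_algebraMap_eq fun f => rfl
  have hx : IsIntegral A b := hb.tower_top
  obtain ⟨y, hy⟩ := IsIntegrallyClosed.isIntegral_iff.mp hx
  exact hy ▸ y.2

theorem isPrincipalIdealRing_of_ne_top (A : ValuationSubring F)
    (hK : ∀ a : K, algebraMap K F a ∈ A) (hA : A ≠ ⊤) : IsPrincipalIdealRing A := by
  -- an element outside `A`
  obtain ⟨z, hz⟩ : ∃ z : F, z ∉ A := by
    by_contra hcon
    exact hA (SetLike.ext fun x => ⟨fun _ => ValuationSubring.mem_top x,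
      fun _ => by_contra fun hx => hcon ⟨x, hx⟩⟩)
  have htA : z⁻¹ ∈ A := (A.mem_or_inv_mem z).resolve_left hz
  set t : F := z⁻¹ with ht_def
  have ht : Transcendental K t := by
    apply transcendental_of_forall_ne
    intro c hc
    apply hz
    have : z = algebraMap K F c⁻¹ := by
      rw [map_inv₀, ← hc, ht_def, inv_inv]
    rw [this]
    exact hK _
  haveI : FiniteDimensional K⟮t⟯ F := IsFF1.finite t ht
  haveI := isPrincipalIdealRing_adjoin t ht
  haveI : CharZero K⟮t⟯ := charZero_of_injective_algebraMap (algebraMap K K⟮t⟯).injective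
  haveI : IsDedekindDomain (integralClosure (Algebra.adjoin K {t}) F) :=
    integralClosure.isDedekindDomain (Algebra.adjoin K {t}) K⟮t⟯ F
  haveI : IsFractionRing (integralClosure (Algebra.adjoin K {t}) F) F :=
    integralClosure.isFractionRing_of_finite_extension K⟮t⟯ F
  obtain ⟨w, hw⟩ := exists_heightOneSpectrum_eq (B := integralClosure (Algebra.adjoin K {t}) F) A
    (fun b => mem_valuationSubring_of_isIntegral A _ (adjoin_le_valuationSubring A hK htA)
      (b := (b : F)) b.2) hA
  rw [← hw]
  exact Place.isPrincipalIdealRing_valuationSubring w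

/-- the place attached to a nontrivial valuation subring containing the constants -/
def placeOfValuationSubring (A : ValuationSubring F)
    (hK : ∀ a : K, algebraMap K F a ∈ A) (hA : A ≠ ⊤) : Place K F :=
  ⟨A, hK, hA, isPrincipalIdealRing_of_ne_top A hK hA⟩

theorem exists_place (hF : ∃ x : F, Transcendental K x) : Nonempty (Place K F) := by
  obtain ⟨x, hx⟩ := hF
  obtain ⟨s, hs, hsum⟩ := exists_finset_ord_pos x hx
  haveI : FiniteDimensional K⟮x⟯ F := IsFF1.finite x hx
  have hpos : 0 < Module.finrank K⟮x⟯ F := Module.finrank_pos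
  rcases s.eq_empty_or_nonempty with rfl | ⟨v, -⟩
  · simp at hsum
    omega
  · exact ⟨v⟩
end H2

end Fermat.Agent.S27.H
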