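import Fermat.Agent.S27.H.ConstExtBasic

/-!
# S27, Part H: the symmetric criterion for `IsConstExt` (owner helper110, part (0) of task H9a)
-/

set_option autoImplicit false

noncomputable section

namespace Fermat.Agent.S27.H

open AlgebraicCurve Fermat.Agent.S24.FF IntermediateField
open scoped TensorProduct

namespace ConstExtRight

variable (K F K' F' : Type*) [Field K] [Field F] [Field K'] [Field F']
  [Algebra K F] [Algebra K K'] [Algebra K' F'] [Algebra F F'] [Algebra K F']
  [IsScalarTower K F F'] [IsScalarTower K K' F']

/-- swapping the two factors. -/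
theorem mulMap_comm (z : K' ⊗[K] F) :
    mulMap K K' F F' (Algebra.TensorProduct.comm K K' F z) = mulMap K F K' F' z := by
  induction z using TensorProduct.induction_on with
  | zero => simp
  | tmul c f =>
    rw [Algebra.TensorProduct.comm_tmul, mulMap_tmul, mulMap_tmul, mul_comm]
  | add x y hx hy => rw [map_add, map_add, map_add, hx, hy]

/-- the field generated over `F` by `K'` is everything as soon as the field generated over `K'`
by `F` is. -/
theorem adjoin_swap (h2 : IntermediateField.adjoin K' (Set.range (algebraMap F F')) = ⊤) :
    IntermediateField.adjoin F (Set.range (algebraMap K' F')) = ⊤ := by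
  set L := IntermediateField.adjoin F (Set.range (algebraMap K' F')) with hL
  let M : IntermediateField K' F' :=
    { L.toSubfield with
      algebraMap_mem' := fun c => IntermediateField.subset_adjoin F _ ⟨c, rfl⟩ }
  have hM : IntermediateField.adjoin K' (Set.range (algebraMap F F')) ≤ M := by
    rw [IntermediateField.adjoin_le_iff]
    rintro _ ⟨f, rfl⟩
    exact L.algebraMap_mem f
  rw [h2] at hM
  rw [eq_top_iff]
  intro z _
  exact hM (IntermediateField.mem_top (x := z))

end ConstExtRight

open ConstExtRight in
/-- symmetric criterion for `IsConstExt` -/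
theorem IsConstExt.of_linearIndependent_right
    (K F K' F' : Type*) [Field K] [Field F] [Field K'] [Field F']
    [Algebra K F] [Algebra K K'] [Algebra K' F'] [Algebra F F'] [Algebra K F']
    [IsScalarTower K F F'] [IsScalarTower K K' F']
    (h1 : ∀ (n : ℕ) (e : Fin n → K'), LinearIndependent K e →
      LinearIndependent F (fun i => algebraMap K' F' (e i)))
    (h2 : IntermediateField.adjoin K' (Set.range (algebraMap F F')) = ⊤) :
    IsConstExt K F K' F' := by
  have hswap : IsConstExt K K' F F' :=
    IsConstExt.of_linearIndependent_of_adjoin K K' F F' h1 (adjoin_swap F K' F' h2)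
  constructor
  · intro a b hab
    rw [← mulMap_comm K F K' F' a, ← mulMap_comm K F K' F' b] at hab
    exact (Algebra.TensorProduct.comm K K' F).injective (hswap.injective hab)
  · intro z
    have hle : IntermediateField.adjoin K' (Set.range (algebraMap F F')) ≤ quotField K F K' F' := by
      rw [IntermediateField.adjoin_le_iff]
      rintro _ ⟨f, rfl⟩
      exact ⟨1 ⊗ₜ[K] f, 1, by simp, by simp⟩
    rw [h2] at hle
    exact hle (IntermediateField.mem_top (x := z))

end Fermat.Agent.S27.H
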