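import Mathlib

/-!
# S27, Part H: countable fields of characteristic zero embed into `ℂ`
Owner: helper230.

* `nonempty_ringHom_complex` : a countable field of characteristic `0` embeds into `ℂ`.
* `exists_embedding_complex` : every finite subset of an algebraically closed field `K` of
  characteristic `0` lies in an algebraically closed subfield which embeds into `ℂ`.
-/

set_option autoImplicit false

namespace Fermat.Agent.S27.H

open Cardinal MvPolynomial

theorem nonempty_ringHom_complex (L : Type*) [Field L] [CharZero L] [Countable L] :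
    Nonempty (L →+* ℂ) := by
  classical
  obtain ⟨s, hs⟩ := exists_isTranscendenceBasis ℤ L
  obtain ⟨t, ht⟩ := exists_isTranscendenceBasis ℤ ℂ
  have hC : ℵ₀ < #ℂ := by
    rw [Cardinal.mk_complex]; exact Cardinal.aleph0_lt_continuum
  have ht' : #ℂ = #t :=
    IsAlgClosed.cardinal_eq_cardinal_transcendence_basis_of_aleph0_lt' _ ht
      (le_of_eq mk_int) hC
  have hs' : #s ≤ ℵ₀ := Cardinal.mk_le_aleph0
  have hst : Cardinal.lift.{0} #s ≤ Cardinal.lift.{_} #t := by
    rw [← ht']
    calc Cardinal.lift.{0} #s ≤ Cardinal.lift.{0} ℵ₀ := Cardinal.lift_le.2 hs'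
      _ = ℵ₀ := Cardinal.lift_aleph0
      _ = Cardinal.lift.{_} ℵ₀ := Cardinal.lift_aleph0.symm
      _ ≤ Cardinal.lift.{_} #ℂ := Cardinal.lift_le.2 hC.le
  obtain ⟨e⟩ := Cardinal.lift_mk_le'.1 hst
  let R := Algebra.adjoin ℤ (Set.range ((↑) : s → L))
  let φ : R →+* ℂ :=
    ((aeval ((↑) : t → ℂ) : MvPolynomial t ℤ →ₐ[ℤ] ℂ).toRingHom.comp
      (rename e : MvPolynomial s ℤ →ₐ[ℤ] MvPolynomial t ℤ).toRingHom).comp
      hs.1.aevalEquiv.symm.toRingEquiv.toRingHom
  have hφ : Function.Injective φ := by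
    have i1 : Function.Injective (aeval ((↑) : t → ℂ) : MvPolynomial t ℤ →ₐ[ℤ] ℂ) :=
      algebraicIndependent_iff_injective_aeval.1 ht.1
    have i2 : Function.Injective (rename e : MvPolynomial s ℤ →ₐ[ℤ] MvPolynomial t ℤ) :=
      rename_injective e e.injective
    have i3 : Function.Injective hs.1.aevalEquiv.symm := hs.1.aevalEquiv.symm.injective
    intro x y hxy
    exact i3 (i2 (i1 hxy))
  let _ : Algebra R ℂ := φ.toAlgebra
  have h1 : Algebra.IsAlgebraic R L := hs.isAlgebraic
  have h2 : Module.IsTorsionFree R ℂ := by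
    have : FaithfulSMul R ℂ := (faithfulSMul_iff_algebraMap_injective R ℂ).2 hφ
    infer_instance
  exact ⟨(IsAlgClosed.lift (R := R) (S := L) (M := ℂ)).toRingHom⟩

theorem exists_embedding_complex {K : Type*} [Field K] [CharZero K] [IsAlgClosed K]
    (S : Finset K) :
    ∃ K1 : Subfield K, (↑S ⊆ (K1 : Set K)) ∧ IsAlgClosed K1 ∧ Nonempty (K1 →+* ℂ) := by
  classical
  let F0 : IntermediateField ℚ K := IntermediateField.adjoin ℚ (S : Set K)
  let K1 : IntermediateField F0 K := algebraicClosure F0 K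
  have hcl : IsAlgClosed K1 := IsAlgClosure.isAlgClosed F0
  have hF0 : #F0 ≤ ℵ₀ := by
    have h := IntermediateField.lift_cardinalMk_adjoin_le ℚ (S : Set K)
    have h2 : Cardinal.lift.{0} #F0 ≤ ℵ₀ := by
      refine h.trans ?_
      refine max_le (max_le ?_ ?_) le_rfl
      · rw [Cardinal.mk_eq_aleph0 ℚ, Cardinal.lift_aleph0]
      · rw [Cardinal.lift_le_aleph0]
        exact Cardinal.mk_le_aleph0
    simpa using h2
  have hK1 : #K1 ≤ ℵ₀ := by
    have hfree : Module.IsTorsionFree F0 K1 := DivisionSemiring.to_moduleIsTorsionFree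
    have h := Algebra.IsAlgebraic.cardinalMk_le_max F0 K1
    exact h.trans (max_le hF0 le_rfl)
  have hcount : Countable K1 := Cardinal.mk_le_aleph0_iff.1 hK1
  refine ⟨K1.toSubfield, ?_, hcl, ?_⟩
  · intro x hx
    have hx0 : x ∈ F0 := IntermediateField.subset_adjoin ℚ _ hx
    exact K1.algebraMap_mem ⟨x, hx0⟩
  · exact nonempty_ringHom_complex K1

end Fermat.Agent.S27.H
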