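import Mathlib
import Fermat.Prelude.Def_AlgebraicCurve_Repartitions
import Fermat.Agent.S24.FFDeg

/-!
# S27, Part H (general constant field): definitions
Owner: helper87.

`IsConstExt K F K' F'` : `F'/K'` is the constant field extension of the function field `F/K`,
i.e. `K' ⊗[K] F → F'` is injective and `F'` is its field of fractions.
`LiesOver w v` : the place `w` of `F'/K'` restricts to the place `v` of `F/K`.
`RiemannThm K F` : the part of Riemann's theorem (Part B) consumed by Part H.
`CaseC` : the statement of the complex case (Part I) consumed by Part H.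
-/

set_option autoImplicit false

noncomputable section

namespace Fermat.Agent.S27.H

open AlgebraicCurve Fermat.Agent.S24.FF
open scoped TensorProduct

section Defs

variable (K F K' F' : Type*) [Field K] [Field F] [Field K'] [Field F']
  [Algebra K F] [Algebra K K'] [Algebra K' F'] [Algebra F F'] [Algebra K F']
  [IsScalarTower K F F'] [IsScalarTower K K' F']

/-- The multiplication map `K' ⊗[K] F → F'`, `c ⊗ f ↦ c * f`; it is `K'`-linear. -/
def mulMap : K' ⊗[K] F →ₐ[K'] F' :=
  Algebra.TensorProduct.productLeftAlgHom (Algebra.ofId K' F') (IsScalarTower.toAlgHom K F F')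

@[simp]
theorem mulMap_tmul (c : K') (f : F) :
    mulMap K F K' F' (c ⊗ₜ[K] f) = algebraMap K' F' c * algebraMap F F' f := rfl

/-- `F'/K'` is the constant field extension of `F/K`. -/
class IsConstExt : Prop where
  injective : Function.Injective (mulMap K F K' F')
  exists_div : ∀ z : F', ∃ a b : K' ⊗[K] F, mulMap K F K' F' b ≠ 0 ∧
    z = mulMap K F K' F' a / mulMap K F K' F' b

end Defs

section Places

variable {K F K' F' : Type*} [Field K] [Field F] [Field K'] [Field F']
  [Algebra K F] [Algebra K' F'] [Algebra F F']

/-- The place `w` of `F'/K'` restricts to the place `v` of `F/K`. -/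
def LiesOver (w : Place K' F') (v : Place K F) : Prop :=
  ∀ f : F, algebraMap F F' f ∈ w.toValuationSubring ↔ f ∈ v.toValuationSubring

theorem LiesOver.right_unique {w : Place K' F'} {v v' : Place K F}
    (h : LiesOver w v) (h' : LiesOver w v') : v = v' := by
  apply Place.ext
  ext f
  rw [← h f, ← h' f]

end Places

section Inputs

/-- The part of Riemann's theorem (Part B of the S27 plan) which Part H consumes. -/
structure RiemannThm (K F : Type*) [Field K] [Field F] [Algebra K F] : Prop where
  finite_L : ∀ D : Divisor K F, FiniteDimensional K (riemannRochSpace D)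
  ineq : ∀ D : Divisor K F,
    Divisor.degree D + 1 - (genusFF K F : ℤ) ≤ (Module.finrank K (riemannRochSpace D) : ℤ)
  eq_of_large : ∃ c : ℤ, ∀ D : Divisor K F, c ≤ Divisor.degree D →
    (Module.finrank K (riemannRochSpace D) : ℤ) = Divisor.degree D + 1 - (genusFF K F : ℤ)

universe u

/-- The complex case (Part I of the S27 plan), in the form consumed by Part H. -/
def CaseC : Prop :=
  ∀ (F : Type u) [Field F] [Algebra ℂ F] [IsFF1 ℂ F], (∃ x : F, Transcendental ℂ x) →
    ∀ n : ℕ, 0 < n → Nat.card (Pic0.torsion ℂ F n) = n ^ (2 * genusFF ℂ F)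

end Inputs

end Fermat.Agent.S27.H
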