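import Mathlib
import Fermat.Agent.S27.H.Defs

/-!
# S27, Part H: tensor products of domains over an algebraically closed field
Task H0b (see the `tasks` table, stmt = 'S27').  Sub-captain of Part H: helper87.
Owner of this file: helper26.
-/

set_option autoImplicit false

noncomputable section

namespace Fermat.Agent.S27.H

open AlgebraicCurve Fermat.Agent.S24.FF IntermediateField
open scoped TensorProduct

section Nullstellensatz

/-- Weak Nullstellensatz: a nonzero element of a finite type domain over an algebraically closed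
field is nonzero at some `K`-point. -/
theorem exists_algHom_apply_ne_zero (K A : Type*) [Field K] [IsAlgClosed K] [CommRing A]
    [IsDomain A] [Algebra K A] [Algebra.FiniteType K A] {s : A} (hs : s ≠ 0) :
    ∃ φ : A →ₐ[K] K, φ s ≠ 0 := by
  have hJ : IsJacobsonRing A := isJacobsonRing_of_finiteType (A := K)
  have hbot : (⊥ : Ideal A).jacobson = ⊥ := hJ.out (Ideal.isPrime_bot).isRadical
  have hmem : s ∉ (⊥ : Ideal A).jacobson := by
    rw [hbot]
    simpa using hs
  rw [Ideal.jacobson, Submodule.mem_sInf] at hmem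
  simp only [not_forall] at hmem
  obtain ⟨m, ⟨-, hm⟩, hsm⟩ := hmem
  let : Field (A ⧸ m) := Ideal.Quotient.field m
  have : Algebra.FiniteType K (A ⧸ m) :=
    Algebra.FiniteType.of_surjective (Ideal.Quotient.mkₐ K m) (Ideal.Quotient.mkₐ_surjective K m)
  have : Module.Finite K (A ⧸ m) := finite_of_finite_type_of_isJacobsonRing K (A ⧸ m)
  have hbij : Function.Bijective (algebraMap K (A ⧸ m)) :=
    IsAlgClosed.algebraMap_bijective_of_isIntegral
  let e : K ≃ₐ[K] (A ⧸ m) := AlgEquiv.ofBijective (Algebra.ofId K (A ⧸ m)) hbij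
  refine ⟨(e.symm : (A ⧸ m) →ₐ[K] K).comp (Ideal.Quotient.mkₐ K m), ?_⟩
  intro h
  apply hsm
  have h' : e.symm (Ideal.Quotient.mkₐ K m s) = 0 := h
  rw [map_eq_zero_iff _ e.symm.injective, Ideal.Quotient.mkₐ_eq_mk,
    Ideal.Quotient.eq_zero_iff_mem] at h'
  exact h'

end Nullstellensatz

section Repr

variable {K B ι : Type*} [Field K] [CommRing B] [Algebra K B] (b : Module.Basis ι K B)

/-- Coordinates in the basis `1 ⊗ b i` are compatible with change of the left factor. -/
theorem basis_repr_map {A₁ A₂ : Type*} [CommRing A₁] [Algebra K A₁] [CommRing A₂] [Algebra K A₂]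
    (f : A₁ →ₐ[K] A₂) (z : A₁ ⊗[K] B) (i : ι) :
    (Algebra.TensorProduct.basis A₂ b).repr
      (Algebra.TensorProduct.map f (AlgHom.id K B) z) i =
      f ((Algebra.TensorProduct.basis A₁ b).repr z i) := by
  induction z using TensorProduct.induction_on with
  | zero => simp
  | tmul a m => simp [Algebra.TensorProduct.basis_repr_tmul]
  | add x y hx hy => simp [hx, hy]

end Repr

section H0b
variable (K A B : Type*) [Field K] [IsAlgClosed K] [CommRing A] [IsDomain A] [Algebra K A]
  [CommRing B] [IsDomain B] [Algebra K B]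

theorem isDomain_tensorProduct_of_isAlgClosed : IsDomain (A ⊗[K] B) := by
  classical
  have : Nontrivial (A ⊗[K] B) :=
    (Algebra.TensorProduct.includeLeft_injective (S := K) (algebraMap K B).injective).nontrivial
  have : NoZeroDivisors (A ⊗[K] B) := by
    refine ⟨fun {x y} hxy => ?_⟩
    by_contra hcon
    rw [not_or] at hcon
    obtain ⟨hx, hy⟩ := hcon
    let b := Module.Free.chooseBasis K B
    let bA := Algebra.TensorProduct.basis A b
    -- the finitely generated subalgebra containing all the coordinates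
    let S : Finset A := (bA.repr x).frange ∪ (bA.repr y).frange
    let A₀ : Subalgebra K A := Algebra.adjoin K (S : Set A)
    have : Algebra.FiniteType K A₀ :=
      (Subalgebra.fg_iff_finiteType _).1 (Subalgebra.fg_adjoin_finset S)
    have hmemx : ∀ i, bA.repr x i ∈ A₀ := by
      intro i
      by_cases h0 : bA.repr x i = 0
      · rw [h0]; exact A₀.zero_mem
      · exact Algebra.subset_adjoin (Finset.mem_coe.mpr (Finset.mem_union_left _
          (Finsupp.mem_frange.mpr ⟨h0, i, rfl⟩)))
    have hmemy : ∀ i, bA.repr y i ∈ A₀ := by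
      intro i
      by_cases h0 : bA.repr y i = 0
      · rw [h0]; exact A₀.zero_mem
      · exact Algebra.subset_adjoin (Finset.mem_coe.mpr (Finset.mem_union_right _
          (Finsupp.mem_frange.mpr ⟨h0, i, rfl⟩)))
    let bA₀ := Algebra.TensorProduct.basis A₀ b
    let g : A → A₀ := fun a => if h : a ∈ A₀ then ⟨a, h⟩ else 0
    have hg0 : g 0 = 0 := by
      simp only [g, dif_pos A₀.zero_mem]
      rfl
    have hg : ∀ a (h : a ∈ A₀), ((g a : A₀) : A) = a := fun a h => by
      simp only [g, dif_pos h]
    let x₀ : A₀ ⊗[K] B := bA₀.repr.symm ((bA.repr x).mapRange g hg0)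
    let y₀ : A₀ ⊗[K] B := bA₀.repr.symm ((bA.repr y).mapRange g hg0)
    let j := Algebra.TensorProduct.map A₀.val (AlgHom.id K B)
    have hjinj : Function.Injective j := by
      rw [injective_iff_map_eq_zero]
      intro z hz
      apply bA₀.repr.injective
      ext i
      have h := basis_repr_map b A₀.val z i
      rw [show Algebra.TensorProduct.map A₀.val (AlgHom.id K B) z = 0 from hz] at h
      simpa using h.symm
    have hjx : j x₀ = x := by
      apply bA.repr.injective
      ext i
      rw [show bA.repr (j x₀) i = A₀.val (bA₀.repr x₀ i) from basis_repr_map b A₀.val x₀ i]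
      simp only [x₀, LinearEquiv.apply_symm_apply, Finsupp.mapRange_apply, Subalgebra.coe_val]
      exact hg _ (hmemx i)
    have hjy : j y₀ = y := by
      apply bA.repr.injective
      ext i
      rw [show bA.repr (j y₀) i = A₀.val (bA₀.repr y₀ i) from basis_repr_map b A₀.val y₀ i]
      simp only [y₀, LinearEquiv.apply_symm_apply, Finsupp.mapRange_apply, Subalgebra.coe_val]
      exact hg _ (hmemy i)
    have hxy₀ : x₀ * y₀ = 0 := by
      apply hjinj
      rw [map_mul, hjx, hjy, hxy, map_zero]
    have hx₀ : x₀ ≠ 0 := fun h => hx (by rw [← hjx, h, map_zero])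
    have hy₀ : y₀ ≠ 0 := fun h => hy (by rw [← hjy, h, map_zero])
    obtain ⟨i₀, hi₀⟩ : ∃ i, bA₀.repr x₀ i ≠ 0 := by
      by_contra hall
      simp only [not_exists, not_not] at hall
      exact hx₀ (bA₀.repr.injective (by ext i; simpa using congrArg Subtype.val (hall i)))
    obtain ⟨j₀, hj₀⟩ : ∃ i, bA₀.repr y₀ i ≠ 0 := by
      by_contra hall
      simp only [not_exists, not_not] at hall
      exact hy₀ (bA₀.repr.injective (by ext i; simpa using congrArg Subtype.val (hall i)))
    obtain ⟨φ, hφ⟩ := exists_algHom_apply_ne_zero K A₀ (mul_ne_zero hi₀ hj₀)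
    rw [map_mul] at hφ
    let Ψ := Algebra.TensorProduct.map φ (AlgHom.id K B)
    have hΨ : Algebra.TensorProduct.lid K B (Ψ x₀) * Algebra.TensorProduct.lid K B (Ψ y₀) = 0 := by
      rw [← map_mul, ← map_mul, hxy₀, map_zero, map_zero]
    rcases mul_eq_zero.mp hΨ with h | h
    · have h' : Ψ x₀ = 0 := (map_eq_zero_iff _ (Algebra.TensorProduct.lid K B).injective).mp h
      have h2 := basis_repr_map b φ x₀ i₀
      rw [show Algebra.TensorProduct.map φ (AlgHom.id K B) x₀ = 0 from h'] at h2
      apply hφ
      rw [show φ (bA₀.repr x₀ i₀) = 0 by simpa using h2.symm, zero_mul]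
    · have h' : Ψ y₀ = 0 := (map_eq_zero_iff _ (Algebra.TensorProduct.lid K B).injective).mp h
      have h2 := basis_repr_map b φ y₀ j₀
      rw [show Algebra.TensorProduct.map φ (AlgHom.id K B) y₀ = 0 from h'] at h2
      apply hφ
      rw [show φ (bA₀.repr y₀ j₀) = 0 by simpa using h2.symm, mul_zero]
  exact NoZeroDivisors.to_isDomain _
end H0b

end Fermat.Agent.S27.H
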