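import Fermat.Agent.S27.H.ConstExtBasic
import Fermat.Agent.S27.H.TensorDomain
import Fermat.Agent.S27.H.EmbedComplex

/-!
# S27, Part H: descent core (owner helper139)
`exists_descent_core`: a function field `F/K` (char 0, `K` algebraically closed), together with
finitely many constants `S` and functions `T`, descends to `F₁/K₁` with `K₁` algebraically closed
and embeddable in `ℂ`, and `F/K` is the constant field extension of `F₁/K₁`.
-/

set_option autoImplicit false
set_option linter.style.haveILetI false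
set_option linter.unusedSimpArgs false
noncomputable section
namespace Fermat.Agent.S27.H
open AlgebraicCurve Fermat.Agent.S24.FF IntermediateField Polynomial
open scoped TensorProduct

section AlgX
variable (k : Type*) {E : Type*} [Field k] [CommRing E] [Algebra k E]

/-- `E` as an algebra over `k[X]` via `X ↦ x`. -/
abbrev polyAlg (x : E) : Algebra k[X] E := (aeval x).toRingHom.toAlgebra

/-- `f` is algebraic over `k[x]`. -/
def IsAlgX (x f : E) : Prop := @IsAlgebraic k[X] E _ _ (polyAlg k x) f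

variable {k}
theorem IsAlgX.add [IsDomain E] {x f g : E} (hf : IsAlgX k x f) (hg : IsAlgX k x g) : IsAlgX k x (f + g) := by
  letI := polyAlg k x
  exact IsAlgebraic.add hf hg

theorem IsAlgX.mul [IsDomain E] {x f g : E} (hf : IsAlgX k x f) (hg : IsAlgX k x g) : IsAlgX k x (f * g) := by
  letI := polyAlg k x
  exact IsAlgebraic.mul hf hg

theorem isAlgX_aeval (x : E) (p : k[X]) : IsAlgX k x (aeval x p) := by
  letI := polyAlg k x
  exact isAlgebraic_algebraMap (R := k[X]) (A := E) p

theorem isAlgX_algebraMap (x : E) (c : k) : IsAlgX k x (algebraMap k E c) := by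
  simpa using isAlgX_aeval x (C c)

theorem isAlgX_self (x : E) : IsAlgX k x x := by
  simpa using isAlgX_aeval (k := k) x X

end AlgX

theorem IsAlgX.inv {k E : Type*} [Field k] [Field E] [Algebra k E] {x f : E} (hf : IsAlgX k x f) :
    IsAlgX k x f⁻¹ := by
  letI := polyAlg k x
  exact IsAlgebraic.inv hf

/-- functoriality of `IsAlgX` -/
theorem IsAlgX.map {k k' E E' : Type*} [Field k] [Field k'] [CommRing E] [CommRing E'] [Algebra k E]
    [Algebra k' E'] (φ : k →+* k') (g : E →+* E')
    (hcomm : (algebraMap k' E').comp φ = g.comp (algebraMap k E)) {x f : E}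
    (hf : IsAlgX k x f) : IsAlgX k' (g x) (g f) := by
  letI := polyAlg k x
  letI := polyAlg k' (g x)
  refine IsAlgebraic.ringHom_of_comp_eq (R := k[X]) (S := k'[X]) (A := E) (B := E')
    (mapRingHom φ) g hf (Polynomial.map_injective _ φ.injective) ?_
  apply Polynomial.ringHom_ext
  · intro a
    have := congrArg (fun h : k →+* E' => h a) hcomm
    simpa [RingHom.algebraMap_toAlgebra] using this
  · simp [RingHom.algebraMap_toAlgebra]

section LD
variable (K₁ F₁ K F : Type*) [Field K₁] [Field F₁] [Field K] [Field F]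
  [Algebra K₁ F₁] [Algebra K₁ K] [Algebra K F] [Algebra F₁ F] [Algebra K₁ F]
  [IsScalarTower K₁ F₁ F] [IsScalarTower K₁ K F]

theorem mulMap_injective_of_isAlgX [IsAlgClosed K₁] (x₁ : F₁)
    (hx : Transcendental K (algebraMap F₁ F x₁)) (halg : ∀ f : F₁, IsAlgX K₁ x₁ f) :
    Function.Injective (mulMap K₁ F₁ K F) := by
  haveI : IsDomain (K ⊗[K₁] F₁) := isDomain_tensorProduct_of_isAlgClosed K₁ K F₁
  set z₀ : K ⊗[K₁] F₁ := (1 : K) ⊗ₜ[K₁] x₁ with hz₀
  have hall : ∀ w : K ⊗[K₁] F₁, IsAlgX K z₀ w := by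
    intro w
    induction w using TensorProduct.induction_on with
    | zero => simpa using isAlgX_algebraMap (k := K) z₀ 0
    | add a b ha hb => exact ha.add hb
    | tmul c f =>
      have h1 : c ⊗ₜ[K₁] f = algebraMap K (K ⊗[K₁] F₁) c * ((1 : K) ⊗ₜ[K₁] f) := by
        simp [Algebra.TensorProduct.algebraMap_apply]
      rw [h1]
      refine (isAlgX_algebraMap z₀ c).mul ?_
      have := (halg f).map (algebraMap K₁ K)
        (Algebra.TensorProduct.includeRight (R := K₁) (A := K) (B := F₁)).toRingHom (by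
          ext a
          simp [Algebra.TensorProduct.algebraMap_apply, Algebra.algebraMap_eq_smul_one,
            TensorProduct.smul_tmul])
      simpa using this
  rw [injective_iff_map_eq_zero]
  intro z hz
  by_contra hne
  letI := polyAlg K z₀
  have h := Ideal.comap_ne_bot_of_algebraic_mem (R := K[X]) (I := RingHom.ker (mulMap K₁ F₁ K F))
    hne (by simpa [RingHom.mem_ker] using hz) (hall z)
  apply h
  rw [eq_bot_iff]
  intro p hp
  rw [Ideal.mem_comap, RingHom.mem_ker] at hp
  have h2 : mulMap K₁ F₁ K F (algebraMap K[X] (K ⊗[K₁] F₁) p) = aeval (algebraMap F₁ F x₁) p := by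
    have : algebraMap K[X] (K ⊗[K₁] F₁) p = aeval z₀ p := rfl
    rw [this, ← Polynomial.aeval_algHom_apply]
    simp [hz₀]
  rw [h2] at hp
  exact (Submodule.mem_bot _).mpr (by
    by_contra h0
    exact hx ⟨p, h0, hp⟩)

end LD

theorem isFF1_of_isAlgX (k E : Type*) [Field k] [Field E] [Algebra k E] [Algebra.EssFiniteType k E]
    (x : E) (hx : Transcendental k x) (h : ∀ f : E, IsAlgX k x f) : IsFF1 k E := by
  have halg : Algebra.IsAlgebraic (Algebra.adjoin k {x}) E := by
    constructor
    intro f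
    letI := polyAlg k x
    let φ : k[X] →ₐ[k] Algebra.adjoin k {x} := (aeval x).codRestrict _ (fun p => by
      rw [Algebra.adjoin_singleton_eq_range_aeval]; exact ⟨p, rfl⟩)
    have hφ : Function.Injective φ := by
      intro p q hpq
      have : aeval x p = aeval x q := congrArg Subtype.val hpq
      exact (transcendental_iff_injective.mp hx) this
    have := IsAlgebraic.ringHom_of_comp_eq (R := k[X]) (S := Algebra.adjoin k {x}) (A := E) (B := E)
      φ (RingHom.id E) (h f) hφ (by ext <;> rfl)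
    simpa using this
  constructor
  intro y hy
  have htr : Algebra.trdeg k E ≤ 1 := by
    have := Algebra.IsAlgebraic.trdeg_le_cardinalMk k ({x} : Set E)
    simpa using this
  have hind : AlgebraicIndependent k (fun _ : PUnit => y) :=
    algebraicIndependent_unique_type_iff.mpr hy
  have hb : IsTranscendenceBasis k (fun _ : PUnit => y) :=
    hind.isTranscendenceBasis_of_trdeg_le_of_finite (by simpa using htr)
  have h1 := hb.isAlgebraic_field
  have hr : Set.range (fun _ : PUnit => y) = {y} := by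
    ext z; simp [eq_comm]
  rw [hr] at h1
  have e3 : Algebra.EssFiniteType k⟮y⟯ E := Algebra.EssFiniteType.of_comp k k⟮y⟯ E
  exact Algebra.finite_of_essFiniteType_of_isAlgebraic


theorem polyAlg_comp_map (K₁ : Type*) {K F : Type*} [Field K₁] [Field K] [Field F] [Algebra K F]
    [Algebra K₁ K] [Algebra K₁ F] [IsScalarTower K₁ K F] (x : F) :
    ((aeval x : K[X] →ₐ[K] F).toRingHom).comp (mapRingHom (algebraMap K₁ K))
      = (aeval x : K₁[X] →ₐ[K₁] F).toRingHom := by
  apply Polynomial.ringHom_ext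
  · intro a
    simp [← IsScalarTower.algebraMap_apply]
  · simp

theorem exists_finset_isAlgX {K F : Type*} [Field K] [Field F] [Algebra K F] {x y : F}
    (h : IsAlgX K x y) :
    ∃ C : Finset K, ∀ (K₁ : Type*) [Field K₁] [Algebra K₁ K] [Algebra K₁ F] [IsScalarTower K₁ K F],
      (∀ c ∈ C, c ∈ Set.range (algebraMap K₁ K)) → IsAlgX K₁ x y := by
  classical
  obtain ⟨P, hP0, hP⟩ := h
  refine ⟨P.support.biUnion fun i => (P.coeff i).coeffs, ?_⟩
  intro K₁ _ _ _ _ hC
  have h1 : ∀ n, P.coeff n ∈ Polynomial.lifts (algebraMap K₁ K) := by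
    intro n
    rw [Polynomial.lifts_iff_coeff_lifts]
    intro m
    by_cases h0 : (P.coeff n).coeff m = 0
    · exact ⟨0, by simp [h0]⟩
    · apply hC
      rw [Finset.mem_biUnion]
      refine ⟨n, ?_, Polynomial.coeff_mem_coeffs h0⟩
      rw [Polynomial.mem_support_iff]
      intro h'
      simp [h'] at h0
  have h2 : P ∈ Polynomial.lifts (mapRingHom (algebraMap K₁ K)) := by
    rw [Polynomial.lifts_iff_coeff_lifts]
    intro n
    obtain ⟨q, hq⟩ := (Polynomial.mem_lifts _).mp (h1 n)
    exact ⟨q, hq⟩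
  obtain ⟨Q, hQ⟩ := (Polynomial.mem_lifts _).mp h2
  refine ⟨Q, ?_, ?_⟩
  · rintro rfl
    simp at hQ
    exact hP0 hQ.symm
  · rw [← hQ] at hP
    letI := polyAlg K x
    letI := polyAlg K₁ x
    rw [Polynomial.aeval_def, Polynomial.eval₂_map] at hP
    rw [Polynomial.aeval_def]
    have := polyAlg_comp_map K₁ (K := K) x
    rw [RingHom.algebraMap_toAlgebra, this] at hP
    exact hP

open scoped IntermediateField.algebraAdjoinAdjoin in
theorem isAlgX_of_isFF1 (K F : Type*) [Field K] [Field F] [Algebra K F] [IsFF1 K F] (x : F)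
    (hx : Transcendental K x) (y : F) : IsAlgX K x y := by
  haveI : FiniteDimensional K⟮x⟯ F := IsFF1.finite x hx
  haveI : Algebra.IsAlgebraic (Algebra.adjoin K {x}) F :=
    Algebra.IsAlgebraic.trans (Algebra.adjoin K {x}) K⟮x⟯ F
  letI := polyAlg K x
  let φ : K[X] →ₐ[K] Algebra.adjoin K {x} := (aeval x).codRestrict _ (fun p => by
    rw [Algebra.adjoin_singleton_eq_range_aeval]; exact ⟨p, rfl⟩)
  have hφ : Function.Surjective φ := by
    rintro ⟨z, hz⟩
    rw [Algebra.adjoin_singleton_eq_range_aeval] at hz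
    obtain ⟨p, hp⟩ := hz
    exact ⟨p, Subtype.ext hp⟩
  exact IsAlgebraic.of_ringHom_of_comp_eq (R := K[X]) (S := Algebra.adjoin K {x}) (A := F) (B := F)
    φ (RingHom.id F) (Algebra.IsAlgebraic.isAlgebraic (R := Algebra.adjoin K {x}) y) hφ
    Function.injective_id (by ext <;> rfl)

/-- reflect `IsAlgX` along an injective map of the top rings (same constants) -/
theorem IsAlgX.of_injective {k E E' : Type*} [Field k] [CommRing E] [CommRing E'] [Algebra k E]
    [Algebra k E'] (g : E →ₐ[k] E') (hg : Function.Injective g) {x f : E}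
    (hf : IsAlgX k (g x) (g f)) : IsAlgX k x f := by
  letI := polyAlg k x
  letI := polyAlg k (g x)
  refine IsAlgebraic.of_ringHom_of_comp_eq (R := k[X]) (S := k[X]) (A := E) (B := E')
    (RingHom.id k[X]) g.toRingHom hf Function.surjective_id hg ?_
  apply Polynomial.ringHom_ext
  · intro a
    simp [RingHom.algebraMap_toAlgebra]
  · simp [RingHom.algebraMap_toAlgebra]

/-- `IsConstExt` from injectivity of `mulMap` and generation. -/
theorem IsConstExt.of_injective_of_adjoin
    (K F K' F' : Type*) [Field K] [Field F] [Field K'] [Field F']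
    [Algebra K F] [Algebra K K'] [Algebra K' F'] [Algebra F F'] [Algebra K F']
    [IsScalarTower K F F'] [IsScalarTower K K' F']
    (h1 : Function.Injective (mulMap K F K' F'))
    (h2 : IntermediateField.adjoin K' (Set.range (algebraMap F F')) = ⊤) :
    IsConstExt K F K' F' := by
  refine ⟨h1, fun z => ?_⟩
  have hle : IntermediateField.adjoin K' (Set.range (algebraMap F F')) ≤ quotField K F K' F' := by
    rw [IntermediateField.adjoin_le_iff]
    rintro _ ⟨f, rfl⟩
    exact ⟨1 ⊗ₜ[K] f, 1, by simp, by simp⟩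
  rw [h2] at hle
  exact hle (IntermediateField.mem_top (x := z))

section Aux
variable (K₁ K F : Type*) [Field K₁] [Field K] [Field F] [Algebra K₁ K] [Algebra K F]
  [Algebra K₁ F] [IsScalarTower K₁ K F]

theorem descent_aux [DecidableEq F] [IsAlgClosed K₁] (x : F) (hx : Transcendental K x) (Y : Finset F)
    (hY : ∀ y ∈ Y, IsAlgX K₁ x y) (htop : IntermediateField.adjoin K (↑Y : Set F) = ⊤)
    (F₁ : IntermediateField K₁ F)
    (hF₁ : F₁ = IntermediateField.adjoin K₁ (↑(insert x Y : Finset F) : Set F)) :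
    ∃ hx₁ : x ∈ F₁, IsFF1 K₁ F₁ ∧ Transcendental K₁ (⟨x, hx₁⟩ : F₁) ∧ IsConstExt K₁ F₁ K F := by
  have hx₁ : x ∈ F₁ := by
    rw [hF₁]; exact IntermediateField.subset_adjoin _ _ (by simp)
  refine ⟨hx₁, ?_⟩
  have hxK₁ : Transcendental K₁ x := by
    intro h
    exact hx (h.tower_top K)
  have htr : Transcendental K₁ (⟨x, hx₁⟩ : F₁) := by
    intro h
    apply hxK₁
    have := h.algHom F₁.val
    simpa using this
  have hall : ∀ f ∈ F₁, IsAlgX K₁ x f := by
    intro f hf
    rw [hF₁] at hf
    induction hf using IntermediateField.adjoin_induction with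
    | mem z hz =>
      simp only [Finset.coe_insert, Set.mem_insert_iff, Finset.mem_coe] at hz
      rcases hz with rfl | hz
      · exact isAlgX_self _
      · exact hY z hz
    | algebraMap c => exact isAlgX_algebraMap x c
    | add a b _ _ ha hb => exact ha.add hb
    | inv a _ ha => exact ha.inv
    | mul a b _ _ ha hb => exact ha.mul hb
  have hall' : ∀ f : F₁, IsAlgX K₁ (⟨x, hx₁⟩ : F₁) f := by
    intro f
    exact IsAlgX.of_injective F₁.val Subtype.val_injective (hall f.1 f.2)
  haveI : Algebra.EssFiniteType K₁ F₁ := by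
    rw [IntermediateField.essFiniteType_iff, hF₁]
    exact IntermediateField.fg_adjoin_finset _
  refine ⟨isFF1_of_isAlgX K₁ F₁ _ htr hall', htr, ?_⟩
  apply IsConstExt.of_injective_of_adjoin
  · exact mulMap_injective_of_isAlgX K₁ F₁ K F ⟨x, hx₁⟩ hx hall'
  · rw [eq_top_iff, ← htop]
    apply IntermediateField.adjoin.mono
    intro y hy
    refine ⟨⟨y, ?_⟩, rfl⟩
    rw [hF₁]
    exact IntermediateField.subset_adjoin _ _ (by simp [Finset.mem_coe.mp hy])

end Aux

universe u v

theorem exists_descent_core (K : Type u) (F : Type v) [Field K] [Field F] [Algebra K F]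
    [IsAlgClosed K] [CharZero K] [IsFF1 K F] (x : F) (hx : Transcendental K x) (S : Finset K)
    (T : Finset F) :
    ∃ (K₁ : Type u) (F₁ : Type v) (_ : Field K₁) (_ : Field F₁) (_ : Algebra K₁ F₁)
      (_ : Algebra K₁ K) (_ : Algebra F₁ F) (_ : Algebra K₁ F) (_ : IsScalarTower K₁ F₁ F)
      (_ : IsScalarTower K₁ K F),
      IsAlgClosed K₁ ∧ CharZero K₁ ∧ IsFF1 K₁ F₁ ∧
      (∃ x₁ : F₁, algebraMap F₁ F x₁ = x ∧ Transcendental K₁ x₁) ∧
      IsConstExt K₁ F₁ K F ∧ (∀ s ∈ S, s ∈ Set.range (algebraMap K₁ K)) ∧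
      (∀ t ∈ T, t ∈ Set.range (algebraMap F₁ F)) ∧ Nonempty (K₁ →+* ℂ) := by
  classical
  haveI : FiniteDimensional K⟮x⟯ F := IsFF1.finite x hx
  haveI e1 : Algebra.EssFiniteType K K⟮x⟯ := by
    rw [IntermediateField.essFiniteType_iff]
    have := IntermediateField.fg_adjoin_finset (F := K) ({x} : Finset F)
    simpa using this
  haveI e2 : Algebra.EssFiniteType K F := Algebra.EssFiniteType.comp K K⟮x⟯ F
  obtain ⟨Y₀, hY₀⟩ := (IntermediateField.fg_top_iff (F := K) (E := F)).mpr e2
  choose Cf hCf using fun y : F => exists_finset_isAlgX.{u, v, u} (isAlgX_of_isFF1 K F x hx y)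
  obtain ⟨K₁, hC, hac, hemb⟩ := exists_embedding_complex (S ∪ (Y₀ ∪ T).biUnion Cf)
  haveI := hac
  have hY : ∀ y ∈ Y₀ ∪ T, IsAlgX K₁ x y := by
    intro y hy
    apply hCf y K₁
    intro c hc
    exact ⟨⟨c, hC (by
      rw [Finset.mem_coe, Finset.mem_union, Finset.mem_biUnion]
      exact Or.inr ⟨y, hy, hc⟩)⟩, rfl⟩
  have htop : IntermediateField.adjoin K (↑(Y₀ ∪ T) : Set F) = ⊤ := by
    rw [eq_top_iff, ← hY₀]
    exact IntermediateField.adjoin.mono _ _ _ (by simp)
  obtain ⟨hx₁, h1, h2, h3⟩ := descent_aux K₁ K F x hx (Y₀ ∪ T) hY htop _ rfl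
  refine ⟨K₁, IntermediateField.adjoin K₁ (↑(insert x (Y₀ ∪ T) : Finset F) : Set F),
    inferInstance, inferInstance, inferInstance, inferInstance, inferInstance, inferInstance,
    inferInstance, inferInstance, hac, inferInstance, h1, ⟨⟨x, hx₁⟩, rfl, h2⟩, h3, ?_, ?_, hemb⟩
  · intro s hs
    exact ⟨⟨s, hC (by simp [hs])⟩, rfl⟩
  · intro t ht
    exact ⟨⟨t, IntermediateField.subset_adjoin _ _ (by simp [ht])⟩, rfl⟩

end Fermat.Agent.S27.H
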