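import Fermat.Agent.S27.H.Eps
import Fermat.Agent.S27.H.ConstExtRight
import Fermat.Agent.S27.H.DescentCore

/-!
# S27, Part H: descent of a function field and finitely many places to a small constant field
Task H9a.  Sub-captain of Part H: helper87.  Owner of this file: helper110.
The construction itself (`exists_descent_core`) is due to helper139 (`DescentCore.lean`); the
symmetric criterion `IsConstExt.of_linearIndependent_right` is in `ConstExtRight.lean`.
-/

set_option autoImplicit false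

noncomputable section

namespace Fermat.Agent.S27.H

open AlgebraicCurve Fermat.Agent.S24.FF IntermediateField
open scoped TensorProduct

theorem exists_descent.{u1, u2} (K : Type u1) (F : Type u2) [Field K] [Field F] [Algebra K F]
    [IsAlgClosed K] [CharZero K] [IsFF1 K F] (hF : ∃ x : F, Transcendental K x)
    (T : Finset (Place K F)) :
    ∃ (K₁ : Type u1) (F₁ : Type u2) (_ : Field K₁) (_ : Field F₁) (_ : Algebra K₁ F₁)
      (_ : Algebra K₁ K) (_ : Algebra F₁ F) (_ : Algebra K₁ F) (_ : IsScalarTower K₁ F₁ F)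
      (_ : IsScalarTower K₁ K F),
      IsAlgClosed K₁ ∧ CharZero K₁ ∧ Nonempty (K₁ →+* ℂ) ∧ IsFF1 K₁ F₁ ∧
      (∃ x : F₁, Transcendental K₁ x) ∧ IsConstExt K₁ F₁ K F ∧
      ∀ w ∈ T, ∃ v : Place K₁ F₁, LiesOver w v := by
  classical
  obtain ⟨x, hx⟩ := hF
  -- the value of `x` at a place where it is regular
  have hc : ∀ w : Place K F, ∃ c : K, 0 ≤ w.ord x → 0 < w.ord (x - algebraMap K F c) := by
    intro w
    by_cases h : 0 ≤ w.ord x
    · obtain ⟨c, hc | hc⟩ := exists_const_of_ord_nonneg w h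
      · exact absurd (hc ▸ isAlgebraic_algebraMap c) hx
      · exact ⟨c, fun _ => hc⟩
    · exact ⟨0, fun h' => absurd h' h⟩
  choose c hc using hc
  obtain ⟨K₁, F₁, i1, i2, i3, i4, i5, i6, i7, i8, h1, h2, h3, ⟨x₁, hx₁, htr⟩, h5, hS, -, h8⟩ :=
    exists_descent_core K F x hx (T.image c) ∅
  refine ⟨K₁, F₁, i1, i2, i3, i4, i5, i6, i7, i8, h1, h2, h8, h3, ⟨x₁, htr⟩, h5, ?_⟩
  intro w hw
  by_cases h : 0 ≤ w.ord x
  · obtain ⟨c₁, hc₁⟩ := hS (c w) (Finset.mem_image_of_mem c hw)
    refine exists_liesOver_of_ord_pos (K := K₁) (F := F₁) w (f := x₁ - algebraMap K₁ F₁ c₁) ?_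
    rw [map_sub, hx₁, ← IsScalarTower.algebraMap_apply K₁ F₁ F,
      IsScalarTower.algebraMap_apply K₁ K F, hc₁]
    exact hc w h
  · refine exists_liesOver_of_ord_pos (K := K₁) (F := F₁) w (f := x₁⁻¹) ?_
    rw [map_inv₀, hx₁, w.ord_inv]
    omega

end Fermat.Agent.S27.H
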