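import Fermat.Agent.S27.H.Defs

/-!
# S27, Part H: basic consequences and a criterion for `IsConstExt`
Task H0a (see the `tasks` table, stmt = 'S27').  Sub-captain of Part H: helper87.
Proved by helper168.
-/

set_option autoImplicit false

noncomputable section

namespace Fermat.Agent.S27.H

open AlgebraicCurve Fermat.Agent.S24.FF IntermediateField
open scoped TensorProduct

section H0a
variable (K F K' F' : Type*) [Field K] [Field F] [Field K'] [Field F']
  [Algebra K F] [Algebra K K'] [Algebra K' F'] [Algebra F F'] [Algebra K F']
  [IsScalarTower K F F'] [IsScalarTower K K' F'] [IsConstExt K F K' F']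

theorem IsConstExt.linearIndependent {ι : Type*} {b : ι → F} (hb : LinearIndependent K b) :
    LinearIndependent K' (fun i => algebraMap F F' (b i)) := by
  have h1 : LinearIndependent K' (fun i => (1 : K') ⊗ₜ[K] b i) :=
    Module.Flat.linearIndependent_one_tmul hb
  have h2 := h1.map' (mulMap K F K' F').toLinearMap
    (LinearMap.ker_eq_bot.mpr (IsConstExt.injective (K := K) (F := F) (K' := K') (F' := F')))
  have h3 : (fun i => algebraMap F F' (b i))
      = (mulMap K F K' F').toLinearMap ∘ fun i => (1 : K') ⊗ₜ[K] b i := by
    funext i
    simp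
  rw [h3]
  exact h2

/-- `mulMap a` lies in the field generated over `K'` by the image of `F`. -/
theorem mulMap_mem_adjoin
    (K F K' F' : Type*) [Field K] [Field F] [Field K'] [Field F']
    [Algebra K F] [Algebra K K'] [Algebra K' F'] [Algebra F F'] [Algebra K F']
    [IsScalarTower K F F'] [IsScalarTower K K' F'] (a : K' ⊗[K] F) :
    mulMap K F K' F' a ∈ IntermediateField.adjoin K' (Set.range (algebraMap F F')) := by
  induction a using TensorProduct.induction_on with
  | zero => simp
  | tmul c f =>
    rw [mulMap_tmul]
    exact mul_mem (IntermediateField.algebraMap_mem _ c)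
      (IntermediateField.subset_adjoin _ _ ⟨f, rfl⟩)
  | add x y hx hy =>
    rw [map_add]
    exact add_mem hx hy

include K in
theorem IsConstExt.adjoin_eq_top :
    IntermediateField.adjoin K' (Set.range (algebraMap F F')) = ⊤ := by
  rw [eq_top_iff]
  intro z _
  obtain ⟨a, b, -, rfl⟩ := IsConstExt.exists_div (K := K) (F := F) (K' := K') z
  exact div_mem (mulMap_mem_adjoin K F K' F' a) (mulMap_mem_adjoin K F K' F' b)

/-- The set of quotients `mulMap a / mulMap b` as an intermediate field. -/
def quotField
    (K F K' F' : Type*) [Field K] [Field F] [Field K'] [Field F']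
    [Algebra K F] [Algebra K K'] [Algebra K' F'] [Algebra F F'] [Algebra K F']
    [IsScalarTower K F F'] [IsScalarTower K K' F'] : IntermediateField K' F' where
  carrier := {z | ∃ a b : K' ⊗[K] F, mulMap K F K' F' b ≠ 0 ∧
    z = mulMap K F K' F' a / mulMap K F K' F' b}
  mul_mem' := by
    rintro _ _ ⟨a, b, hb, rfl⟩ ⟨c, d, hd, rfl⟩
    refine ⟨a * c, b * d, ?_, ?_⟩
    · rw [map_mul]; exact mul_ne_zero hb hd
    · rw [map_mul, map_mul, div_mul_div_comm]
  one_mem' := ⟨1, 1, by simp, by simp⟩
  add_mem' := by
    rintro _ _ ⟨a, b, hb, rfl⟩ ⟨c, d, hd, rfl⟩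
    refine ⟨a * d + b * c, b * d, ?_, ?_⟩
    · rw [map_mul]; exact mul_ne_zero hb hd
    · rw [map_add, map_mul, map_mul, map_mul, div_add_div _ _ hb hd]
  zero_mem' := ⟨0, 1, by simp, by simp⟩
  algebraMap_mem' := by
    intro c
    refine ⟨c ⊗ₜ[K] 1, 1, by simp, ?_⟩
    simp
  inv_mem' := by
    rintro _ ⟨a, b, hb, rfl⟩
    by_cases ha : mulMap K F K' F' a = 0
    · exact ⟨0, 1, by simp, by simp [ha]⟩
    · exact ⟨b, a, ha, by rw [inv_div]⟩

/-- criterion used for the descent -/
theorem IsConstExt.of_linearIndependent_of_adjoin
    (K F K' F' : Type*) [Field K] [Field F] [Field K'] [Field F']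
    [Algebra K F] [Algebra K K'] [Algebra K' F'] [Algebra F F'] [Algebra K F']
    [IsScalarTower K F F'] [IsScalarTower K K' F']
    (h1 : ∀ (n : ℕ) (b : Fin n → F), LinearIndependent K b →
      LinearIndependent K' (fun i => algebraMap F F' (b i)))
    (h2 : IntermediateField.adjoin K' (Set.range (algebraMap F F')) = ⊤) :
    IsConstExt K F K' F' := by
  classical
  constructor
  · -- injectivity
    rw [injective_iff_map_eq_zero]
    intro z hz
    -- a `K`-basis of `F` and its base change
    let B := Module.Basis.ofVectorSpace K F
    let B' : Module.Basis _ K' (K' ⊗[K] F) := B.baseChange K'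
    -- the family `algebraMap (B i)` is `K'`-independent
    have hind : LinearIndependent K' (fun i => algebraMap F F' (B i)) := by
      rw [linearIndependent_iff_finset_linearIndependent]
      intro s
      have hs : LinearIndependent K (fun i : s => B i) :=
        B.linearIndependent.comp _ Subtype.val_injective
      let e := s.equivFin
      have hs' : LinearIndependent K (fun k : Fin s.card => B (e.symm k)) :=
        hs.comp _ e.symm.injective
      have := h1 _ _ hs'
      have h3 := this.comp e e.injective
      convert h3 using 1
      funext i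
      simp
    have hrepr : z = ∑ i ∈ (B'.repr z).support, (B'.repr z i) • B' i := by
      conv_lhs => rw [← B'.linearCombination_repr z]
      rw [Finsupp.linearCombination_apply, Finsupp.sum]
    have hmap : mulMap K F K' F' z
        = ∑ i ∈ (B'.repr z).support, (B'.repr z i) • algebraMap F F' (B i) := by
      conv_lhs => rw [hrepr]
      rw [map_sum]
      refine Finset.sum_congr rfl fun i _ => ?_
      rw [map_smul]
      congr 1
      simp [B', Module.Basis.baseChange_apply]
    rw [hz] at hmap
    have hzero := linearIndependent_iff'.mp hind _ _ hmap.symm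
    have : B'.repr z = 0 := by
      ext i
      by_cases hi : i ∈ (B'.repr z).support
      · exact hzero i hi
      · simpa using hi
    simpa using this
  · -- every element is a quotient
    intro z
    have hle : IntermediateField.adjoin K' (Set.range (algebraMap F F')) ≤ quotField K F K' F' := by
      rw [IntermediateField.adjoin_le_iff]
      rintro _ ⟨f, rfl⟩
      exact ⟨1 ⊗ₜ[K] f, 1, by simp, by simp⟩
    rw [h2] at hle
    exact hle (IntermediateField.mem_top (x := z))
end H0a

end Fermat.Agent.S27.H
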