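import Fermat.Agent.S27.H.TensorDomain
import Fermat.Agent.S27.H.ConstExtBasic

/-!
# S27, Part H: existence of the constant field extension
Task H0c (see the `tasks` table, stmt = 'S27').  Sub-captain of Part H: helper87.
Proved by helper265.
-/

set_option autoImplicit false

noncomputable section

namespace Fermat.Agent.S27.H

open AlgebraicCurve Fermat.Agent.S24.FF IntermediateField
open scoped TensorProduct

section H0c
variable (K F K' : Type*) [Field K] [Field F] [Field K'] [Algebra K F] [Algebra K K']

/-- existence of a constant field extension, in the universe of `K' ⊗ F` -/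
theorem exists_constExt.{u1, u2, u3} (K : Type u1) (F : Type u2) (K' : Type u3)
    [Field K] [Field F] [Field K'] [Algebra K F] [Algebra K K'] [IsAlgClosed K] :
    ∃ (F' : Type (max u2 u3)) (_ : Field F') (_ : Algebra K' F') (_ : Algebra F F')
      (_ : Algebra K F') (_ : IsScalarTower K F F') (_ : IsScalarTower K K' F'),
      IsConstExt K F K' F' := by
  have hdom : IsDomain (K' ⊗[K] F) := isDomain_tensorProduct_of_isAlgClosed K K' F
  let T := K' ⊗[K] F
  let F' := FractionRing T
  let iF : Algebra F F' :=
    ((algebraMap T F').comp (Algebra.TensorProduct.includeRight : F →ₐ[K] T).toRingHom).toAlgebra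
  have hF : ∀ f : F, algebraMap F F' f = algebraMap T F' ((1 : K') ⊗ₜ[K] f) := fun f => rfl
  have hK' : ∀ c : K', algebraMap K' F' c = algebraMap T F' (c ⊗ₜ[K] (1 : F)) := fun c => by
    rw [IsScalarTower.algebraMap_apply K' T F']
    rfl
  have hK : ∀ c : K, algebraMap K F' c = algebraMap T F' (algebraMap K T c) := fun c =>
    IsScalarTower.algebraMap_apply K T F' c
  have t1 : IsScalarTower K F F' := IsScalarTower.of_algebraMap_eq fun c => by
    rw [hK, hF]
    congr 1
    rw [Algebra.TensorProduct.algebraMap_apply, Algebra.algebraMap_eq_smul_one,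
      Algebra.algebraMap_eq_smul_one, TensorProduct.smul_tmul]
  have t2 : IsScalarTower K K' F' := IsScalarTower.of_algebraMap_eq fun c => by
    rw [hK, hK']
    rfl
  have hmul : ∀ z : T, mulMap K F K' F' z = algebraMap T F' z := by
    intro z
    induction z using TensorProduct.induction_on with
    | zero => simp
    | tmul c f =>
      rw [mulMap_tmul, hK', hF, ← map_mul, Algebra.TensorProduct.tmul_mul_tmul, mul_one, one_mul]
    | add x y hx hy => rw [map_add, map_add, hx, hy]
  refine ⟨F', inferInstance, inferInstance, iF, inferInstance, t1, t2, ⟨?_, ?_⟩⟩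
  · intro x y hxy
    rw [hmul, hmul] at hxy
    exact IsFractionRing.injective T F' hxy
  · intro z
    obtain ⟨a, b, hb, rfl⟩ := IsFractionRing.div_surjective (A := T) z
    refine ⟨a, b, ?_, ?_⟩
    · rw [hmul]
      exact IsFractionRing.to_map_ne_zero_of_mem_nonZeroDivisors hb
    · rw [hmul, hmul]
end H0c

end Fermat.Agent.S27.H
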