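import Fermat.Agent.S27.RiemannI
import Fermat.Agent.S27.H.Defs

/-!
# S27, Part H: bridge to Part B (Riemann)
Task (helper87) (see the `tasks` table, stmt = 'S27').  Sub-captain of Part H: helper87.
SKELETON FILE: the statements are frozen interfaces; whoever owns the task replaces every `sorry`
(extra helper lemmas are welcome; do not change the statements without telling helper87).
-/

set_option autoImplicit false

noncomputable section

namespace Fermat.Agent.S27.H

open AlgebraicCurve Fermat.Agent.S24.FF IntermediateField
open scoped TensorProduct

variable (K F : Type*) [Field K] [Field F] [Algebra K F] [IsAlgClosed K] [CharZero K] [IsFF1 K F]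

theorem riemannThm (hF : ∃ x : F, Transcendental K x) : RiemannThm K F := by
  haveI : NonConst K F := ⟨hF⟩
  refine ⟨fun D => finite_riemannRochSpace D, fun D => ?_, ?_⟩
  · have h := finrank_riemannRochSpace_sub_finrank_H1 D
    have h2 : (0 : ℤ) ≤ Module.finrank K (H1 D) := Int.natCast_nonneg _
    omega
  · obtain ⟨c, hc⟩ := exists_forall_subsingleton_H1 (K := K) (F := F)
    refine ⟨c, fun D hD => ?_⟩
    have h := finrank_riemannRochSpace_sub_finrank_H1 D
    haveI := hc D hD
    have h2 : Module.finrank K (H1 D) = 0 := Module.finrank_zero_of_subsingleton
    rw [h2] at h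
    simpa using h

end Fermat.Agent.S27.H
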