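import Fermat.Agent.S27.H.Rigidity
import Fermat.Agent.S27.H.Model
import Fermat.Agent.S27.H.Descent
import Fermat.Agent.S27.H.PartB

/-!
# S27, Part H: the general case from the complex case
Task H9b (see the `tasks` table, stmt = 'S27').  Sub-captain of Part H: helper87.
Proofs: helper82.
-/

set_option autoImplicit false
set_option linter.style.haveILetI false

noncomputable section

namespace Fermat.Agent.S27.H

open AlgebraicCurve Fermat.Agent.S24.FF IntermediateField
open scoped TensorProduct

universe u1 u2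

theorem card_torsion_of_embeds (hC : CaseC.{u2}) (K : Type u1) (F : Type u2) [Field K] [Field F]
    [Algebra K F] [IsAlgClosed K] [CharZero K] [IsFF1 K F] (hK : Nonempty (K →+* ℂ))
    (hF : ∃ x : F, Transcendental K x) (n : ℕ) (hn : 0 < n) :
    Nat.card (Pic0.torsion K F n) = n ^ (2 * genusFF K F) := by
  obtain ⟨φ⟩ := hK
  letI : Algebra K ℂ := φ.toAlgebra
  obtain ⟨F', _, _, _, _, _, _, hce⟩ := exists_constExt.{u1, u2, 0} K F ℂ
  haveI := hce
  haveI : IsFF1 ℂ F' := isFF1_of_isConstExt K F ℂ F' hF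
  have hF' : ∃ x : F', Transcendental ℂ x := by
    obtain ⟨x, hx⟩ := hF
    exact ⟨_, transcendental_algebraMap (K' := ℂ) (F' := F') hx⟩
  have h1 : Nat.card (Pic0.torsion ℂ F' n) = n ^ (2 * genusFF ℂ F') := hC F' hF' n hn
  have hfin : Finite (Pic0.torsion ℂ F' n) := by
    apply Nat.finite_of_card_ne_zero
    rw [h1]
    exact (pow_pos hn _).ne'
  rw [card_torsion_eq K F ℂ F' hF (riemannThm ℂ F' hF') n hfin, h1,
    genusFF_eq K F ℂ F' hF (riemannThm K F hF) (riemannThm ℂ F' hF')]

namespace Main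

section

variable {K F K' F' : Type*} [Field K] [Field F] [Field K'] [Field F']
  [Algebra K F] [Algebra K K'] [Algebra K' F'] [Algebra F F'] [Algebra K F']
  [IsScalarTower K F F'] [IsScalarTower K K' F']
  [IsAlgClosed K] [CharZero K] [IsAlgClosed K'] [CharZero K'] [IsFF1 K F] [IsFF1 K' F']
  [IsConstExt K F K' F']

/-- a class represented by a divisor supported on places lying over places of `F` comes from
`F`. -/
theorem exists_pic0Map_eq_mk (D : Divisor.degZero (K := K') (F := F'))
    (hD : ∀ w ∈ (D : Divisor K' F').support, ∃ v : Place K F, LiesOver w v) :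
    ∃ c₀ : Pic0 K F, pic0Map K F K' F' c₀ = Pic0.mk D := by
  obtain ⟨E₀, hE₀⟩ := exists_epsDiv_eq (K := K) (F := F) (D : Divisor K' F') (fun w hw => by
    obtain ⟨v, hv⟩ := hD w hw
    exact ⟨v, hv.left_unique (eps_liesOver v)⟩)
  have hdeg : E₀ ∈ Divisor.degZero (K := K) (F := F) := by
    rw [Divisor.mem_degZero, ← degree_epsDiv (K' := K') (F' := F') E₀, hE₀]
    exact D.2
  refine ⟨Pic0.mk ⟨E₀, hdeg⟩, ?_⟩
  rw [Pic0.mk, Pic0.mk, pic0Map, QuotientAddGroup.map_mk]
  congr 1
  exact Subtype.ext hE₀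

theorem mem_torsion_of_pic0Map {n : ℕ} {c₀ : Pic0 K F}
    (h : pic0Map K F K' F' c₀ ∈ Pic0.torsion K' F' n) : c₀ ∈ Pic0.torsion K F n := by
  rw [Pic0.mem_torsion] at h ⊢
  apply pic0Map_injective (K' := K') (F' := F')
  rw [map_zsmul, h, map_zero]

theorem pic0Map_mem_torsion {n : ℕ} {c₀ : Pic0 K F}
    (h : c₀ ∈ Pic0.torsion K F n) : pic0Map K F K' F' c₀ ∈ Pic0.torsion K' F' n := by
  rw [Pic0.mem_torsion] at h ⊢
  rw [← map_zsmul, h, map_zero]

end

end Main

/-- **Part H**: the complex case implies the general case. -/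
theorem card_torsion_of_caseC (hC : CaseC.{u2}) (K : Type u1) (F : Type u2) [Field K] [Field F]
    [Algebra K F] [IsAlgClosed K] [CharZero K] [IsFF1 K F]
    (hF : ∃ x : F, Transcendental K x) (n : ℕ) (hn : 0 < n) :
    Nat.card (Pic0.torsion K F n) = n ^ (2 * genusFF K F) := by
  classical
  -- every finite set of torsion classes has at most `N` elements
  have hA : ∀ A : Finset (Pic0 K F), (∀ c ∈ A, c ∈ Pic0.torsion K F n) →
      A.card ≤ n ^ (2 * genusFF K F) := by
    intro A hAt
    choose rep hrep using (Pic0.mk_surjective (K := K) (F := F))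
    obtain ⟨K₁, F₁, _, _, _, _, _, _, _, _, h1, h2, h3, h4, hx, hce, hT⟩ :=
      exists_descent K F hF (A.biUnion fun c => (rep c : Divisor K F).support)
    haveI := h1
    haveI := h2
    haveI := h4
    haveI := hce
    have hcard := card_torsion_of_embeds hC K₁ F₁ h3 hx n hn
    have hg : genusFF K F = genusFF K₁ F₁ :=
      genusFF_eq K₁ F₁ K F hx (riemannThm K₁ F₁ hx) (riemannThm K F hF)
    have hfin : Finite (Pic0.torsion K₁ F₁ n) := by
      apply Nat.finite_of_card_ne_zero
      rw [hcard]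
      exact (pow_pos hn _).ne'
    have hex : ∀ c : A, ∃ c₀ : Pic0.torsion K₁ F₁ n, pic0Map K₁ F₁ K F c₀ = c := by
      intro c
      obtain ⟨c₀, hc₀⟩ := Main.exists_pic0Map_eq_mk (K := K₁) (F := F₁) (rep c) (fun w hw =>
        hT w (Finset.mem_biUnion.mpr ⟨c, c.2, hw⟩))
      rw [hrep] at hc₀
      refine ⟨⟨c₀, Main.mem_torsion_of_pic0Map (K' := K) (F' := F) ?_⟩, hc₀⟩
      rw [hc₀]
      exact hAt c c.2
    choose g hgc using hex
    have hinj : Function.Injective g := by
      intro c c' h
      apply Subtype.ext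
      rw [← hgc c, ← hgc c', h]
    have := Nat.card_le_card_of_injective g hinj
    rw [hcard, Nat.card_eq_fintype_card, Fintype.card_coe, ← hg] at this
    exact this
  -- hence the torsion subgroup is finite
  have hfinset : ((Pic0.torsion K F n : AddSubgroup (Pic0 K F)) : Set (Pic0 K F)).Finite := by
    by_contra hinf
    obtain ⟨t, ht, htc⟩ := Set.Infinite.exists_subset_card_eq hinf (n ^ (2 * genusFF K F) + 1)
    have := hA t (fun c hc => ht hc)
    omega
  haveI hfin : Finite (Pic0.torsion K F n) := hfinset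
  apply le_antisymm
  · have := hA hfinset.toFinset (fun c hc => by simpa using hc)
    rw [← Set.ncard_eq_toFinset_card _ hfinset, ← Nat.card_coe_set_eq] at this
    exact this
  · obtain ⟨K₁, F₁, _, _, _, _, _, _, _, _, h1, h2, h3, h4, hx, hce, -⟩ :=
      exists_descent K F hF ∅
    haveI := h1
    haveI := h2
    haveI := h4
    haveI := hce
    have hcard := card_torsion_of_embeds hC K₁ F₁ h3 hx n hn
    have hg : genusFF K F = genusFF K₁ F₁ :=
      genusFF_eq K₁ F₁ K F hx (riemannThm K₁ F₁ hx) (riemannThm K F hF)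
    rw [hg, ← hcard]
    refine Nat.card_le_card_of_injective
      (fun c : Pic0.torsion K₁ F₁ n =>
        (⟨pic0Map K₁ F₁ K F c, Main.pic0Map_mem_torsion c.2⟩ : Pic0.torsion K F n)) ?_
    intro c c' h
    apply Subtype.ext
    apply pic0Map_injective (K' := K) (F' := F)
    exact congrArg Subtype.val h

end Fermat.Agent.S27.H
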