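import Fermat.Agent.S27.H.Eps

/-!
# S27, Part H: Riemann-Roch spaces commute with constant field extension
Task H4 (see the `tasks` table, stmt = 'S27').  Sub-captain of Part H: helper87.  Owner: helper90.

Plan of the proof of `mem_span_of_mem_riemannRochSpace`:
* Step A: an element `z` of `L(eps D)` lies in the ring `K' F` (the range of `mulMap`).  After
  clearing the poles at finite distance, `z` becomes integral over `K'[x]`, and Euler's lemma on
  the different shows that the integral closure of `K'[x]` is contained in `d⁻¹ K'[x, y]` where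
  `d = P'(y)` comes from `F`.
* Step B: a Gauss lemma.  For `z = ∑ e_i f_i` with `e_i` a `K`-basis of `K'` one has
  `ord_{eps v} z = min ord_v f_i`.
-/

set_option autoImplicit false
set_option linter.style.haveILetI false
set_option linter.unusedSectionVars false

noncomputable section

namespace Fermat.Agent.S27.H

open AlgebraicCurve Fermat.Agent.S24.FF IntermediateField IsDedekindDomain Polynomial
open scoped TensorProduct IntermediateField.algebraAdjoinAdjoin Pointwise

namespace LSpace

section General

variable {K F : Type*} [Field K] [Field F] [Algebra K F] [IsAlgClosed K] [CharZero K] [IsFF1 K F]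

/-- A function which is regular wherever `x` is regular is integral over `K[x]`. -/
theorem isIntegral_of_forall_ord {x : F} (hx : Transcendental K x) {u : F}
    (hu : ∀ w : Place K F, 0 ≤ w.ord x → 0 ≤ w.ord u) : IsIntegral (Algebra.adjoin K {x}) u := by
  haveI : FiniteDimensional K⟮x⟯ F := IsFF1.finite x hx
  haveI := isPrincipalIdealRing_adjoin x hx
  haveI : CharZero K⟮x⟯ := charZero_of_injective_algebraMap (algebraMap K K⟮x⟯).injective
  haveI : IsDedekindDomain (integralClosure (Algebra.adjoin K {x}) F) :=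
    integralClosure.isDedekindDomain (Algebra.adjoin K {x}) K⟮x⟯ F
  haveI : IsFractionRing (integralClosure (Algebra.adjoin K {x}) F) F :=
    integralClosure.isFractionRing_of_finite_extension K⟮x⟯ F
  have hxB : x ∈ integralClosure (Algebra.adjoin K {x}) F :=
    (isIntegral_algebraMap (R := Algebra.adjoin K {x}) (A := F)
      (x := ⟨x, Algebra.self_mem_adjoin_singleton K x⟩))
  have h : ∀ w : HeightOneSpectrum (integralClosure (Algebra.adjoin K {x}) F),
      w.valuation F u ≤ 1 := by
    intro w
    have h1 := algebraMap_mem_ofHeightOneSpectrum (K := K) (F := F) w ⟨x, hxB⟩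
    have h2 : 0 ≤ (Place.ofHeightOneSpectrum (K := K) (F := F) w).ord x :=
      ord_nonneg_of_mem _ h1
    have h3 := mem_of_ord_nonneg _ (hu _ h2)
    rwa [Place.ofHeightOneSpectrum_toValuationSubring, Valuation.mem_valuationSubring_iff] at h3
  obtain ⟨b, hb⟩ := HeightOneSpectrum.mem_integers_of_valuation_le_one F u h
  rw [← hb]
  exact b.2


/-- Euler's lemma: the different of a primitive integral element kills the quotient of the
integral closure by `K[x][y]`. -/
theorem euler_mul_mem {x y : F} (hx : Transcendental K x)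
    (hy : IsIntegral (Algebra.adjoin K {x}) y) (hgen : Algebra.adjoin K⟮x⟯ {y} = ⊤) {u : F}
    (hu : IsIntegral (Algebra.adjoin K {x}) u) :
    aeval y (derivative (minpoly K⟮x⟯ y)) * u ∈ Algebra.adjoin (Algebra.adjoin K {x}) {y} := by
  haveI : FiniteDimensional K⟮x⟯ F := IsFF1.finite x hx
  haveI := isPrincipalIdealRing_adjoin x hx
  haveI : CharZero K⟮x⟯ := charZero_of_injective_algebraMap (algebraMap K K⟮x⟯).injective
  have hmem : u ∈ (Algebra.traceForm K⟮x⟯ F).dualSubmodule
      (Subalgebra.toSubmodule (Algebra.adjoin (Algebra.adjoin K {x}) {y})) := by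
    rw [LinearMap.BilinForm.mem_dualSubmodule]
    intro a ha
    have ha' : IsIntegral (Algebra.adjoin K {x}) a := by
      have hle : Algebra.adjoin (Algebra.adjoin K {x}) {y} ≤
          integralClosure (Algebra.adjoin K {x}) F := by
        rw [Algebra.adjoin_le_iff, Set.singleton_subset_iff]
        exact hy
      exact hle ha
    have h1 : IsIntegral (Algebra.adjoin K {x}) (Algebra.trace K⟮x⟯ F (u * a)) :=
      Algebra.isIntegral_trace (hu.mul ha')
    obtain ⟨c, hc⟩ := IsIntegrallyClosed.isIntegral_iff.mp h1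
    rw [Algebra.traceForm_apply, Submodule.mem_one]
    exact ⟨c, hc⟩
  rw [traceForm_dualSubmodule_adjoin (Algebra.adjoin K {x}) K⟮x⟯ hgen hy,
    Submodule.mem_smul_pointwise_iff_exists] at hmem
  obtain ⟨b, hb, rfl⟩ := hmem
  have hne : aeval y (derivative (minpoly K⟮x⟯ y)) ≠ 0 :=
    (Algebra.IsSeparable.isSeparable K⟮x⟯ y).aeval_derivative_ne_zero (minpoly.aeval _ _)
  rw [smul_eq_mul, mul_inv_cancel_left₀ hne]
  exact hb


theorem exists_primitive_integral {x : F} (hx : Transcendental K x) :
    ∃ y : F, IsIntegral (Algebra.adjoin K {x}) y ∧ K⟮x⟯⟮y⟯ = ⊤ := by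
  haveI : FiniteDimensional K⟮x⟯ F := IsFF1.finite x hx
  haveI : CharZero K⟮x⟯ := charZero_of_injective_algebraMap (algebraMap K K⟮x⟯).injective
  obtain ⟨α, hα⟩ := Field.exists_primitive_element K⟮x⟯ F
  have halg : IsAlgebraic (Algebra.adjoin K {x}) α :=
    (IsFractionRing.isAlgebraic_iff (Algebra.adjoin K {x}) K⟮x⟯ F).mpr
      (Algebra.IsAlgebraic.isAlgebraic α)
  obtain ⟨a, ha, hint⟩ := halg.exists_integral_multiple
  refine ⟨a • α, hint, ?_⟩
  rw [eq_top_iff, ← hα, adjoin_simple_le_iff]
  have ha' : algebraMap (Algebra.adjoin K {x}) K⟮x⟯ a ≠ 0 := by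
    rw [Ne, map_eq_zero_iff _ (IsFractionRing.injective (Algebra.adjoin K {x}) K⟮x⟯)]
    exact ha
  have h1 : α = algebraMap K⟮x⟯ F (algebraMap (Algebra.adjoin K {x}) K⟮x⟯ a)⁻¹ * (a • α) := by
    rw [Algebra.smul_def, IsScalarTower.algebraMap_apply (Algebra.adjoin K {x}) K⟮x⟯ F,
      ← mul_assoc, ← map_mul, inv_mul_cancel₀ ha', map_one, one_mul]
  have h2 : algebraMap K⟮x⟯ F (algebraMap (Algebra.adjoin K {x}) K⟮x⟯ a)⁻¹ * (a • α) ∈
      K⟮x⟯⟮a • α⟯ :=
    mul_mem (IntermediateField.algebraMap_mem _ _) (mem_adjoin_simple_self _ _)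
  rwa [← h1] at h2


/-- a polynomial in `x` vanishing to prescribed orders at finitely many places -/
theorem exists_clear_aux {x : F} (hx : Transcendental K x) (n : Place K F → ℕ)
    (S : Finset (Place K F)) :
    ∃ p ∈ Algebra.adjoin K {x}, p ≠ 0 ∧ ∀ v ∈ S, 0 ≤ v.ord x → (n v : ℤ) ≤ v.ord p := by
  classical
  induction S using Finset.induction_on with
  | empty => exact ⟨1, one_mem _, one_ne_zero, by simp⟩
  | insert v0 S _ ih =>
    obtain ⟨p, hp, hp0, hpS⟩ := ih
    by_cases h0 : 0 ≤ v0.ord x
    · obtain ⟨a, ha⟩ := exists_const_of_ord_nonneg v0 h0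
      have hxa : x - algebraMap K F a ≠ 0 := by
        intro h
        apply hx
        rw [sub_eq_zero.mp h]
        exact isAlgebraic_algebraMap a
      have ha' : 0 < v0.ord (x - algebraMap K F a) := by
        rcases ha with ha | ha
        · exact absurd (sub_eq_zero.mpr ha) hxa
        · exact ha
      have hq : (x - algebraMap K F a) ^ n v0 ∈ Algebra.adjoin K {x} :=
        pow_mem (sub_mem (Algebra.self_mem_adjoin_singleton K x) (Subalgebra.algebraMap_mem _ a)) _
      have hq0 : (x - algebraMap K F a) ^ n v0 ≠ 0 := pow_ne_zero _ hxa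
      refine ⟨p * (x - algebraMap K F a) ^ n v0, mul_mem hp hq, mul_ne_zero hp0 hq0, ?_⟩
      intro v hv hvx
      rw [v.ord_mul hp0 hq0]
      have h1 : 0 ≤ v.ord p := ord_nonneg_of_mem v (adjoin_le_of_ord_nonneg v hvx p hp)
      have h2 : 0 ≤ v.ord ((x - algebraMap K F a) ^ n v0) :=
        ord_nonneg_of_mem v (adjoin_le_of_ord_nonneg v hvx _ hq)
      rcases Finset.mem_insert.mp hv with rfl | hv
      · rw [ord_pow] at h2 ⊢
        have : (n v : ℤ) * 1 ≤ (n v : ℤ) * v.ord (x - algebraMap K F a) :=
          mul_le_mul_of_nonneg_left (by omega) (by positivity)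
        omega
      · have := hpS v hv hvx
        omega
    · refine ⟨p, hp, hp0, ?_⟩
      intro v hv hvx
      rcases Finset.mem_insert.mp hv with rfl | hv
      · exact absurd hvx h0
      · exact hpS v hv hvx

theorem exists_clear {x : F} (hx : Transcendental K x) (D : Divisor K F) :
    ∃ p : F, p ≠ 0 ∧ ∀ v : Place K F, 0 ≤ v.ord x → D v ≤ v.ord p := by
  obtain ⟨p, hp, hp0, h⟩ := exists_clear_aux hx (fun v => (D v).toNat) D.support
  refine ⟨p, hp0, fun v hv => ?_⟩
  by_cases hvD : v ∈ D.support
  · have := h v hvD hv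
    omega
  · rw [Finsupp.notMem_support_iff] at hvD
    rw [hvD]
    exact ord_nonneg_of_mem v (adjoin_le_of_ord_nonneg v hv p hp)

end General

variable {K F K' F' : Type*} [Field K] [Field F] [Field K'] [Field F']
  [Algebra K F] [Algebra K K'] [Algebra K' F'] [Algebra F F'] [Algebra K F']
  [IsScalarTower K F F'] [IsScalarTower K K' F']

section Phi

variable (K') in
theorem algebraMap_mem_adjoin_simple (x : F) {f : F} (hf : f ∈ K⟮x⟯) :
    algebraMap F F' f ∈ K'⟮algebraMap F F' x⟯ := by
  induction hf using IntermediateField.adjoin_induction with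
  | mem a ha =>
    rw [Set.mem_singleton_iff] at ha
    subst ha
    exact mem_adjoin_simple_self K' _
  | algebraMap c =>
    rw [← IsScalarTower.algebraMap_apply K F F', IsScalarTower.algebraMap_apply K K' F']
    exact IntermediateField.algebraMap_mem _ _
  | add a b _ _ ha hb => rw [map_add]; exact add_mem ha hb
  | inv a _ ha => rw [map_inv₀]; exact inv_mem ha
  | mul a b _ _ ha hb => rw [map_mul]; exact mul_mem ha hb

variable (K K' F') in
/-- the ring homomorphism `K(x) → K'(x)` -/
def phi (x : F) : K⟮x⟯ →+* K'⟮algebraMap F F' x⟯ :=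
  ((algebraMap F F').comp (algebraMap K⟮x⟯ F)).codRestrict K'⟮algebraMap F F' x⟯
    (fun a => algebraMap_mem_adjoin_simple K' x a.2)

theorem algebraMap_phi (x : F) (a : K⟮x⟯) :
    algebraMap K'⟮algebraMap F F' x⟯ F' (phi K K' F' x a) = algebraMap F F' (a : F) := rfl

theorem aeval_map_phi (x y : F) (q : K⟮x⟯[X]) :
    aeval (algebraMap F F' y) (q.map (phi K K' F' x)) = algebraMap F F' (aeval y q) := by
  rw [aeval_def, eval₂_map, aeval_def, hom_eval₂]
  rfl

end Phi

section Minpoly

variable [IsConstExt K F K' F']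

theorem adjoin_algebraMap_eq_top {x y : F} (hgen : K⟮x⟯⟮y⟯ = ⊤) :
    K'⟮algebraMap F F' x⟯⟮algebraMap F F' y⟯ = ⊤ := by
  have h1 : ∀ f : F, algebraMap F F' f ∈ K'⟮algebraMap F F' x⟯⟮algebraMap F F' y⟯ := by
    intro f
    have hf : f ∈ K⟮x⟯⟮y⟯ := hgen ▸ IntermediateField.mem_top
    induction hf using IntermediateField.adjoin_induction with
    | mem a ha =>
      rw [Set.mem_singleton_iff] at ha
      subst ha
      exact mem_adjoin_simple_self _ _
    | algebraMap c =>
      exact IntermediateField.algebraMap_mem _ (phi K K' F' x c)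
    | add a b _ _ ha hb => rw [map_add]; exact add_mem ha hb
    | inv a _ ha => rw [map_inv₀]; exact inv_mem ha
    | mul a b _ _ ha hb => rw [map_mul]; exact mul_mem ha hb
  have h2 : IntermediateField.adjoin K' (Set.range (algebraMap F F')) ≤
      (K'⟮algebraMap F F' x⟯⟮algebraMap F F' y⟯).restrictScalars K' := by
    rw [IntermediateField.adjoin_le_iff]
    rintro _ ⟨f, rfl⟩
    exact h1 f
  rw [IsConstExt.adjoin_eq_top K F K' F'] at h2
  rw [eq_top_iff]
  intro z _
  exact h2 (IntermediateField.mem_top (x := z))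

theorem minpoly_algebraMap [IsFF1 K F] [IsFF1 K' F'] {x y : F} (hx : Transcendental K x)
    (hgen : K⟮x⟯⟮y⟯ = ⊤) :
    minpoly K'⟮algebraMap F F' x⟯ (algebraMap F F' y) =
      (minpoly K⟮x⟯ y).map (phi K K' F' x) := by
  haveI : FiniteDimensional K⟮x⟯ F := IsFF1.finite x hx
  haveI : FiniteDimensional K'⟮algebraMap F F' x⟯ F' :=
    IsFF1.finite _ (transcendental_algebraMap hx)
  have hy : IsIntegral K⟮x⟯ y := Algebra.IsIntegral.isIntegral y
  have hy' : IsIntegral K'⟮algebraMap F F' x⟯ (algebraMap F F' y) :=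
    Algebra.IsIntegral.isIntegral _
  have h1 := (Field.primitive_element_iff_minpoly_natDegree_eq K⟮x⟯ y).mp hgen
  have h2 := (Field.primitive_element_iff_minpoly_natDegree_eq K'⟮algebraMap F F' x⟯
    (algebraMap F F' y)).mp (adjoin_algebraMap_eq_top hgen)
  rw [finrank_adjoin_algebraMap hx, ← h1] at h2
  symm
  apply eq_of_monic_of_dvd_of_natDegree_le (minpoly.monic hy') ((minpoly.monic hy).map _)
  · apply minpoly.dvd
    rw [aeval_map_phi, minpoly.aeval, map_zero]
  · rw [(minpoly.monic hy).natDegree_map, h2]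

theorem aeval_derivative_minpoly [IsFF1 K F] [IsFF1 K' F'] {x y : F} (hx : Transcendental K x)
    (hgen : K⟮x⟯⟮y⟯ = ⊤) :
    aeval (algebraMap F F' y)
      (derivative (minpoly K'⟮algebraMap F F' x⟯ (algebraMap F F' y))) =
      algebraMap F F' (aeval y (derivative (minpoly K⟮x⟯ y))) := by
  rw [minpoly_algebraMap hx hgen, derivative_map, aeval_map_phi]

end Minpoly

section StepA

variable [IsAlgClosed K] [CharZero K] [IsAlgClosed K'] [CharZero K'] [IsFF1 K F] [IsFF1 K' F']
  [IsConstExt K F K' F']

/-- An element of `F` has neither zero nor pole at a place of `F'` which is not rational. -/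
theorem ord_algebraMap_of_forall_ne (w : Place K' F') (hw : ∀ v : Place K F, eps K' F' v ≠ w)
    (f : F) : w.ord (algebraMap F F' f) = 0 := by
  have key : ∀ g : F, ¬ 0 < w.ord (algebraMap F F' g) := by
    intro g hg
    obtain ⟨v, hv⟩ := exists_liesOver_of_ord_pos (K := K) w hg
    exact hw v ((eps_liesOver v).left_unique hv)
  have h1 := key f
  have h2 := key f⁻¹
  rw [map_inv₀, Place.ord_inv] at h2
  omega

theorem algebraMap_mem_range_mulMap (f : F) : algebraMap F F' f ∈ (mulMap K F K' F').range :=
  ⟨1 ⊗ₜ[K] f, by simp⟩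

/-- regularity at finite distance is inherited by `F'` -/
theorem ord_algebraMap_nonneg {x g : F}
    (hg : ∀ v : Place K F, 0 ≤ v.ord x → 0 ≤ v.ord g) (w : Place K' F')
    (hw : 0 ≤ w.ord (algebraMap F F' x)) : 0 ≤ w.ord (algebraMap F F' g) := by
  by_cases h : ∃ v : Place K F, eps K' F' v = w
  · obtain ⟨v, rfl⟩ := h
    rw [ord_eps] at hw ⊢
    exact hg v hw
  · have h' : ∀ v : Place K F, eps K' F' v ≠ w := fun v hv => h ⟨v, hv⟩
    rw [ord_algebraMap_of_forall_ne w h']

theorem adjoin_adjoin_le_range_mulMap (x y : F) {a : F'}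
    (ha : a ∈ Algebra.adjoin (Algebra.adjoin K' {algebraMap F F' x}) {algebraMap F F' y}) :
    a ∈ (mulMap K F K' F').range := by
  induction ha using Algebra.adjoin_induction with
  | mem b hb =>
    rw [Set.mem_singleton_iff] at hb
    subst hb
    exact algebraMap_mem_range_mulMap y
  | algebraMap r =>
    have hle : Algebra.adjoin K' {algebraMap F F' x} ≤ (mulMap K F K' F').range := by
      rw [Algebra.adjoin_le_iff, Set.singleton_subset_iff]
      exact algebraMap_mem_range_mulMap x
    exact hle r.2
  | add b c _ _ hb hc => exact add_mem hb hc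
  | mul b c _ _ hb hc => exact mul_mem hb hc

/-- **Step A**, main case. -/
theorem mem_range_mulMap_of_transcendental {x : F} (hx : Transcendental K x) (D : Divisor K F)
    {z : F'} (hz : z ∈ riemannRochSpace (epsDiv K' F' D)) : z ∈ (mulMap K F K' F').range := by
  have hx' : Transcendental K' (algebraMap F F' x) := transcendental_algebraMap hx
  haveI : FiniteDimensional K⟮x⟯ F := IsFF1.finite x hx
  haveI : CharZero K⟮x⟯ := charZero_of_injective_algebraMap (algebraMap K K⟮x⟯).injective
  haveI : FiniteDimensional K'⟮algebraMap F F' x⟯ F' := IsFF1.finite _ hx'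
  obtain ⟨y, hy, hgen⟩ := exists_primitive_integral hx
  obtain ⟨p, hp0, hp⟩ := exists_clear hx D
  rw [mem_riemannRochSpace_iff] at hz
  -- `y` stays integral
  have hy' : IsIntegral (Algebra.adjoin K' {algebraMap F F' x}) (algebraMap F F' y) := by
    apply isIntegral_of_forall_ord hx'
    apply ord_algebraMap_nonneg (K := K)
    intro v hv
    exact ord_nonneg_of_mem v (mem_of_isIntegral v _ (adjoin_le_of_ord_nonneg v hv) hy)
  -- `p z` is integral
  have hu : IsIntegral (Algebra.adjoin K' {algebraMap F F' x}) (algebraMap F F' p * z) := by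
    apply isIntegral_of_forall_ord hx'
    intro w hw
    rcases eq_or_ne z 0 with rfl | hz0
    · simp
    have hzw := (hz w).resolve_left hz0
    rw [w.ord_mul ((_root_.map_ne_zero _).mpr hp0) hz0]
    by_cases h : ∃ v : Place K F, eps K' F' v = w
    · obtain ⟨v, rfl⟩ := h
      rw [ord_eps] at hw ⊢
      rw [epsDiv_apply_eps] at hzw
      have := hp v hw
      omega
    · have h' : ∀ v : Place K F, eps K' F' v ≠ w := fun v hv => h ⟨v, hv⟩
      rw [ord_algebraMap_of_forall_ne w h']
      rw [epsDiv_apply_of_forall_ne D w h'] at hzw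
      omega
  have hgen' : Algebra.adjoin K'⟮algebraMap F F' x⟯ {algebraMap F F' y} = ⊤ := by
    rw [← adjoin_simple_toSubalgebra_of_isAlgebraic (Algebra.IsAlgebraic.isAlgebraic _),
      adjoin_algebraMap_eq_top hgen, IntermediateField.top_toSubalgebra]
  have h1 := adjoin_adjoin_le_range_mulMap (K := K) x y (euler_mul_mem hx' hy' hgen' hu)
  rw [aeval_derivative_minpoly hx hgen] at h1
  have hd : aeval y (derivative (minpoly K⟮x⟯ y)) ≠ 0 :=
    (Algebra.IsSeparable.isSeparable K⟮x⟯ y).aeval_derivative_ne_zero (minpoly.aeval _ _)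
  have h2 := mul_mem (algebraMap_mem_range_mulMap (K := K) (K' := K') (F' := F')
    (aeval y (derivative (minpoly K⟮x⟯ y)) * p)⁻¹) h1
  have h3 : algebraMap F F' (aeval y (derivative (minpoly K⟮x⟯ y)) * p)⁻¹ *
      (algebraMap F F' (aeval y (derivative (minpoly K⟮x⟯ y))) * (algebraMap F F' p * z)) = z := by
    rw [← mul_assoc, ← mul_assoc, mul_assoc (algebraMap F F' _), ← map_mul, ← map_mul,
      inv_mul_cancel₀ (mul_ne_zero hd hp0), map_one, one_mul]
  rwa [h3] at h2

/-- **Step A**, degenerate case `F = K`. -/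
theorem mem_range_mulMap_of_forall_const (h : ∀ f : F, ∃ c : K, f = algebraMap K F c) (z : F') :
    z ∈ (mulMap K F K' F').range := by
  have h1 : ∀ t : K' ⊗[K] F, ∃ c : K', mulMap K F K' F' t = algebraMap K' F' c := by
    intro t
    induction t using TensorProduct.induction_on with
    | zero => exact ⟨0, by simp⟩
    | tmul c f =>
      obtain ⟨a, rfl⟩ := h f
      refine ⟨c * algebraMap K K' a, ?_⟩
      rw [mulMap_tmul, map_mul, ← IsScalarTower.algebraMap_apply K F F',
        ← IsScalarTower.algebraMap_apply K K' F']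
    | add s t hs ht =>
      obtain ⟨a, ha⟩ := hs
      obtain ⟨b, hb⟩ := ht
      exact ⟨a + b, by rw [map_add, map_add, ha, hb]⟩
  obtain ⟨a, b, -, rfl⟩ := IsConstExt.exists_div (K := K) (F := F) (K' := K') z
  obtain ⟨c, hc⟩ := h1 a
  obtain ⟨d, hd⟩ := h1 b
  rw [hc, hd, ← map_div₀]
  exact Subalgebra.algebraMap_mem _ _

/-- **Step A**: elements of `L(eps D)` lie in the ring `K' F`. -/
theorem mem_range_mulMap (D : Divisor K F) {z : F'}
    (hz : z ∈ riemannRochSpace (epsDiv K' F' D)) : z ∈ (mulMap K F K' F').range := by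
  by_cases h : ∃ x : F, Transcendental K x
  · obtain ⟨x, hx⟩ := h
    exact mem_range_mulMap_of_transcendental hx D hz
  · apply mem_range_mulMap_of_forall_const
    intro f
    rcases exists_const_or_transcendental (K := K) f with hf | hf
    · exact hf
    · exact absurd ⟨f, hf⟩ h

end StepA

section StepB

variable [IsAlgClosed K] [CharZero K] [IsAlgClosed K'] [CharZero K'] [IsFF1 K F] [IsFF1 K' F']
  [IsConstExt K F K' F']

omit [Algebra K K'] [Algebra F F'] [Algebra K F'] [IsScalarTower K F F'] [IsScalarTower K K' F']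
  [IsAlgClosed K'] [CharZero K'] [IsFF1 K' F'] [IsConstExt K F K' F'] [Field K'] [Field F']
  [Algebra K' F'] [IsAlgClosed K] [CharZero K] [IsFF1 K F] in
/-- the maximal ideal of a place is closed under finite sums -/
theorem sum_eq_zero_or_ord_pos (v : Place K F) {ι : Type*} (s : Finset ι) (f : ι → F)
    (h : ∀ i ∈ s, f i = 0 ∨ 0 < v.ord (f i)) :
    ∑ i ∈ s, f i = 0 ∨ 0 < v.ord (∑ i ∈ s, f i) := by
  refine Finset.sum_induction f (fun x => x = 0 ∨ 0 < v.ord x) ?_ (Or.inl rfl) h
  intro a b ha hb
  rcases ha with rfl | ha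
  · rwa [zero_add]
  rcases hb with rfl | hb
  · rw [add_zero]; exact Or.inr ha
  by_cases hab : a + b = 0
  · exact Or.inl hab
  · right
    have := min_ord_le_ord_add v hab
    exact lt_of_lt_of_le (lt_min ha hb) this

/-- **Step B**, the Gauss lemma: the order at `eps v` of `∑ e_i f_i`, with `e_i ∈ K'` linearly
independent over `K`, is the minimum of the orders of the `f_i`. -/
theorem gauss (v : Place K F) (n : ℤ) {ι : Type*} {e : ι → K'} (he : LinearIndependent K e)
    (g : ι →₀ F)
    (h : (g.sum fun i f => algebraMap K' F' (e i) * algebraMap F F' f) = 0 ∨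
      n ≤ (eps K' F' v).ord (g.sum fun i f => algebraMap K' F' (e i) * algebraMap F F' f))
    (i : ι) : g i = 0 ∨ n ≤ v.ord (g i) := by
  by_contra hcon
  rw [not_or, not_le] at hcon
  have hi : i ∈ g.support := Finsupp.mem_support_iff.mpr hcon.1
  obtain ⟨i0, hi0, hmin⟩ := Finset.exists_min_image g.support (fun j => v.ord (g j)) ⟨i, hi⟩
  have hh0 : g i0 ≠ 0 := Finsupp.mem_support_iff.mp hi0
  have hm : v.ord (g i0) < n := lt_of_le_of_lt (hmin i hi) hcon.2
  have hq : ∀ j, 0 ≤ v.ord (g j / g i0) := by
    intro j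
    by_cases hj : j ∈ g.support
    · rw [div_eq_mul_inv, v.ord_mul (Finsupp.mem_support_iff.mp hj) (inv_ne_zero hh0), v.ord_inv]
      have := hmin j hj
      omega
    · rw [Finsupp.notMem_support_iff.mp hj, zero_div, Place.ord_zero]
  choose a ha using fun j => exists_const_of_ord_nonneg v (hq j)
  have ha0 : a i0 ≠ 0 := by
    intro h0
    have h1 := ha i0
    rw [h0, map_zero, sub_zero, div_self hh0, Place.ord_one] at h1
    rcases h1 with h1 | h1
    · exact one_ne_zero h1
    · exact lt_irrefl _ h1
  have hC : ∑ j ∈ g.support, a j • e j ≠ 0 := fun hC0 =>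
    ha0 (linearIndependent_iff'.mp he g.support a hC0 i0 hi0)
  have hr := sum_eq_zero_or_ord_pos (eps K' F' v) g.support
    (fun j => algebraMap K' F' (e j) * algebraMap F F' (g j / g i0 - algebraMap K F (a j)))
    (by
      intro j _
      rcases ha j with h1 | h1
      · left
        rw [h1, sub_self, map_zero, mul_zero]
      · by_cases hej : e j = 0
        · left
          rw [hej, map_zero, zero_mul]
        · right
          have h2 : g j / g i0 - algebraMap K F (a j) ≠ 0 := ne_zero_of_ord_ne_zero v h1.ne'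
          rw [Place.ord_mul _ ((_root_.map_ne_zero _).mpr hej) ((_root_.map_ne_zero _).mpr h2),
            ord_algebraMap, ord_eps, zero_add]
          exact h1)
  have hZ : (g.sum fun i f => algebraMap K' F' (e i) * algebraMap F F' f) =
      algebraMap F F' (g i0) * (algebraMap K' F' (∑ j ∈ g.support, a j • e j) +
        ∑ j ∈ g.support,
          algebraMap K' F' (e j) * algebraMap F F' (g j / g i0 - algebraMap K F (a j))) := by
    rw [Finsupp.sum, map_sum, ← Finset.sum_add_distrib, Finset.mul_sum]
    refine Finset.sum_congr rfl fun j _ => ?_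
    have h0 : algebraMap F F' (g i0) ≠ 0 := (_root_.map_ne_zero _).mpr hh0
    rw [Algebra.smul_def, map_mul, map_sub, map_div₀, ← IsScalarTower.algebraMap_apply K K' F',
      ← IsScalarTower.algebraMap_apply K F F']
    field_simp
    ring
  have hC' : algebraMap K' F' (∑ j ∈ g.support, a j • e j) ≠ 0 := (_root_.map_ne_zero _).mpr hC
  have hsum : algebraMap K' F' (∑ j ∈ g.support, a j • e j) +
        ∑ j ∈ g.support,
          algebraMap K' F' (e j) * algebraMap F F' (g j / g i0 - algebraMap K F (a j)) ≠ 0 ∧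
      (eps K' F' v).ord (algebraMap K' F' (∑ j ∈ g.support, a j • e j) +
        ∑ j ∈ g.support,
          algebraMap K' F' (e j) * algebraMap F F' (g j / g i0 - algebraMap K F (a j))) = 0 := by
    rcases hr with hr | hr
    · rw [hr, add_zero]
      exact ⟨hC', ord_algebraMap _ _⟩
    · have h1 := ord_add_eq_of_lt (eps K' F' v) hC' ((ord_algebraMap (eps K' F' v) _).trans_lt hr)
      rw [ord_algebraMap] at h1
      refine ⟨?_, h1⟩
      intro h0
      have h2 : algebraMap K' F' (∑ j ∈ g.support, a j • e j) = -∑ j ∈ g.support,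
          algebraMap K' F' (e j) * algebraMap F F' (g j / g i0 - algebraMap K F (a j)) :=
        eq_neg_of_add_eq_zero_left h0
      have h3 := ord_algebraMap (eps K' F' v) (∑ j ∈ g.support, a j • e j)
      rw [h2, ord_neg] at h3
      omega
  rw [hZ] at h
  have h0 : algebraMap F F' (g i0) ≠ 0 := (_root_.map_ne_zero _).mpr hh0
  rcases h with h | h
  · exact mul_ne_zero h0 hsum.1 h
  · rw [Place.ord_mul _ h0 hsum.1, hsum.2, ord_eps, add_zero] at h
    omega

end StepB

end LSpace

variable {K F K' F' : Type*} [Field K] [Field F] [Field K'] [Field F']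
  [Algebra K F] [Algebra K K'] [Algebra K' F'] [Algebra F F'] [Algebra K F']
  [IsScalarTower K F F'] [IsScalarTower K K' F']
  [IsAlgClosed K] [CharZero K] [IsAlgClosed K'] [CharZero K'] [IsFF1 K F] [IsFF1 K' F']
  [IsConstExt K F K' F']

section H4

theorem algebraMap_mem_riemannRochSpace (D : Divisor K F) {f : F} (hf : f ∈ riemannRochSpace D) :
    algebraMap F F' f ∈ riemannRochSpace (epsDiv K' F' D) := by
  rw [mem_riemannRochSpace_iff] at hf ⊢
  intro w
  by_cases hw : ∃ v : Place K F, eps K' F' v = w
  · obtain ⟨v, rfl⟩ := hw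
    rcases hf v with h | h
    · left; rw [h, map_zero]
    · right; rw [epsDiv_apply_eps, ord_eps]; exact h
  · right
    have hw' : ∀ v : Place K F, eps K' F' v ≠ w := fun v hv => hw ⟨v, hv⟩
    rw [epsDiv_apply_of_forall_ne D w hw', LSpace.ord_algebraMap_of_forall_ne w hw']
    simp

theorem mem_span_of_mem_riemannRochSpace (D : Divisor K F) {z : F'}
    (hz : z ∈ riemannRochSpace (epsDiv K' F' D)) :
    z ∈ Submodule.span K' (algebraMap F F' '' (riemannRochSpace D : Set F)) := by
  obtain ⟨t, rfl⟩ := LSpace.mem_range_mulMap D hz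
  obtain ⟨g, rfl⟩ := TensorProduct.eq_repr_basis_left (Module.Basis.ofVectorSpace K K') t
  have hsum : mulMap K F K' F'
      (g.sum fun i f => (Module.Basis.ofVectorSpace K K') i ⊗ₜ[K] f) =
      g.sum fun i f => algebraMap K' F' ((Module.Basis.ofVectorSpace K K') i) *
        algebraMap F F' f := by
    rw [map_finsuppSum]
    rfl
  have hsum' : (mulMap K F K' F').toRingHom
      (g.sum fun i f => (Module.Basis.ofVectorSpace K K') i ⊗ₜ[K] f) =
      g.sum fun i f => algebraMap K' F' ((Module.Basis.ofVectorSpace K K') i) *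
        algebraMap F F' f := hsum
  rw [hsum'] at hz ⊢
  rw [mem_riemannRochSpace_iff] at hz
  have hg : ∀ i, g i ∈ riemannRochSpace D := by
    intro i
    rw [mem_riemannRochSpace_iff]
    intro v
    have h1 := hz (eps K' F' v)
    rw [epsDiv_apply_eps] at h1
    exact LSpace.gauss v (-D v) (Module.Basis.ofVectorSpace K K').linearIndependent g h1 i
  refine Submodule.sum_mem _ fun i _ => ?_
  show algebraMap K' F' ((Module.Basis.ofVectorSpace K K') i) * algebraMap F F' (g i) ∈ _
  rw [← Algebra.smul_def]
  exact Submodule.smul_mem _ _ (Submodule.subset_span ⟨g i, hg i, rfl⟩)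

theorem finrank_riemannRochSpace_epsDiv (D : Divisor K F) :
    Module.finrank K' (riemannRochSpace (epsDiv K' F' D)) =
      Module.finrank K (riemannRochSpace D) := by
  let b := Module.Basis.ofVectorSpace K (riemannRochSpace D)
  have hb : LinearIndependent K (fun i => ((b i : riemannRochSpace D) : F)) :=
    b.linearIndependent.map' (riemannRochSpace D).subtype (Submodule.ker_subtype _)
  have hb' := IsConstExt.linearIndependent K F K' F' hb
  have hspan : Submodule.span K (Set.range fun i => ((b i : riemannRochSpace D) : F)) =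
      riemannRochSpace D := by
    have h1 : (Set.range fun i => ((b i : riemannRochSpace D) : F)) =
        (riemannRochSpace D).subtype '' Set.range b := by
      rw [← Set.range_comp]; rfl
    rw [h1, ← Submodule.map_span, b.span_eq, Submodule.map_top, Submodule.range_subtype]
  have heq : riemannRochSpace (epsDiv K' F' D) =
      Submodule.span K' (Set.range fun i => algebraMap F F' ((b i : riemannRochSpace D) : F)) := by
    apply le_antisymm
    · intro z hz
      have h1 := mem_span_of_mem_riemannRochSpace D hz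
      refine (Submodule.span_le.mpr ?_) h1
      rintro _ ⟨m, hm, rfl⟩
      have hm' : m ∈ Submodule.span K (Set.range fun i => ((b i : riemannRochSpace D) : F)) := by
        rw [hspan]; exact hm
      clear hm
      induction hm' using Submodule.span_induction with
      | mem y hy =>
        obtain ⟨i, rfl⟩ := hy
        exact Submodule.subset_span ⟨i, rfl⟩
      | zero => simp
      | add y z _ _ hy hz =>
        rw [map_add]; exact add_mem hy hz
      | smul c y _ hy =>
        rw [Algebra.smul_def, map_mul, ← IsScalarTower.algebraMap_apply K F F',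
          IsScalarTower.algebraMap_apply K K' F', ← Algebra.smul_def]
        exact Submodule.smul_mem _ _ hy
    · rw [Submodule.span_le]
      rintro _ ⟨i, rfl⟩
      exact algebraMap_mem_riemannRochSpace D (b i).2
  rw [heq, Module.finrank_eq_nat_card_basis (Module.Basis.span hb'),
    Module.finrank_eq_nat_card_basis b]

end H4

end Fermat.Agent.S27.H
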