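import Fermat.Agent.S27.H.Defs

/-!
# S27, Part H: the canonical effective representative of a divisor class
Task H7a (see the `tasks` table, stmt = 'S27').  Sub-captain of Part H: helper87.
Owner of this file: helper249.
-/

set_option autoImplicit false
set_option linter.unusedSectionVars false

noncomputable section

namespace Fermat.Agent.S27.H

open AlgebraicCurve Fermat.Agent.S24.FF IntermediateField
open scoped TensorProduct

variable {K F : Type*} [Field K] [Field F] [Algebra K F] [IsAlgClosed K] [CharZero K] [IsFF1 K F]

namespace Effective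

/-- the divisor of a function -/
def divOf (f : F) : Divisor K F :=
  Finsupp.ofSupportFinite (fun v : Place K F => v.ord f) (finite_ord_ne_zero (K := K) f)

@[simp] lemma divOf_apply (f : F) (v : Place K F) : divOf (K := K) f v = v.ord f := rfl

lemma degree_eq_sum (D : Divisor K F) (s : Finset (Place K F)) (hs : D.support ⊆ s) :
    Divisor.degree D = ∑ v ∈ s, D v := by
  unfold Divisor.degree
  rw [Finsupp.liftAddHom_apply, Finsupp.sum_of_support_subset _ hs _ (by simp)]
  refine Finset.sum_congr rfl fun v _ => ?_
  simp [deg_eq_one v]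

lemma degree_divOf (f : F) : Divisor.degree (divOf (K := K) f) = 0 := by
  rw [degree_eq_sum _ _ (Finset.Subset.refl _)]
  refine sum_ord_eq_zero f _ fun v hv => ?_
  rw [Finsupp.mem_support_iff]
  exact hv

lemma degree_nonneg_of_nonneg {E : Divisor K F} (hE : 0 ≤ E) : 0 ≤ Divisor.degree E := by
  rw [degree_eq_sum _ _ (Finset.Subset.refl _)]
  exact Finset.sum_nonneg fun v _ => hE v

lemma ord_smul_of_ne_zero (v : Place K F) {c : K} (hc : c ≠ 0) (f : F) :
    v.ord (c • f) = v.ord f := by
  rcases eq_or_ne f 0 with rfl | hf
  · simp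
  rw [Algebra.smul_def, v.ord_mul ((map_ne_zero _).mpr hc) hf, ord_algebraMap, zero_add]

end Effective

open Effective

/-- one step: `L(D + P) / L(D)` has dimension at most one -/
theorem exists_smul_sub_mem_riemannRochSpace (D : Divisor K F) (P : Place K F) {f g : F}
    (hf : f ∈ riemannRochSpace (D + Finsupp.single P 1)) (hf' : f ∉ riemannRochSpace D)
    (hg : g ∈ riemannRochSpace (D + Finsupp.single P 1)) :
    ∃ c : K, g - c • f ∈ riemannRochSpace D := by
  classical
  have hf0 : f ≠ 0 := by
    rintro rfl
    exact hf' (zero_mem _)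
  have hne : ∀ v : Place K F, v ≠ P → (D + Finsupp.single P 1 : Divisor K F) v = D v := by
    intro v hv
    rw [Finsupp.add_apply, Finsupp.single_apply, if_neg (Ne.symm hv), add_zero]
  have hP : (D + Finsupp.single P 1 : Divisor K F) P = D P + 1 := by
    rw [Finsupp.add_apply, Finsupp.single_apply, if_pos rfl]
  rw [mem_riemannRochSpace_iff] at hf
  -- the order of `f` at `P`
  have hordf : P.ord f = -D P - 1 := by
    rw [mem_riemannRochSpace_iff] at hf'
    push Not at hf'
    obtain ⟨v, -, hv⟩ := hf'
    have hvP : v = P := by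
      by_contra hvP
      have := (hf v).resolve_left hf0
      rw [hne v hvP] at this
      omega
    subst hvP
    have := (hf v).resolve_left hf0
    rw [hP] at this
    omega
  rcases eq_or_ne g 0 with rfl | hg0
  · exact ⟨0, by simp⟩
  have hg' := hg
  rw [mem_riemannRochSpace_iff] at hg'
  have hx : 0 ≤ P.ord (g / f) := by
    rw [div_eq_mul_inv, P.ord_mul hg0 (inv_ne_zero hf0), P.ord_inv, hordf]
    have := (hg' P).resolve_left hg0
    rw [hP] at this
    omega
  obtain ⟨c, hc⟩ := exists_const_of_ord_nonneg P hx
  refine ⟨c, ?_⟩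
  have hfac : g - c • f = f * (g / f - algebraMap K F c) := by
    rw [Algebra.smul_def]
    field_simp
  rcases hc with hc | hc
  · rw [hfac, hc, sub_self, mul_zero]
    exact zero_mem _
  · have hmem : g - c • f ∈ riemannRochSpace (D + Finsupp.single P 1) :=
      sub_mem hg (Submodule.smul_mem _ c (mem_riemannRochSpace_iff.mpr hf))
    rw [mem_riemannRochSpace_iff] at hmem ⊢
    intro v
    by_cases hvP : v = P
    · subst hvP
      right
      have hx0 : g / f - algebraMap K F c ≠ 0 := ne_zero_of_ord_ne_zero v hc.ne'
      rw [hfac, v.ord_mul hf0 hx0, hordf]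
      omega
    · have := hmem v
      rwa [hne v hvP] at this

theorem riemannRochSpace_eq_bot_of_degree_neg (D : Divisor K F) (hD : Divisor.degree D < 0) :
    riemannRochSpace D = ⊥ := by
  rw [Submodule.eq_bot_iff]
  intro f hf
  by_contra hf0
  rw [mem_riemannRochSpace_iff] at hf
  have hE : 0 ≤ D + divOf (K := K) f := by
    intro v
    have := (hf v).resolve_left hf0
    rw [Finsupp.add_apply, divOf_apply, Finsupp.zero_apply]
    omega
  have := degree_nonneg_of_nonneg hE
  rw [map_add, degree_divOf, add_zero] at this
  omega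

/-- For the minimal `m` with `L(D + m P) ≠ 0` the class of `D + m P` contains exactly one
effective divisor. -/
theorem exists_unique_effective (hR : RiemannThm K F) (D : Divisor K F) (P : Place K F) :
    ∃ (m : ℤ) (E : Divisor K F), 0 ≤ E ∧
      E - (D + Finsupp.single P m) ∈ Divisor.principal (K := K) (F := F) ∧
      ∀ E' : Divisor K F, 0 ≤ E' →
        E' - (D + Finsupp.single P m) ∈ Divisor.principal (K := K) (F := F) → E' = E := by
  classical
  have hdeg : ∀ m : ℤ, Divisor.degree (D + Finsupp.single P m) = Divisor.degree D + m := by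
    intro m
    rw [map_add, Divisor.degree_single, deg_eq_one P]
    simp
  obtain ⟨m, hm, hmin⟩ := Int.exists_least_of_bdd
    (P := fun m : ℤ => riemannRochSpace (D + Finsupp.single P m) ≠ ⊥)
    ⟨-Divisor.degree D, fun z hz => by
      by_contra hlt
      exact hz (riemannRochSpace_eq_bot_of_degree_neg _ (by rw [hdeg]; omega))⟩
    ⟨(genusFF K F : ℤ) - Divisor.degree D, fun hbot => by
      have := hR.ineq (D + Finsupp.single P ((genusFF K F : ℤ) - Divisor.degree D))
      rw [hbot, hdeg, finrank_bot] at this
      simp at this⟩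
  obtain ⟨f, hf, hf0⟩ := Submodule.exists_mem_ne_zero_of_ne_bot hm
  have hf1 := mem_riemannRochSpace_iff.mp hf
  refine ⟨m, D + Finsupp.single P m + divOf (K := K) f, ?_, ?_, ?_⟩
  · intro v
    have := (hf1 v).resolve_left hf0
    rw [Finsupp.add_apply, divOf_apply, Finsupp.zero_apply]
    omega
  · rw [add_sub_cancel_left]
    exact ⟨f, hf0, fun v => rfl⟩
  · rintro E' hE' ⟨f', hf'0, hf'⟩
    have hbot : riemannRochSpace (D + Finsupp.single P (m - 1)) = ⊥ := by
      by_contra hne
      have := hmin (m - 1) hne
      omega
    have hsplit : D + Finsupp.single P (m - 1) + Finsupp.single P 1 = D + Finsupp.single P m := by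
      rw [add_assoc, ← Finsupp.single_add, sub_add_cancel]
    have hf'mem : f' ∈ riemannRochSpace (D + Finsupp.single P m) := by
      rw [mem_riemannRochSpace_iff]
      intro v
      right
      have h1 := hf' v
      have h2 := hE' v
      rw [Finsupp.sub_apply] at h1
      rw [Finsupp.zero_apply] at h2
      omega
    obtain ⟨c, hc⟩ := exists_smul_sub_mem_riemannRochSpace (D + Finsupp.single P (m - 1)) P
      (f := f) (g := f') (by rw [hsplit]; exact hf)
      (by rw [hbot, Submodule.mem_bot]; exact hf0) (by rw [hsplit]; exact hf'mem)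
    rw [hbot, Submodule.mem_bot, sub_eq_zero] at hc
    have hc0 : c ≠ 0 := by
      rintro rfl
      rw [zero_smul] at hc
      exact hf'0 hc
    ext v
    have h1 := hf' v
    rw [Finsupp.sub_apply, hc, ord_smul_of_ne_zero v hc0] at h1
    rw [Finsupp.add_apply, divOf_apply]
    omega

end Fermat.Agent.S27.H
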