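import Fermat.Agent.S27.H.Rational
import Fermat.Agent.S27.H.Effective

/-!
# S27, Part H: torsion classes are defined over the small field
Task H7c (see the `tasks` table, stmt = 'S27').  Sub-captain of Part H: helper87.
Proofs: helper292.
-/

set_option autoImplicit false

noncomputable section

namespace Fermat.Agent.S27.H

open AlgebraicCurve Fermat.Agent.S24.FF IntermediateField
open scoped TensorProduct

namespace Rigidity

/-- If the orbit of `x` under `φ : G →* M` stays in a finite set, the stabiliser of `x` in `G` has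
finite index. -/
theorem finiteIndex_comap_stabilizer {G M X : Type*} [Group G] [Group M] [MulAction M X]
    (φ : G →* M) (x : X) (s : Set X) (hs : s.Finite) (h : ∀ g : G, φ g • x ∈ s) :
    ((MulAction.stabilizer M x).comap φ).FiniteIndex := by
  letI : MulAction G X := MulAction.compHom X φ
  have heq : (MulAction.stabilizer M x).comap φ = MulAction.stabilizer G x := by
    ext g
    rfl
  rw [heq]
  have hfin : Finite (MulAction.orbit G x) := by
    apply Set.Finite.to_subtype
    apply hs.subset
    rintro _ ⟨g, rfl⟩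
    exact h g
  haveI : Finite (G ⧸ MulAction.stabilizer G x) :=
    Finite.of_equiv _ (MulAction.orbitEquivQuotientStabilizer G x)
  exact Subgroup.finiteIndex_of_finite_quotient

/-- Relative version: if `H` has finite index in `G` and the `H`-orbit of `x` stays in a finite
set, then some finite index subgroup of `G` fixes `x`. -/
theorem exists_finiteIndex_fixing {G M X : Type*} [Group G] [Group M] [MulAction M X]
    (φ : G →* M) (H : Subgroup G) [H.FiniteIndex] (x : X) (s : Set X) (hs : s.Finite)
    (h : ∀ g ∈ H, φ g • x ∈ s) :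
    ∃ H₁ : Subgroup G, H₁.FiniteIndex ∧ ∀ g ∈ H₁, φ g • x = x := by
  have h1 := finiteIndex_comap_stabilizer (φ.comp H.subtype) x s hs (fun g => h g g.2)
  refine ⟨((MulAction.stabilizer M x).comap (φ.comp H.subtype)).map H.subtype, ?_, ?_⟩
  · rw [Subgroup.finiteIndex_iff, Subgroup.index_map_subtype]
    exact mul_ne_zero h1.index_ne_zero Subgroup.FiniteIndex.index_ne_zero
  · rintro _ ⟨g, hg, rfl⟩
    exact hg

end Rigidity

variable {K F K' F' : Type*} [Field K] [Field F] [Field K'] [Field F']
  [Algebra K F] [Algebra K K'] [Algebra K' F'] [Algebra F F'] [Algebra K F']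
  [IsScalarTower K F F'] [IsScalarTower K K' F']
  [IsAlgClosed K] [CharZero K] [IsAlgClosed K'] [CharZero K'] [IsFF1 K F] [IsFF1 K' F']
  [IsConstExt K F K' F']

theorem exists_pic0Map_eq (hF : ∃ x : F, Transcendental K x) (hR' : RiemannThm K' F') (n : ℕ)
    (hfin : Finite (Pic0.torsion K' F' n)) (c : Pic0 K' F') (hc : c ∈ Pic0.torsion K' F' n) :
    ∃ c₀ : Pic0 K F, pic0Map K F K' F' c₀ = c := by
  classical
  set φ := conj K F K' F' with hφ
  -- the stabiliser of `c`
  have hΓc : ((MulAction.stabilizer (SemiAut K' F') c).comap φ).FiniteIndex :=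
    Rigidity.finiteIndex_comap_stabilizer φ c (Pic0.torsion K' F' n : Set (Pic0 K' F'))
      (Set.toFinite _) (fun σ => SemiAut.smul_mem_torsion (φ σ) hc)
  set Γc := (MulAction.stabilizer (SemiAut K' F') c).comap φ with hΓcdef
  obtain ⟨D', rfl⟩ := Pic0.mk_surjective c
  obtain ⟨v0⟩ := exists_place hF
  set P0 := eps K' F' v0 with hP0
  obtain ⟨m, E, hE0, hEp, huniq⟩ := exists_unique_effective hR' (D' : Divisor K' F') P0
  -- `Γc` fixes `E`
  have hfixE : ∀ σ ∈ Γc, φ σ • E = E := by
    intro σ hσ
    apply huniq _ (SemiAut.smul_nonneg _ hE0)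
    have h1 : φ σ • Pic0.mk D' = Pic0.mk D' := hσ
    rw [SemiAut.smul_mk] at h1
    have h2 := QuotientAddGroup.eq.mp h1
    rw [AddSubgroup.mem_addSubgroupOf] at h2
    have h3 : -(φ σ • (D' : Divisor K' F')) + (D' : Divisor K' F') ∈
        Divisor.principal (K := K') (F := F') := h2
    have h4 := SemiAut.smul_mem_principal (φ σ) hEp
    have h5 : φ σ • (Finsupp.single P0 m : Divisor K' F') = Finsupp.single P0 m := by
      rw [SemiAut.smul_single, hP0, hφ, conj_smul_eps]
    have h6 : φ σ • E - ((D' : Divisor K' F') + Finsupp.single P0 m) =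
        φ σ • (E - ((D' : Divisor K' F') + Finsupp.single P0 m)) -
          (-(φ σ • (D' : Divisor K' F')) + (D' : Divisor K' F')) := by
      rw [smul_sub, smul_add, h5]
      abel
    rw [h6]
    exact AddSubgroup.sub_mem _ h4 h3
  -- the support of `E` consists of rational places
  have hsupp : ∀ w ∈ E.support, ∃ v : Place K F, w = eps K' F' v := by
    intro w hw
    obtain ⟨Γ₁, hΓ₁, hfix⟩ := Rigidity.exists_finiteIndex_fixing φ Γc w
      (E.support : Set (Place K' F')) (Finset.finite_toSet _) (by
        intro σ hσ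
        rw [Finset.mem_coe, Finsupp.mem_support_iff, ← hfixE σ hσ, SemiAut.smul_apply_smul]
        exact Finsupp.mem_support_iff.mp hw)
    exact exists_eq_eps_of_fixed hF w Γ₁ hfix
  obtain ⟨E₀, hE₀⟩ := exists_epsDiv_eq E hsupp
  -- degrees
  have hdegp : Divisor.degree (E - ((D' : Divisor K' F') + Finsupp.single P0 m)) = 0 := by
    obtain ⟨f, -, hf⟩ := hEp
    exact degree_eq_zero_of_forall_ord hf
  have hD'0 : Divisor.degree (D' : Divisor K' F') = 0 := D'.2
  have hdegE : Divisor.degree E = m := by
    rw [map_sub, map_add, hD'0, Divisor.degree_single, deg_eq_one] at hdegp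
    simp at hdegp
    linarith
  have hdeg0 : Divisor.degree (E₀ - Finsupp.single v0 m) = 0 := by
    rw [map_sub, ← degree_epsDiv (K' := K') (F' := F') E₀, hE₀, hdegE, Divisor.degree_single,
      deg_eq_one]
    simp
  refine ⟨Pic0.mk ⟨E₀ - Finsupp.single v0 m, hdeg0⟩, ?_⟩
  have hmap : epsDiv K' F' (E₀ - Finsupp.single v0 m) = E - Finsupp.single P0 m := by
    have h : epsDiv K' F' (Finsupp.single v0 m) = Finsupp.single (eps K' F' v0) m :=
      Finsupp.mapDomain_single
    rw [map_sub, hE₀, h]
  show QuotientAddGroup.map _ _ _ _ (QuotientAddGroup.mk _) = QuotientAddGroup.mk _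
  rw [QuotientAddGroup.map_mk, QuotientAddGroup.eq, AddSubgroup.mem_addSubgroupOf]
  show -(epsDiv K' F' (E₀ - Finsupp.single v0 m)) + (D' : Divisor K' F') ∈
    Divisor.principal (K := K') (F := F')
  rw [hmap]
  have h7 : -(E - Finsupp.single P0 m) + (D' : Divisor K' F') =
      -(E - ((D' : Divisor K' F') + Finsupp.single P0 m)) := by abel
  rw [h7]
  exact AddSubgroup.neg_mem _ hEp

variable (K F K' F') in
theorem card_torsion_eq (hF : ∃ x : F, Transcendental K x) (hR' : RiemannThm K' F') (n : ℕ)
    (hfin : Finite (Pic0.torsion K' F' n)) :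
    Nat.card (Pic0.torsion K F n) = Nat.card (Pic0.torsion K' F' n) := by
  have hmem : ∀ c₀ : Pic0 K F, c₀ ∈ Pic0.torsion K F n ↔
      pic0Map K F K' F' c₀ ∈ Pic0.torsion K' F' n := by
    intro c₀
    rw [Pic0.mem_torsion, Pic0.mem_torsion, ← map_zsmul]
    constructor
    · intro h
      rw [h, map_zero]
    · intro h
      apply pic0Map_injective (K := K) (F := F) (K' := K') (F' := F')
      rw [h, map_zero]
  refine Nat.card_congr (Equiv.ofBijective
    (fun c₀ : Pic0.torsion K F n => (⟨pic0Map K F K' F' c₀, (hmem c₀).mp c₀.2⟩ :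
      Pic0.torsion K' F' n)) ⟨?_, ?_⟩)
  · intro a b hab
    apply Subtype.ext
    apply pic0Map_injective (K := K) (F := F) (K' := K') (F' := F')
    exact congrArg Subtype.val hab
  · rintro ⟨c, hc⟩
    obtain ⟨c₀, rfl⟩ := exists_pic0Map_eq hF hR' n hfin c hc
    exact ⟨⟨c₀, (hmem c₀).mpr hc⟩, rfl⟩

end Fermat.Agent.S27.H
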