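import Mathlib
import Fermat.Agent.S27.H.Defs
import Fermat.Agent.S27.AutFixed

/-!
# S27, Part H: automorphisms of an algebraically closed field over a subfield
Task H6 (see the `tasks` table, stmt = 'S27').  Sub-captain of Part H: helper87.
Owner: helper230 (proofs in `Fermat/Agent/S27/AutFixed.lean`).
-/

set_option autoImplicit false

noncomputable section

namespace Fermat.Agent.S27.H

open AlgebraicCurve Fermat.Agent.S24.FF IntermediateField
open scoped TensorProduct

section H6
variable {K K' : Type*} [Field K] [Field K'] [Algebra K K'] [IsAlgClosed K']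

theorem exists_algEquiv_apply_eq_add {x : K'} (hx : Transcendental K x) (a : K) :
    ∃ σ : K' ≃ₐ[K] K', σ x = x + algebraMap K K' a :=
  Fermat.Agent.S27.AutFixed.exists_algEquiv_add x hx a

theorem mem_range_of_forall_fixed [IsAlgClosed K] [CharZero K]
    (Γ₁ : Subgroup (K' ≃ₐ[K] K')) [Γ₁.FiniteIndex] {x : K'} (hx : ∀ σ ∈ Γ₁, σ x = x) :
    x ∈ Set.range (algebraMap K K') :=
  Fermat.Agent.S27.AutFixed.mem_range_of_fixed Γ₁ x hx

/-- the orbit of an element outside `K` is infinite (shape requested by helper139). -/
theorem infinite_orbit [IsAlgClosed K] (a : K') (ha : a ∉ Set.range (algebraMap K K')) :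
    (Set.range fun s : K' ≃ₐ[K] K' => s a).Infinite := by
  have htr : Transcendental K a := by
    intro halg
    have hint : IsIntegral K a := halg.isIntegral
    have hdeg : (minpoly K a).degree = 1 :=
      IsAlgClosed.degree_eq_one_of_irreducible K (minpoly.irreducible hint)
    exact ha (minpoly.mem_range_of_degree_eq_one K a hdeg)
  choose τ hτ using fun c : K => exists_algEquiv_apply_eq_add htr c
  have hinf : Infinite K := IsAlgClosed.instInfinite
  have hinj : Function.Injective fun c : K => a + algebraMap K K' c := by
    intro m n h
    exact (algebraMap K K').injective (add_left_cancel h)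
  refine (Set.infinite_range_of_injective hinj).mono ?_
  rintro _ ⟨c, rfl⟩
  exact ⟨τ c, hτ c⟩
end H6

end Fermat.Agent.S27.H
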