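import Fermat.Agent.S27.H.Conj
import Fermat.Agent.S27.H.FixedField

/-!
# S27, Part H: rationality of `Aut(K'/K)`-stable subspaces; invariants of `F'`
Owner: helper87.

* `mem_span_rational` : a subspace of `ι → K'` stable under the coordinatewise action of
  `Aut(K'/K)` is spanned by its vectors with coordinates in `K` (Bourbaki, Algèbre II §8 no. 7).
* `eq_zero_of_forall_sum_eq_zero` : Artin-type independence.
* `mem_range_of_forall_conj_eq` : an element of `F'` fixed by all `conj σ` lies in `F`.
-/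

set_option autoImplicit false

noncomputable section

namespace Fermat.Agent.S27.H

open scoped TensorProduct

section LinearAlgebra

variable {K K' : Type*} [Field K] [Field K'] [Algebra K K']

open Classical in
/-- size of the support -/
def suppCard {ι : Type*} [Fintype ι] (w : ι → K') : ℕ := (Finset.univ.filter fun j => w j ≠ 0).card

theorem suppCard_lt {ι : Type*} [Fintype ι] {w u : ι → K'} (h : ∀ j, w j = 0 → u j = 0) {i : ι}
    (hw : w i ≠ 0) (hu : u i = 0) : suppCard u < suppCard w := by
  classical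
  unfold suppCard
  apply Finset.card_lt_card
  rw [Finset.ssubset_iff_of_subset]
  · exact ⟨i, by simpa using hw, by simpa using hu⟩
  · intro j hj
    simp only [Finset.mem_filter, Finset.mem_univ, true_and] at hj ⊢
    exact fun h0 => hj (h j h0)

theorem exists_rational_of_mem {ι : Type*} [Fintype ι]
    (hfix : ∀ x : K', (∀ σ : K' ≃ₐ[K] K', σ x = x) → x ∈ Set.range (algebraMap K K'))
    (W : Submodule K' (ι → K'))
    (hW : ∀ (σ : K' ≃ₐ[K] K') (w : ι → K'), w ∈ W → (fun i => σ (w i)) ∈ W)
    (w : ι → K') (hw : w ∈ W) (hw0 : w ≠ 0) :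
    ∃ u ∈ W, ∃ i, u i = 1 ∧ w i ≠ 0 ∧ (∀ j, w j = 0 → u j = 0) ∧
      ∀ j, u j ∈ Set.range (algebraMap K K') := by
  classical
  let S : Set (ι → K') := {u | u ∈ W ∧ u ≠ 0 ∧ ∀ j, w j = 0 → u j = 0}
  have hS : S.Nonempty := ⟨w, hw, hw0, fun _ h => h⟩
  let u₀ := Function.argminOn suppCard S hS
  have hu₀ : u₀ ∈ S := Function.argminOn_mem suppCard S hS
  have hmin : ∀ u ∈ S, suppCard u₀ ≤ suppCard u := fun u hu => Function.argminOn_le suppCard S hu
  obtain ⟨i, hi⟩ : ∃ i, u₀ i ≠ 0 := by
    by_contra hcon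
    push Not at hcon
    exact hu₀.2.1 (funext hcon)
  let u : ι → K' := (u₀ i)⁻¹ • u₀
  have hui : u i = 1 := by simp [u, hi]
  have huW : u ∈ W := W.smul_mem _ hu₀.1
  have hu0 : ∀ j, u₀ j = 0 → u j = 0 := fun j hj => by simp [u, hj]
  refine ⟨u, huW, i, hui, fun h => hi (hu₀.2.2 i h), fun j hj => hu0 j (hu₀.2.2 j hj), ?_⟩
  intro j
  apply hfix
  intro σ
  by_contra hne
  let d : ι → K' := (fun k => σ (u k)) - u
  have hdW : d ∈ W := W.sub_mem (hW σ u huW) huW
  have hd0 : ∀ k, u₀ k = 0 → d k = 0 := fun k hk => by simp [d, hu0 k hk]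
  have hdi : d i = 0 := by simp [d, hui]
  have hdne : d ≠ 0 := fun h => hne (by
    have := congrFun h j
    simpa [d, sub_eq_zero] using this)
  have hdS : d ∈ S := ⟨hdW, hdne, fun k hk => hd0 k (hu₀.2.2 k hk)⟩
  exact absurd (hmin d hdS) (not_le.mpr (suppCard_lt hd0 hi hdi))

/-- **Rationality of stable subspaces.** -/
theorem mem_span_rational {ι : Type*} [Fintype ι]
    (hfix : ∀ x : K', (∀ σ : K' ≃ₐ[K] K', σ x = x) → x ∈ Set.range (algebraMap K K'))
    (W : Submodule K' (ι → K'))
    (hW : ∀ (σ : K' ≃ₐ[K] K') (w : ι → K'), w ∈ W → (fun i => σ (w i)) ∈ W)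
    (w : ι → K') (hw : w ∈ W) :
    w ∈ Submodule.span K' {u | u ∈ W ∧ ∀ j, u j ∈ Set.range (algebraMap K K')} := by
  induction hn : suppCard w using Nat.strong_induction_on generalizing w with
  | _ n ih =>
    by_cases hw0 : w = 0
    · rw [hw0]; exact zero_mem _
    obtain ⟨u, huW, i, hui, hwi, hsupp, hrat⟩ := exists_rational_of_mem hfix W hW w hw hw0
    have hw' : w - w i • u ∈ W := W.sub_mem hw (W.smul_mem _ huW)
    have hlt : suppCard (w - w i • u) < n := by
      rw [← hn]
      apply suppCard_lt (i := i) _ hwi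
      · simp [hui]
      · intro j hj
        simp [hj, hsupp j hj]
    have h1 := ih _ hlt (w - w i • u) hw' rfl
    have h2 : w i • u ∈ Submodule.span K' {u | u ∈ W ∧ ∀ j, u j ∈ Set.range (algebraMap K K')} :=
      Submodule.smul_mem _ _ (Submodule.subset_span ⟨huW, hrat⟩)
    have := add_mem h1 h2
    rwa [sub_add_cancel] at this

/-- **Artin-type independence**: if `e` is `K`-independent and `∑ σ(e i) • y i = 0` for all
`σ ∈ Aut(K'/K)` then all `y i` vanish. -/
theorem eq_zero_of_forall_sum_eq_zero {ι : Type*} [Fintype ι] {V : Type*} [AddCommGroup V]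
    [Module K' V]
    (hfix : ∀ x : K', (∀ σ : K' ≃ₐ[K] K', σ x = x) → x ∈ Set.range (algebraMap K K'))
    {e : ι → K'} (he : LinearIndependent K e) (y : ι → V)
    (hy : ∀ σ : K' ≃ₐ[K] K', ∑ i, σ (e i) • y i = 0) (i : ι) : y i = 0 := by
  rw [← Module.forall_dual_apply_eq_zero_iff K']
  intro φ
  let W : Submodule K' (ι → K') :=
    { carrier := {l | ∀ σ : K' ≃ₐ[K] K', ∑ i, σ (e i) * l i = 0}
      add_mem' := by
        intro a b ha hb σ
        simp only [Pi.add_apply, mul_add, Finset.sum_add_distrib, ha σ, hb σ, add_zero]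
      zero_mem' := by intro σ; simp
      smul_mem' := by
        intro c a ha σ
        have : ∑ i, σ (e i) * (c • a) i = c * ∑ i, σ (e i) * a i := by
          rw [Finset.mul_sum]
          exact Finset.sum_congr rfl fun i _ => by simp only [Pi.smul_apply, smul_eq_mul]; ring
        rw [this, ha σ, mul_zero] }
  have hW : ∀ (σ : K' ≃ₐ[K] K') (w : ι → K'), w ∈ W → (fun i => σ (w i)) ∈ W := by
    intro τ w hw σ
    have h := hw (τ⁻¹ * σ)
    have h2 := congrArg τ h
    rw [map_zero, map_sum] at h2
    rw [← h2]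
    refine Finset.sum_congr rfl fun i _ => ?_
    rw [map_mul]
    congr 1
    show σ (e i) = τ (τ⁻¹ (σ (e i)))
    exact (τ.apply_symm_apply _).symm
  have hl : (fun i => φ (y i)) ∈ W := by
    intro σ
    have := congrArg φ (hy σ)
    rw [map_zero, map_sum] at this
    rw [← this]
    exact Finset.sum_congr rfl fun i _ => by rw [map_smul, smul_eq_mul]
  by_contra hne
  have hl0 : (fun i => φ (y i)) ≠ 0 := fun h => hne (congrFun h i)
  obtain ⟨u, huW, k, huk, -, -, hrat⟩ := exists_rational_of_mem hfix W hW _ hl hl0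
  choose c hc using hrat
  have h1 := huW 1
  have h2 : ∑ i, c i • e i = 0 := by
    rw [← h1]
    refine Finset.sum_congr rfl fun i _ => ?_
    rw [← hc i, Algebra.smul_def, mul_comm]
    rfl
  have h3 := (Fintype.linearIndependent_iff.mp he) c h2 k
  rw [← hc k, h3, map_zero] at huk
  exact zero_ne_one huk

end LinearAlgebra

section Invariants

variable {K F K' F' : Type*} [Field K] [Field F] [Field K'] [Field F']
  [Algebra K F] [Algebra K K'] [Algebra K' F'] [Algebra F F'] [Algebra K F']
  [IsScalarTower K F F'] [IsScalarTower K K' F']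

theorem exists_finsupp_mulMap {ι : Type*} (b : Module.Basis ι K K') (A : K' ⊗[K] F) :
    ∃ φ : ι →₀ F, mulMap K F K' F' A =
      φ.sum fun i f => algebraMap K' F' (b i) * algebraMap F F' f := by
  induction A using TensorProduct.induction_on with
  | zero => exact ⟨0, by simp⟩
  | tmul c g =>
    refine ⟨(b.repr c).mapRange (fun a => a • g) (zero_smul _ _), ?_⟩
    rw [mulMap_tmul, Finsupp.sum_mapRange_index (by simp)]
    conv_lhs => rw [← b.linearCombination_repr c, Finsupp.linearCombination_apply]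
    rw [Finsupp.sum, Finsupp.sum, map_sum, Finset.sum_mul]
    refine Finset.sum_congr rfl fun i _ => ?_
    rw [Algebra.smul_def, Algebra.smul_def, map_mul, map_mul,
      ← IsScalarTower.algebraMap_apply K K' F', ← IsScalarTower.algebraMap_apply K F F']
    ring
  | add x y hx hy =>
    obtain ⟨φ, hφ⟩ := hx
    obtain ⟨ψ, hψ⟩ := hy
    refine ⟨φ + ψ, ?_⟩
    rw [map_add, hφ, hψ, Finsupp.sum_add_index' (by simp) (by intro i a c; rw [map_add, mul_add])]

variable [IsConstExt K F K' F']

/-- **Invariants**: an element of `F'` fixed by `Aut(K'/K)` lies in `F`. -/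
theorem mem_range_of_forall_conj_eq
    (hfix : ∀ x : K', (∀ σ : K' ≃ₐ[K] K', σ x = x) → x ∈ Set.range (algebraMap K K'))
    (z : F') (hz : ∀ σ : K' ≃ₐ[K] K', conj K F K' F' σ z = z) :
    z ∈ Set.range (algebraMap F F') := by
  classical
  obtain ⟨A, B, hB, hzAB⟩ := IsConstExt.exists_div (K := K) (F := F) (K' := K') z
  let b := Module.Basis.ofVectorSpace K K'
  obtain ⟨α, hα⟩ := exists_finsupp_mulMap (F := F) (F' := F') b A
  obtain ⟨β, hβ⟩ := exists_finsupp_mulMap (F := F) (F' := F') b B
  let s := α.support ∪ β.support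
  have hα' : mulMap K F K' F' A = ∑ i ∈ s, algebraMap K' F' (b i) * algebraMap F F' (α i) := by
    rw [hα]
    exact Finsupp.sum_of_support_subset _ Finset.subset_union_left _ (by simp)
  have hβ' : mulMap K F K' F' B = ∑ i ∈ s, algebraMap K' F' (b i) * algebraMap F F' (β i) := by
    rw [hβ]
    exact Finsupp.sum_of_support_subset _ Finset.subset_union_right _ (by simp)
  have hrel : ∑ i ∈ s, algebraMap K' F' (b i) *
      (z * algebraMap F F' (β i) - algebraMap F F' (α i)) = 0 := by
    have h1 : z * mulMap K F K' F' B = mulMap K F K' F' A := by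
      rw [hzAB, div_mul_cancel₀ _ hB]
    rw [hα', hβ', Finset.mul_sum, ← sub_eq_zero, ← Finset.sum_sub_distrib] at h1
    rw [← h1]
    exact Finset.sum_congr rfl fun i _ => by ring
  have he : LinearIndependent K (fun i : s => b i) :=
    b.linearIndependent.comp _ Subtype.val_injective
  have hy : ∀ σ : K' ≃ₐ[K] K', ∑ i : s, σ (b i) •
      (z * algebraMap F F' (β i) - algebraMap F F' (α i)) = 0 := by
    intro σ
    have h2 := congrArg ((conj K F K' F' σ : SemiAut K' F') : RingAut F') hrel
    rw [map_zero, map_sum] at h2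
    rw [Finset.sum_coe_sort s (fun i => σ (b i) •
      (z * algebraMap F F' (β i) - algebraMap F F' (α i))), ← h2]
    refine Finset.sum_congr rfl fun i _ => ?_
    rw [map_mul, map_sub, map_mul]
    have e1 : ((conj K F K' F' σ : SemiAut K' F') : RingAut F') (algebraMap K' F' (b i))
        = algebraMap K' F' (σ (b i)) := conj_algebraMap_left σ _
    have e2 : ∀ f : F, ((conj K F K' F' σ : SemiAut K' F') : RingAut F') (algebraMap F F' f)
        = algebraMap F F' f := fun f => conj_algebraMap_right σ f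
    have e3 : ((conj K F K' F' σ : SemiAut K' F') : RingAut F') z = z := hz σ
    rw [e1, e2, e2, e3, Algebra.smul_def]
  have hzero := eq_zero_of_forall_sum_eq_zero hfix he _ hy
  obtain ⟨i, hi, hβi⟩ : ∃ i ∈ s, β i ≠ 0 := by
    by_contra hcon
    push Not at hcon
    apply hB
    rw [hβ']
    exact Finset.sum_eq_zero fun i hi => by rw [hcon i hi, map_zero, mul_zero]
  have h3 := hzero ⟨i, hi⟩
  refine ⟨α i / β i, ?_⟩
  have hβi' : algebraMap F F' (β i) ≠ 0 := by simpa using hβi
  rw [map_div₀, div_eq_iff hβi']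
  exact (sub_eq_zero.mp h3).symm

end Invariants

end Fermat.Agent.S27.H
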