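import Fermat.Agent.S27.H.LSpace

/-!
# S27, Part H: invariance of the genus, injectivity on Pic0
Task H5 (see the `tasks` table, stmt = 'S27').  Sub-captain of Part H: helper87.
Proofs: helper183.
-/

set_option autoImplicit false

noncomputable section

namespace Fermat.Agent.S27.H

open AlgebraicCurve Fermat.Agent.S24.FF IntermediateField
open scoped TensorProduct

section Aux

variable {K F : Type*} [Field K] [Field F] [Algebra K F] [IsAlgClosed K] [CharZero K] [IsFF1 K F]

omit [CharZero K] in
/-- over an algebraically closed constant field the degree is the sum of the coefficients -/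
theorem degree_eq_sum (D : Divisor K F) (s : Finset (Place K F)) (hs : D.support ⊆ s) :
    Divisor.degree D = ∑ v ∈ s, D v := by
  classical
  have h1 : Divisor.degree D = D.sum fun v n => n * (v.deg : ℤ) := by
    simp [Divisor.degree, Finsupp.liftAddHom_apply]
  rw [h1, Finsupp.sum_of_support_subset D hs _ (fun v _ => by simp)]
  exact Finset.sum_congr rfl fun v _ => by rw [deg_eq_one]; simp

/-- a principal divisor has degree zero -/
theorem degree_eq_zero_of_forall_ord {D : Divisor K F} {f : F} (h : ∀ v : Place K F, D v = v.ord f) :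
    Divisor.degree D = 0 := by
  rw [degree_eq_sum D D.support subset_rfl, Finset.sum_congr rfl fun v _ => h v]
  refine sum_ord_eq_zero f _ fun v hv => ?_
  rw [Finsupp.mem_support_iff, h v]
  exact hv

/-- a divisor of degree zero with a nonzero section is principal -/
theorem isPrincipal_of_degree_eq_zero {D : Divisor K F} (hD : Divisor.degree D = 0) {f : F}
    (hf0 : f ≠ 0) (hf : f ∈ riemannRochSpace D) : Divisor.IsPrincipal D := by
  classical
  rw [mem_riemannRochSpace_iff] at hf
  have hf' : ∀ v : Place K F, 0 ≤ D v + v.ord f := fun v => by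
    have := (hf v).resolve_left hf0
    omega
  set s : Finset (Place K F) := D.support ∪ (finite_ord_ne_zero (K := K) f).toFinset with hs
  have h1 : ∑ v ∈ s, (D v + v.ord f) = 0 := by
    rw [Finset.sum_add_distrib, ← degree_eq_sum D s Finset.subset_union_left, hD,
      sum_ord_eq_zero f s (fun v hv => Finset.mem_union_right _ (by simpa using hv)), add_zero]
  have h2 := (Finset.sum_eq_zero_iff_of_nonneg (fun v _ => hf' v)).mp h1
  refine ⟨f⁻¹, inv_ne_zero hf0, fun v => ?_⟩
  rw [v.ord_inv]
  by_cases hv : v ∈ s
  · have := h2 v hv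
    omega
  · rw [hs, Finset.mem_union, not_or] at hv
    have h3 : D v = 0 := by simpa using hv.1
    have h4 : v.ord f = 0 := by simpa using hv.2
    rw [h3, h4, neg_zero]

end Aux

variable {K F K' F' : Type*} [Field K] [Field F] [Field K'] [Field F']
  [Algebra K F] [Algebra K K'] [Algebra K' F'] [Algebra F F'] [Algebra K F']
  [IsScalarTower K F F'] [IsScalarTower K K' F']
  [IsAlgClosed K] [CharZero K] [IsAlgClosed K'] [CharZero K'] [IsFF1 K F] [IsFF1 K' F']
  [IsConstExt K F K' F']

section H5

variable (K F K' F') in
theorem genusFF_eq (hF : ∃ x : F, Transcendental K x) (hR : RiemannThm K F)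
    (hR' : RiemannThm K' F') : genusFF K' F' = genusFF K F := by
  obtain ⟨v0⟩ := exists_place hF
  obtain ⟨c, hc⟩ := hR.eq_of_large
  obtain ⟨c', hc'⟩ := hR'.eq_of_large
  set D : Divisor K F := Finsupp.single v0 (max c c') with hD
  have hdeg : Divisor.degree D = max c c' := by
    rw [hD, Divisor.degree_single, deg_eq_one]; simp
  have h1 := hc D (by rw [hdeg]; exact le_max_left _ _)
  have h2 := hc' (epsDiv K' F' D) (by rw [degree_epsDiv, hdeg]; exact le_max_right _ _)
  rw [finrank_riemannRochSpace_epsDiv, degree_epsDiv] at h2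
  omega

/-- a place of `F'` which is not in the image of `eps` is trivial on `F` -/
theorem ord_algebraMap_eq_zero_of_forall_ne (w : Place K' F')
    (hw : ∀ v : Place K F, eps K' F' v ≠ w) (f : F) : w.ord (algebraMap F F' f) = 0 := by
  have key : ∀ g : F, ¬ 0 < w.ord (algebraMap F F' g) := by
    intro g hg
    obtain ⟨v, hv⟩ := exists_liesOver_of_ord_pos (K := K) w hg
    exact hw v ((eps_liesOver v).left_unique hv)
  have h1 := key f
  have h2 := key f⁻¹
  rw [map_inv₀, w.ord_inv] at h2
  omega

theorem isPrincipal_epsDiv_iff (D : Divisor K F) :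
    Divisor.IsPrincipal (epsDiv K' F' D) ↔ Divisor.IsPrincipal D := by
  constructor
  · rintro ⟨z, hz0, hz⟩
    have hdeg : Divisor.degree D = 0 := by
      rw [← degree_epsDiv (K' := K') (F' := F') D]
      exact degree_eq_zero_of_forall_ord hz
    have hzmem : z⁻¹ ∈ riemannRochSpace (epsDiv K' F' D) := by
      rw [mem_riemannRochSpace_iff]
      intro w
      right
      rw [w.ord_inv, hz w]
    have hspan := mem_span_of_mem_riemannRochSpace D hzmem
    have hex : ∃ f ∈ riemannRochSpace D, f ≠ 0 := by
      by_contra hcon
      push Not at hcon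
      have hsub : algebraMap F F' '' (riemannRochSpace D : Set F) ⊆ {0} := by
        rintro _ ⟨f, hf, rfl⟩
        rw [hcon f hf, map_zero]
        exact Set.mem_singleton _
      have := Submodule.span_mono (R := K') hsub hspan
      rw [Submodule.span_zero_singleton, Submodule.mem_bot] at this
      exact inv_ne_zero hz0 this
    obtain ⟨f, hf, hf0⟩ := hex
    exact isPrincipal_of_degree_eq_zero hdeg hf0 hf
  · rintro ⟨f, hf0, hf⟩
    refine ⟨algebraMap F F' f, (map_ne_zero _).mpr hf0, fun w => ?_⟩
    by_cases hw : ∃ v : Place K F, eps K' F' v = w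
    · obtain ⟨v, rfl⟩ := hw
      rw [epsDiv_apply_eps, ord_eps, hf v]
    · push Not at hw
      rw [epsDiv_apply_of_forall_ne D w hw, ord_algebraMap_eq_zero_of_forall_ne w hw]

variable (K F K' F') in
/-- the induced map on `Pic0` -/
def pic0Map : Pic0 K F →+ Pic0 K' F' :=
  QuotientAddGroup.map _ _
    (((epsDiv K' F').comp (Divisor.degZero (K := K) (F := F)).subtype).codRestrict
      (Divisor.degZero (K := K') (F := F'))
      (fun D => by
        rw [Divisor.mem_degZero]
        exact (degree_epsDiv (K' := K') (F' := F') (D : Divisor K F)).trans D.2))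
    (by
      rintro ⟨D, hD0⟩ hD
      simp only [AddSubgroup.mem_addSubgroupOf, AddSubgroup.mem_comap] at hD ⊢
      exact (isPrincipal_epsDiv_iff (K' := K') (F' := F') D).mpr hD)

theorem pic0Map_injective : Function.Injective (pic0Map K F K' F') := by
  rw [injective_iff_map_eq_zero]
  intro x hx
  obtain ⟨D, rfl⟩ := QuotientAddGroup.mk_surjective x
  rw [pic0Map, QuotientAddGroup.map_mk, QuotientAddGroup.eq_zero_iff,
    AddSubgroup.mem_addSubgroupOf] at hx
  rw [QuotientAddGroup.eq_zero_iff, AddSubgroup.mem_addSubgroupOf]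
  exact (isPrincipal_epsDiv_iff (K' := K') (F' := F') (D : Divisor K F)).mp hx

end H5

end Fermat.Agent.S27.H
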