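import Fermat.Agent.S27.Riemann
import Fermat.Agent.S27.Cls
import Fermat.Agent.S27.Ev

/-!
# S27, Part H (upper layer), HU3: the canonical effective representative of a class
Sub-captain of the upper layer: helper47.  Proof: helper117.
Only ONE function field here (no constant field extension).

PROOF.  `A m := D + m • pt P`.  By `Riemann.riemann_inequality`, `L (A m) ≠ ⊥` for
`m = genusFF K F`.  Let `m` be minimal with `L (A m) ≠ ⊥` and `0 ≠ f ∈ L (A m)`.
Then `L (A m - pt P) = ⊥` (minimality if `m ≥ 1`, negative degree if `m = 0`), so by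
`Riemann.L_step_le` the space `L (A m)` is spanned by `f`; hence all effective divisors linearly
equivalent to `A m` are equal to `A m + div f`.
-/

set_option autoImplicit false

noncomputable section

namespace Fermat.Agent.S27.H

open AlgebraicCurve Fermat.Agent.S24.FF

variable {K F : Type*} [Field K] [Field F] [Algebra K F] [IsAlgClosed K] [CharZero K] [IsFF1 K F]

theorem exists_canon (hF : ∃ x : F, Transcendental K x) (P : Place K F) (D : Divisor K F)
    (hD : Divisor.degree D = 0) :
    ∃ (m : ℕ) (E : Divisor K F), 0 ≤ E ∧ LinEq E (D + m • pt P) ∧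
      ∀ E₂ : Divisor K F, 0 ≤ E₂ → LinEq E₂ (D + m • pt P) → E₂ = E := by
  classical
  have hdeg : ∀ m : ℕ, Divisor.degree (D + m • pt P) = m := by
    intro m
    rw [map_add, hD, map_nsmul, degree_pt]
    simp
  -- existence of some `m`
  have hex : ∃ m : ℕ, riemannRochSpace (D + m • pt P) ≠ ⊥ := by
    refine ⟨genusFF K F, fun hbot => ?_⟩
    have h1 := Riemann.riemann_inequality hF (D + (genusFF K F) • pt P)
    rw [hdeg, hbot, finrank_bot] at h1
    simp at h1
  let m := Nat.find hex
  have hm : riemannRochSpace (D + m • pt P) ≠ ⊥ := Nat.find_spec hex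
  have hmin : ∀ k < m, riemannRochSpace (D + k • pt P) = ⊥ := fun k hk =>
    not_not.mp (Nat.find_min hex hk)
  obtain ⟨f, hf, hf0⟩ := (Submodule.ne_bot_iff _).mp hm
  -- the space one step below is trivial
  have hstep : D + m • pt P = (D + m • pt P - pt P) + Finsupp.single P 1 :=
    (sub_add_cancel (D + m • pt P) (pt P)).symm
  have hbelow : riemannRochSpace (D + m • pt P - pt P) = ⊥ := by
    rcases Nat.eq_zero_or_pos m with h0 | hpos
    · apply Riemann.L_eq_bot_of_degree_neg
      rw [map_sub, hdeg, degree_pt, h0]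
      norm_num
    · have h1 : D + m • pt P - pt P = D + (m - 1) • pt P := by
        obtain ⟨k, hk⟩ : ∃ k, m = k + 1 := ⟨m - 1, by omega⟩
        rw [hk, Nat.add_sub_cancel, succ_nsmul]
        abel
      rw [h1]
      exact hmin _ (by omega)
  have hspan : riemannRochSpace (D + m • pt P) ≤ K ∙ f := by
    have hf' : f ∈ riemannRochSpace ((D + m • pt P - pt P) + Finsupp.single P 1) := by
      rw [← hstep]; exact hf
    have hnot : f ∉ riemannRochSpace (D + m • pt P - pt P) := by
      rw [hbelow, Submodule.mem_bot]; exact hf0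
    have h2 := Riemann.L_step_le hf' hnot
    rw [← hstep, hbelow, bot_sup_eq] at h2
    exact h2
  refine ⟨m, D + m • pt P + Riemann.divOf f, ?_, ?_, ?_⟩
  · intro v
    have := ((mem_riemannRochSpace_iff.mp hf) v).resolve_left hf0
    rw [Finsupp.add_apply, Riemann.divOf_apply, Finsupp.zero_apply]
    omega
  · rw [LinEq, add_sub_cancel_left]
    exact ⟨f, hf0, fun v => rfl⟩
  · intro E₂ hE₂ hlin
    obtain ⟨f₂, hf₂0, hf₂⟩ := hlin
    have hmem : f₂ ∈ riemannRochSpace (D + m • pt P) := by
      rw [mem_riemannRochSpace_iff]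
      intro v
      right
      rw [← hf₂ v, Finsupp.sub_apply]
      have := hE₂ v
      rw [Finsupp.zero_apply] at this
      omega
    obtain ⟨c, hc⟩ := Submodule.mem_span_singleton.mp (hspan hmem)
    have hc0 : c ≠ 0 := by
      rintro rfl
      rw [zero_smul] at hc
      exact hf₂0 hc.symm
    ext v
    have h1 := hf₂ v
    rw [Finsupp.sub_apply] at h1
    have h2 : v.ord f₂ = v.ord f := by
      rw [← hc, Algebra.smul_def, v.ord_mul ((_root_.map_ne_zero _).mpr hc0) hf0, ord_algebraMap,
        zero_add]
    rw [Finsupp.add_apply, Riemann.divOf_apply]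
    omega

end Fermat.Agent.S27.H
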