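import Fermat.Agent.S27.H.Defs

/-!
# S27, Part H: semilinear automorphisms of a function field act on places, divisors and `Pic0`
Owner: helper87.  (Adaptation of the `F ≃ₐ[K] F`-action of the Prelude to ring automorphisms which
only preserve the constant field as a set.)
-/

set_option autoImplicit false

noncomputable section

namespace Fermat.Agent.S27.H

open AlgebraicCurve Fermat.Agent.S24.FF
open scoped Pointwise

variable (K F : Type*) [Field K] [Field F] [Algebra K F]

/-- Ring automorphisms of `F` mapping the constant field onto itself. -/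
def SemiAut : Subgroup (RingAut F) where
  carrier := {τ | ∀ c : K, τ (algebraMap K F c) ∈ Set.range (algebraMap K F) ∧
    τ⁻¹ (algebraMap K F c) ∈ Set.range (algebraMap K F)}
  one_mem' := fun c => ⟨⟨c, rfl⟩, ⟨c, by simp⟩⟩
  mul_mem' := by
    intro σ τ hσ hτ c
    constructor
    · obtain ⟨d, hd⟩ := (hτ c).1
      obtain ⟨e, he⟩ := (hσ d).1
      exact ⟨e, by rw [he, hd]; rfl⟩
    · obtain ⟨d, hd⟩ := (hσ c).2
      obtain ⟨e, he⟩ := (hτ d).2
      exact ⟨e, by rw [he, hd, mul_inv_rev]; rfl⟩
  inv_mem' := by
    intro σ hσ c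
    exact ⟨(hσ c).2, by rw [inv_inv]; exact (hσ c).1⟩

variable {K F}

namespace SemiAut

/-- the underlying ring automorphism, as a function -/
instance : CoeFun (SemiAut K F) (fun _ => F → F) := ⟨fun τ => ((τ : RingAut F) : F → F)⟩

theorem mul_apply (σ τ : SemiAut K F) (x : F) : (σ * τ) x = σ (τ x) := rfl

theorem one_apply (x : F) : (1 : SemiAut K F) x = x := rfl

theorem inv_apply_self (τ : SemiAut K F) (x : F) : τ⁻¹ (τ x) = x :=
  (τ : RingAut F).symm_apply_apply x

theorem apply_inv_self (τ : SemiAut K F) (x : F) : τ (τ⁻¹ x) = x :=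
  (τ : RingAut F).apply_symm_apply x

theorem exists_apply_algebraMap (τ : SemiAut K F) (c : K) :
    ∃ d : K, τ (algebraMap K F c) = algebraMap K F d := by
  obtain ⟨d, hd⟩ := (τ.2 c).1
  exact ⟨d, hd.symm⟩

/-- transport of a valuation subring -/
def smulRingEquiv (τ : RingAut F) (A : ValuationSubring F) : A ≃+* (τ • A : ValuationSubring F) where
  toFun x := ⟨τ x, ValuationSubring.smul_mem_pointwise_smul τ (x : F) A x.2⟩
  invFun y := ⟨τ⁻¹ y, by
    have := (ValuationSubring.mem_pointwise_smul_iff_inv_smul_mem (g := τ)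
      (S := A) (x := (y : F))).mp y.2
    exact this⟩
  left_inv x := by ext; exact τ.symm_apply_apply _
  right_inv y := by ext; exact τ.apply_symm_apply _
  map_mul' x y := by ext; exact map_mul τ _ _
  map_add' x y := by ext; exact map_add τ _ _

@[simp]
theorem coe_smulRingEquiv_apply (τ : RingAut F) (A : ValuationSubring F) (x : A) :
    ((smulRingEquiv τ A x : (τ • A : ValuationSubring F)) : F) = τ x := rfl

theorem pointwise_smul_top (τ : RingAut F) : τ • (⊤ : ValuationSubring F) = ⊤ := by
  ext x
  simp only [ValuationSubring.mem_pointwise_smul_iff_inv_smul_mem]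
  exact ⟨fun _ => ValuationSubring.mem_top x, fun _ => ValuationSubring.mem_top _⟩

instance : SMul (SemiAut K F) (Place K F) where
  smul τ v :=
    { toValuationSubring := (τ : RingAut F) • v.toValuationSubring
      algebraMap_mem' := fun a => by
        obtain ⟨c, hc⟩ := (τ.2 a).2
        have h := ValuationSubring.smul_mem_pointwise_smul (τ : RingAut F) (algebraMap K F c)
          v.toValuationSubring (v.algebraMap_mem' c)
        rw [hc] at h
        have h2 : (τ : RingAut F) • ((τ : RingAut F)⁻¹ (algebraMap K F a)) = algebraMap K F a :=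
          (τ : RingAut F).apply_symm_apply _
        rwa [h2] at h
      ne_top' := fun h => v.ne_top' <| by
        have := congrArg ((τ : RingAut F)⁻¹ • ·) h
        simpa [pointwise_smul_top] using this
      isPrincipalIdealRing' :=
        IsPrincipalIdealRing.of_surjective
          (smulRingEquiv (τ : RingAut F) v.toValuationSubring : _ ≃+* _)
          (smulRingEquiv (τ : RingAut F) v.toValuationSubring).surjective }

@[simp]
theorem smul_toValuationSubring (τ : SemiAut K F) (v : Place K F) :
    (τ • v).toValuationSubring = (τ : RingAut F) • v.toValuationSubring := rfl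

instance : MulAction (SemiAut K F) (Place K F) where
  one_smul v := by
    ext1
    rw [smul_toValuationSubring]
    exact one_smul _ _
  mul_smul σ τ v := by
    ext1
    simp only [smul_toValuationSubring]
    exact mul_smul _ _ _

theorem mem_smul_iff (τ : SemiAut K F) (v : Place K F) (x : F) :
    τ x ∈ (τ • v).toValuationSubring ↔ x ∈ v.toValuationSubring := by
  rw [smul_toValuationSubring, ValuationSubring.mem_pointwise_smul_iff_inv_smul_mem]
  have : (τ : RingAut F)⁻¹ • (τ x) = x := (τ : RingAut F).symm_apply_apply x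
  rw [this]

theorem ord_smul (τ : SemiAut K F) (v : Place K F) (f : F) : (τ • v).ord (τ f) = v.ord f := by
  rcases eq_or_ne f 0 with rfl | hf
  · have : τ (0 : F) = 0 := map_zero (τ : RingAut F)
    rw [this]; simp
  obtain ⟨π, hπ⟩ := IsDiscreteValuationRing.exists_irreducible v.toValuationSubring
  obtain ⟨u, hu⟩ := v.exists_unit_mul_zpow hf hπ
  set n := v.ord f with hn
  set e := smulRingEquiv (τ : RingAut F) v.toValuationSubring with he
  have hπ' : Irreducible (e π) := (MulEquiv.irreducible_iff e).mpr hπ
  have hu' : IsUnit (e (u : v.toValuationSubring)) := u.isUnit.map e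
  have hcoeu : ((hu'.unit : (τ • v).toValuationSubring) : F)
      = τ ((u : v.toValuationSubring) : F) := by
    rw [IsUnit.unit_spec]
    rfl
  have hcoeπ : ((e π : (τ • v).toValuationSubring) : F) = τ (π : F) := rfl
  have key : τ f = ((hu'.unit : (τ • v).toValuationSubring) : F)
      * (((e π : (τ • v).toValuationSubring) : F) ^ n) := by
    rw [hcoeu, hcoeπ, hu]
    show (τ : RingAut F) _ = (τ : RingAut F) _ * ((τ : RingAut F) _) ^ n
    rw [map_mul, map_zpow₀]
  rw [key, (τ • v).ord_unit_smul_zpow hu'.unit hπ' n]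

theorem ord_smul' (τ : SemiAut K F) (v : Place K F) (f : F) : (τ • v).ord f = v.ord (τ⁻¹ f) := by
  conv_lhs => rw [← apply_inv_self τ f]
  exact ord_smul τ v _

instance : DistribMulAction (SemiAut K F) (Divisor K F) := Finsupp.comapDistribMulAction

theorem smul_def (τ : SemiAut K F) (D : Divisor K F) :
    τ • D = Finsupp.mapDomain (τ • ·) D := rfl

@[simp]
theorem smul_single (τ : SemiAut K F) (v : Place K F) (n : ℤ) :
    τ • (Finsupp.single v n : Divisor K F) = Finsupp.single (τ • v) n := by
  rw [smul_def, Finsupp.mapDomain_single]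

theorem smul_apply_smul (τ : SemiAut K F) (D : Divisor K F) (v : Place K F) :
    (τ • D) (τ • v) = D v := by
  rw [smul_def]
  exact Finsupp.mapDomain_apply (MulAction.injective τ) D v

theorem smul_apply (τ : SemiAut K F) (D : Divisor K F) (w : Place K F) :
    (τ • D) w = D (τ⁻¹ • w) := by
  have : (τ • D) (τ • (τ⁻¹ • w)) = D (τ⁻¹ • w) := smul_apply_smul τ D (τ⁻¹ • w)
  rwa [smul_inv_smul] at this

theorem smul_nonneg (τ : SemiAut K F) {D : Divisor K F} (hD : 0 ≤ D) : 0 ≤ τ • D := by
  intro w
  rw [smul_apply]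
  exact hD _

theorem smul_mem_principal (τ : SemiAut K F) {D : Divisor K F}
    (hD : D ∈ Divisor.principal (K := K) (F := F)) :
    τ • D ∈ Divisor.principal (K := K) (F := F) := by
  obtain ⟨f, hf, hD⟩ := hD
  refine ⟨τ f, ?_, fun w => ?_⟩
  · exact (map_ne_zero (τ : RingAut F)).mpr hf
  · rw [smul_apply, hD (τ⁻¹ • w)]
    have h := ord_smul τ (τ⁻¹ • w) f
    rw [smul_inv_smul] at h
    exact h.symm

theorem apply_mem_riemannRochSpace (τ : SemiAut K F) {D : Divisor K F} {f : F}
    (hf : f ∈ riemannRochSpace D) : τ f ∈ riemannRochSpace (τ • D) := by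
  rw [mem_riemannRochSpace_iff] at hf ⊢
  intro w
  rcases hf (τ⁻¹ • w) with h | h
  · left
    rw [h]
    exact map_zero (τ : RingAut F)
  · right
    rw [smul_apply]
    have h2 := ord_smul τ (τ⁻¹ • w) f
    rw [smul_inv_smul] at h2
    rw [h2]
    exact h

section Deg

variable [IsAlgClosed K] [IsFF1 K F]

@[simp]
theorem degree_smul (τ : SemiAut K F) (D : Divisor K F) :
    Divisor.degree (τ • D) = Divisor.degree D := by
  induction D using Finsupp.induction with
  | zero => simp
  | single_add v n D _ _ ih =>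
      rw [smul_add, map_add, map_add, ih, smul_single, Divisor.degree_single,
        Divisor.degree_single, deg_eq_one, deg_eq_one]

theorem smul_mem_degZero (τ : SemiAut K F) {D : Divisor K F}
    (hD : D ∈ Divisor.degZero (K := K) (F := F)) : τ • D ∈ Divisor.degZero (K := K) (F := F) := by
  rwa [Divisor.mem_degZero, degree_smul]

/-- the action on divisors of degree zero -/
def degZeroSMulHom (τ : SemiAut K F) :
    Divisor.degZero (K := K) (F := F) →+ Divisor.degZero (K := K) (F := F) :=
  ((DistribSMul.toAddMonoidHom (Divisor K F) τ).domRestrict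
    (Divisor.degZero (K := K) (F := F))).codRestrict _
    (fun D => smul_mem_degZero τ D.2)

@[simp]
theorem coe_degZeroSMulHom (τ : SemiAut K F) (D : Divisor.degZero (K := K) (F := F)) :
    (degZeroSMulHom τ D : Divisor K F) = τ • (D : Divisor K F) := rfl

instance : SMul (SemiAut K F) (Pic0 K F) where
  smul τ := QuotientAddGroup.map _ _ (degZeroSMulHom τ) (by
    rintro ⟨D, hD0⟩ hD
    simp only [AddSubgroup.mem_addSubgroupOf] at hD ⊢
    exact smul_mem_principal τ hD)

theorem smul_mk (τ : SemiAut K F) (D : Divisor.degZero (K := K) (F := F)) :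
    τ • (Pic0.mk D) = Pic0.mk (degZeroSMulHom τ D) := rfl

instance : DistribMulAction (SemiAut K F) (Pic0 K F) where
  one_smul x := by
    obtain ⟨D, rfl⟩ := Pic0.mk_surjective x
    rw [smul_mk]
    exact congrArg Pic0.mk (Subtype.ext (by rw [coe_degZeroSMulHom, one_smul]))
  mul_smul σ τ x := by
    obtain ⟨D, rfl⟩ := Pic0.mk_surjective x
    rw [smul_mk, smul_mk, smul_mk]
    exact congrArg Pic0.mk (Subtype.ext (by simp only [coe_degZeroSMulHom]; rw [mul_smul]))
  smul_zero σ := by
    show σ • Pic0.mk 0 = Pic0.mk 0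
    rw [smul_mk]
    exact congrArg Pic0.mk (map_zero _)
  smul_add σ x y := by
    obtain ⟨D, rfl⟩ := Pic0.mk_surjective x
    obtain ⟨E, rfl⟩ := Pic0.mk_surjective y
    show σ • Pic0.mk (D + E) = Pic0.mk (degZeroSMulHom σ D) + Pic0.mk (degZeroSMulHom σ E)
    rw [smul_mk]
    exact congrArg Pic0.mk (map_add _ _ _)

theorem smul_mem_torsion (τ : SemiAut K F) {n : ℕ} {x : Pic0 K F}
    (hx : x ∈ Pic0.torsion K F n) : τ • x ∈ Pic0.torsion K F n := by
  rw [Pic0.mem_torsion] at hx ⊢
  rw [← smul_zero τ, ← hx]
  exact (smul_comm _ _ _)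

end Deg

end SemiAut

end Fermat.Agent.S27.H
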