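import Fermat.Agent.S27.H.ConstExtBasic

/-!
# S27, Part H (upper layer), HU1: automorphisms of the constants extend to `F'`
Sub-captain of the upper layer: helper47.  Proved by helper79.

PROOF SKETCH.  Give `F'` the `K' ⊗[K] F`-algebra structure `(mulMap K F K' F').toRingHom.toAlgebra`;
`IsConstExt.injective` + `IsConstExt.exists_div` give `IsFractionRing (K' ⊗[K] F) F'`
(`IsFractionRing` = `IsLocalization (nonZeroDivisors _)`; `K' ⊗[K] F` is a domain because it embeds
in the field `F'`).  `e := Algebra.TensorProduct.congr σ AlgEquiv.refl : K' ⊗[K] F ≃ₐ[K] K' ⊗[K] F`.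
`IsFractionRing.ringEquivOfRingEquiv e.toRingEquiv : F' ≃+* F'` (older name
`IsFractionRing.fieldEquivOfRingEquiv`) maps `mulMap a` to `mulMap (e a)`
(`IsFractionRing.ringEquivOfRingEquiv_algebraMap`).  Apply with `a = 1 ⊗ f` and `a = c ⊗ 1`.
-/

set_option autoImplicit false

noncomputable section

namespace Fermat.Agent.S27.H

open scoped TensorProduct

variable {K F K' F' : Type*} [Field K] [Field F] [Field K'] [Field F']
  [Algebra K F] [Algebra K K'] [Algebra K' F'] [Algebra F F'] [Algebra K F']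
  [IsScalarTower K F F'] [IsScalarTower K K' F'] [IsConstExt K F K' F']

variable (K F K' F') in
/-- `F'` is the fraction field of `K' ⊗[K] F` (through `mulMap`). -/
theorem isFractionRing_mulMap :
    @IsFractionRing (K' ⊗[K] F) _ F' _ (mulMap K F K' F').toRingHom.toAlgebra := by
  let _ : Algebra (K' ⊗[K] F) F' := (mulMap K F K' F').toRingHom.toAlgebra
  have hinj : Function.Injective (algebraMap (K' ⊗[K] F) F') :=
    IsConstExt.injective (K := K) (F := F) (K' := K') (F' := F')
  have : FaithfulSMul (K' ⊗[K] F) F' := (faithfulSMul_iff_algebraMap_injective _ _).mpr hinj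
  refine IsFractionRing.of_field (K' ⊗[K] F) F' fun z => ?_
  obtain ⟨a, b, -, h⟩ := IsConstExt.exists_div (K := K) (F := F) (K' := K') z
  exact ⟨a, b, h⟩

theorem exists_semilinear (σ : K' ≃ₐ[K] K') :
    ∃ τ : F' ≃ₐ[F] F', ∀ c : K', τ (algebraMap K' F' c) = algebraMap K' F' (σ c) := by
  let _ : Algebra (K' ⊗[K] F) F' := (mulMap K F K' F').toRingHom.toAlgebra
  have : IsFractionRing (K' ⊗[K] F) F' := isFractionRing_mulMap K F K' F'
  have hmap : ∀ a : K' ⊗[K] F, algebraMap (K' ⊗[K] F) F' a = mulMap K F K' F' a := fun _ => rfl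
  let e : K' ⊗[K] F ≃ₐ[K] K' ⊗[K] F := Algebra.TensorProduct.congr σ AlgEquiv.refl
  let τ₀ : F' ≃+* F' := IsFractionRing.ringEquivOfRingEquiv e.toRingEquiv
  have hτ₀ : ∀ a : K' ⊗[K] F, τ₀ (mulMap K F K' F' a) = mulMap K F K' F' (e a) := fun a => by
    rw [← hmap, ← hmap]
    exact IsFractionRing.ringEquivOfRingEquiv_algebraMap e.toRingEquiv a
  refine ⟨AlgEquiv.ofRingEquiv (f := τ₀) fun f => ?_, fun c => ?_⟩
  · have h := hτ₀ ((1 : K') ⊗ₜ[K] f)
    simpa [e] using h
  · have h := hτ₀ (c ⊗ₜ[K] (1 : F))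
    simpa [e] using h

end Fermat.Agent.S27.H
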