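import Fermat.Agent.S27.H.ConstExtBasic
import Fermat.Agent.S27.H.SemiAut
import Fermat.Agent.S27.H.Semilinear

/-!
# S27, Part H: the action of `Aut(K'/K)` on the constant field extension
Task H6c (see the `tasks` table, stmt = 'S27').  Sub-captain of Part H: helper87.
Proved by helper146 (statements are frozen interfaces).
-/

set_option autoImplicit false

noncomputable section

namespace Fermat.Agent.S27.H

open AlgebraicCurve Fermat.Agent.S24.FF IntermediateField
open scoped TensorProduct

variable {K F K' F' : Type*} [Field K] [Field F] [Field K'] [Field F']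
  [Algebra K F] [Algebra K K'] [Algebra K' F'] [Algebra F F'] [Algebra K F']
  [IsScalarTower K F F'] [IsScalarTower K K' F']
  [IsConstExt K F K' F']

variable (K F K' F') in
theorem exists_conj (σ : K' ≃ₐ[K] K') : ∃ τ : F' ≃+* F',
    (∀ c : K', τ (algebraMap K' F' c) = algebraMap K' F' (σ c)) ∧
    (∀ f : F, τ (algebraMap F F' f) = algebraMap F F' f) := by
  obtain ⟨τ, hτ⟩ := exists_semilinear (F := F) (F' := F') σ
  exact ⟨τ.toRingEquiv, fun c => hτ c, fun f => τ.commutes f⟩

variable (K F K' F') in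
include K in
/-- ring homomorphisms out of `F'` are determined by their restrictions to `K'` and `F` -/
theorem ringHom_ext_of_isConstExt {R : Type*} [Semiring R] {φ ψ : F' →+* R}
    (h1 : ∀ c : K', φ (algebraMap K' F' c) = ψ (algebraMap K' F' c))
    (h2 : ∀ f : F, φ (algebraMap F F' f) = ψ (algebraMap F F' f)) : φ = ψ := by
  have hT : ∀ a : K' ⊗[K] F, φ (mulMap K F K' F' a) = ψ (mulMap K F K' F' a) := by
    intro a
    induction a using TensorProduct.induction_on with
    | zero => simp
    | tmul c f => rw [mulMap_tmul, map_mul, map_mul, h1, h2]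
    | add x y hx hy => rw [map_add, map_add, map_add, hx, hy]
  ext z
  obtain ⟨a, b, hb, rfl⟩ := IsConstExt.exists_div (K := K) (F := F) (K' := K') z
  have hunit : φ (mulMap K F K' F' b) * φ (mulMap K F K' F' b)⁻¹ = 1 := by
    rw [← map_mul, mul_inv_cancel₀ hb, map_one]
  have h3 : ∀ χ : F' →+* R, χ (mulMap K F K' F' a / mulMap K F K' F' b) *
      χ (mulMap K F K' F' b) = χ (mulMap K F K' F' a) := by
    intro χ
    rw [← map_mul, div_mul_cancel₀ _ hb]
  calc φ (mulMap K F K' F' a / mulMap K F K' F' b)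
      = φ (mulMap K F K' F' a / mulMap K F K' F' b) *
          (φ (mulMap K F K' F' b) * φ (mulMap K F K' F' b)⁻¹) := by rw [hunit, mul_one]
    _ = ψ (mulMap K F K' F' a / mulMap K F K' F' b) *
          (φ (mulMap K F K' F' b) * φ (mulMap K F K' F' b)⁻¹) := by
        rw [← mul_assoc, ← mul_assoc, h3 φ, hT a, ← h3 ψ, hT b]
    _ = ψ (mulMap K F K' F' a / mulMap K F K' F' b) := by rw [hunit, mul_one]

variable (K F K' F') in
/-- the ring automorphism `σ ⊗ id` of `F'` -/
def conjAut (σ : K' ≃ₐ[K] K') : RingAut F' := (exists_conj K F K' F' σ).choose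

theorem conjAut_algebraMap_left (σ : K' ≃ₐ[K] K') (c : K') :
    conjAut K F K' F' σ (algebraMap K' F' c) = algebraMap K' F' (σ c) :=
  (exists_conj K F K' F' σ).choose_spec.1 c

theorem conjAut_algebraMap_right (σ : K' ≃ₐ[K] K') (f : F) :
    conjAut K F K' F' σ (algebraMap F F' f) = algebraMap F F' f :=
  (exists_conj K F K' F' σ).choose_spec.2 f

theorem conjAut_mul (σ ρ : K' ≃ₐ[K] K') :
    conjAut K F K' F' (σ * ρ) = conjAut K F K' F' σ * conjAut K F K' F' ρ := by
  apply RingEquiv.toRingHom_injective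
  apply ringHom_ext_of_isConstExt K F K' F'
  · intro c
    show conjAut K F K' F' (σ * ρ) _ = conjAut K F K' F' σ (conjAut K F K' F' ρ _)
    rw [conjAut_algebraMap_left, conjAut_algebraMap_left, conjAut_algebraMap_left]
    rfl
  · intro f
    show conjAut K F K' F' (σ * ρ) _ = conjAut K F K' F' σ (conjAut K F K' F' ρ _)
    rw [conjAut_algebraMap_right, conjAut_algebraMap_right, conjAut_algebraMap_right]

theorem conjAut_one : conjAut K F K' F' 1 = 1 := by
  apply RingEquiv.toRingHom_injective
  apply ringHom_ext_of_isConstExt K F K' F'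
  · intro c
    show conjAut K F K' F' 1 _ = _
    rw [conjAut_algebraMap_left]
    rfl
  · intro f
    show conjAut K F K' F' 1 _ = _
    rw [conjAut_algebraMap_right]
    rfl

theorem conjAut_inv (σ : K' ≃ₐ[K] K') :
    (conjAut K F K' F' σ)⁻¹ = conjAut K F K' F' σ⁻¹ := by
  rw [inv_eq_iff_mul_eq_one, ← conjAut_mul, mul_inv_cancel, conjAut_one]

variable (K F K' F') in
/-- `Aut(K'/K)` acts on `F'` by semilinear automorphisms fixing `F`. -/
def conj : (K' ≃ₐ[K] K') →* SemiAut K' F' where
  toFun σ := ⟨conjAut K F K' F' σ, fun c =>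
    ⟨⟨σ c, (conjAut_algebraMap_left σ c).symm⟩,
      ⟨σ⁻¹ c, by rw [conjAut_inv, conjAut_algebraMap_left]⟩⟩⟩
  map_one' := Subtype.ext conjAut_one
  map_mul' σ ρ := Subtype.ext (conjAut_mul σ ρ)

theorem conj_algebraMap_left (σ : K' ≃ₐ[K] K') (c : K') :
    conj K F K' F' σ (algebraMap K' F' c) = algebraMap K' F' (σ c) :=
  conjAut_algebraMap_left σ c

theorem conj_algebraMap_right (σ : K' ≃ₐ[K] K') (f : F) :
    conj K F K' F' σ (algebraMap F F' f) = algebraMap F F' f :=
  conjAut_algebraMap_right σ f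

end Fermat.Agent.S27.H
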