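import Fermat.Agent.S27.H.Eps
import Fermat.Agent.S27.H.Conj

/-!
# S27, Part H: rational places and divisors are fixed by `Aut(K'/K)`
Owner: helper87.  (Same lemmas as in `Rational.lean`, but available BEFORE `LSpace.lean`;
they live in the sub-namespace `ConjEps` to avoid name clashes.)
-/

set_option autoImplicit false

noncomputable section

namespace Fermat.Agent.S27.H.ConjEps

open AlgebraicCurve Fermat.Agent.S24.FF IntermediateField
open scoped TensorProduct

variable {K F K' F' : Type*} [Field K] [Field F] [Field K'] [Field F']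
  [Algebra K F] [Algebra K K'] [Algebra K' F'] [Algebra F F'] [Algebra K F']
  [IsScalarTower K F F'] [IsScalarTower K K' F']
  [IsAlgClosed K] [CharZero K] [IsAlgClosed K'] [CharZero K'] [IsFF1 K F] [IsFF1 K' F']
  [IsConstExt K F K' F']

theorem conj_smul_eps (σ : K' ≃ₐ[K] K') (v : Place K F) :
    conj K F K' F' σ • eps K' F' v = eps K' F' v := by
  apply LiesOver.left_unique (v := v) _ (eps_liesOver v)
  intro f
  have h1 := SemiAut.mem_smul_iff (conj K F K' F' σ) (eps K' F' v) (algebraMap F F' f)
  rw [conj_algebraMap_right] at h1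
  rw [h1]
  exact eps_liesOver v f

theorem conj_smul_epsDiv (σ : K' ≃ₐ[K] K') (D : Divisor K F) :
    conj K F K' F' σ • epsDiv K' F' D = epsDiv K' F' D := by
  induction D using Finsupp.induction with
  | zero => simp
  | single_add v n D _ _ ih =>
    rw [map_add, smul_add, ih]
    congr 1
    show conj K F K' F' σ • Finsupp.mapDomain (eps K' F') (Finsupp.single v n) = 
      Finsupp.mapDomain (eps K' F') (Finsupp.single v n)
    rw [Finsupp.mapDomain_single, SemiAut.smul_single, conj_smul_eps]

/-- `conj σ` maps `L(eps D)` to itself -/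
theorem conj_mem_riemannRochSpace (σ : K' ≃ₐ[K] K') (D : Divisor K F) {z : F'}
    (hz : z ∈ riemannRochSpace (epsDiv K' F' D)) :
    conj K F K' F' σ z ∈ riemannRochSpace (epsDiv K' F' D) := by
  have h := SemiAut.apply_mem_riemannRochSpace (conj K F K' F' σ) hz
  rwa [conj_smul_epsDiv] at h

/-- values at rational places are equivariant -/
theorem ord_eps_conj_sub (σ : K' ≃ₐ[K] K') (v : Place K F) (z : F') (c : K') :
    (eps K' F' v).ord (conj K F K' F' σ z - algebraMap K' F' (σ c)) =
      (eps K' F' v).ord (z - algebraMap K' F' c) := by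
  have h := SemiAut.ord_smul (conj K F K' F' σ) (eps K' F' v) (z - algebraMap K' F' c)
  rw [conj_smul_eps] at h
  rw [← h, ← conj_algebraMap_left (K := K) (F := F) σ c]
  congr 1
  exact (map_sub ((conj K F K' F' σ : SemiAut K' F') : RingAut F') z _).symm

end Fermat.Agent.S27.H.ConjEps
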