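import Fermat.Agent.S27.H.ConstExtBasic

/-!
# S27, Part H: degrees are preserved by constant field extension
Task H1 (see the `tasks` table, stmt = 'S27').  Sub-captain of Part H: helper87.
Owner of this file: helper192.
-/

set_option autoImplicit false

noncomputable section

namespace Fermat.Agent.S27.H

open AlgebraicCurve Fermat.Agent.S24.FF IntermediateField
open scoped TensorProduct

section Aux

variable {K F : Type*} [Field K] [Field F] [Algebra K F]

theorem linearIndependent_pow_of_transcendental {x : F} (hx : Transcendental K x) :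
    LinearIndependent K (fun i : ℕ => x ^ i) := by
  have h := (Polynomial.basisMonomials K).linearIndependent.map' (Polynomial.aeval x).toLinearMap
    (LinearMap.ker_eq_bot.mpr (transcendental_iff_injective.mp hx))
  have e : (fun i : ℕ => x ^ i) =
      (⇑(Polynomial.aeval x).toLinearMap ∘ ⇑(Polynomial.basisMonomials K)) := by
    funext i
    simp
  rw [e]
  exact h

theorem transcendental_of_linearIndependent_pow {x : F}
    (h : LinearIndependent K (fun i : ℕ => x ^ i)) : Transcendental K x := by
  rw [transcendental_iff]
  intro p hp
  rw [Polynomial.aeval_eq_sum_range] at hp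
  have h0 := linearIndependent_iff'.mp h (Finset.range (p.natDegree + 1)) (fun i => p.coeff i) hp
  ext i
  by_cases hi : i ∈ Finset.range (p.natDegree + 1)
  · simpa using h0 i hi
  · have : p.natDegree < i := by
      simp only [Finset.mem_range, not_lt] at hi
      omega
    simpa using Polynomial.coeff_eq_zero_of_natDegree_lt this

end Aux

variable {K F K' F' : Type*} [Field K] [Field F] [Field K'] [Field F']
  [Algebra K F] [Algebra K K'] [Algebra K' F'] [Algebra F F'] [Algebra K F']
  [IsScalarTower K F F'] [IsScalarTower K K' F']

section H1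
variable [IsConstExt K F K' F']

theorem transcendental_algebraMap {x : F} (hx : Transcendental K x) :
    Transcendental K' (algebraMap F F' x) := by
  apply transcendental_of_linearIndependent_pow
  have h := IsConstExt.linearIndependent K F K' F' (linearIndependent_pow_of_transcendental hx)
  simpa using h

omit [IsConstExt K F K' F'] in
/-- the image of `K(x)` lies in `K'(x)` -/
theorem algebraMap_mem_adjoin {x : F} {c : F} (hc : c ∈ K⟮x⟯) :
    algebraMap F F' c ∈ K'⟮algebraMap F F' x⟯ := by
  obtain ⟨r, s, rfl⟩ := (IntermediateField.mem_adjoin_simple_iff K c).mp hc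
  rw [map_div₀]
  have key : ∀ r : Polynomial K, algebraMap F F' (Polynomial.aeval x r) ∈
      K'⟮algebraMap F F' x⟯ := by
    intro r
    have : algebraMap F F' (Polynomial.aeval x r) =
        Polynomial.aeval (algebraMap F F' x) (r.map (algebraMap K K')) := by
      rw [Polynomial.aeval_map_algebraMap, Polynomial.aeval_algebraMap_apply]
    rw [this]
    exact (IntermediateField.mem_adjoin_simple_iff K' _).mpr
      ⟨r.map (algebraMap K K'), 1, by simp⟩
  exact div_mem (key r) (key s)

open scoped IntermediateField.algebraAdjoinAdjoin in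
/-- a `K(x)`-independent family of `F` stays independent over `K'(x)` -/
theorem linearIndependent_adjoin_algebraMap {x : F} (hx : Transcendental K x)
    {ι : Type*} {b : ι → F} (hb : LinearIndependent K⟮x⟯ b) :
    LinearIndependent K'⟮algebraMap F F' x⟯ (fun j => algebraMap F F' (b j)) := by
  classical
  generalize hx' : algebraMap F F' x = x'
  rw [← LinearIndependent.iff_fractionRing (Algebra.adjoin K' {x'}) K'⟮x'⟯]
  -- the double family
  have h1 : LinearIndependent K (fun i : ℕ => (AdjoinSimple.gen K x) ^ i) := by
    apply linearIndependent_pow_of_transcendental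
    intro halg
    apply hx
    have := halg.algebraMap (A := F)
    simpa using this
  have h2 : LinearIndependent K (fun q : ℕ × ι => (AdjoinSimple.gen K x) ^ q.1 • b q.2) :=
    linearIndependent_smul h1 hb
  have h3 := IsConstExt.linearIndependent K F K' F' h2
  have h4 : LinearIndependent K' (fun q : ℕ × ι => x' ^ q.1 * algebraMap F F' (b q.2)) := by
    convert h3 using 1
    funext q
    rw [IntermediateField.smul_def, smul_eq_mul, map_mul]
    simp [hx']
  rw [linearIndependent_iff']
  intro s g hg j hj
  -- choose polynomials
  have hpoly : ∀ a : Algebra.adjoin K' {x'}, ∃ P : Polynomial K',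
      Polynomial.aeval x' P = (a : F') := by
    rintro ⟨a, ha⟩
    rw [Algebra.adjoin_singleton_eq_range_aeval] at ha
    exact ha
  choose P hP using hpoly
  set n := (s.sup fun j => (P (g j)).natDegree) + 1 with hn
  have hsum : ∑ i ∈ Finset.range n, ∑ j ∈ s,
      (P (g j)).coeff i • (x' ^ i * algebraMap F F' (b j)) = 0 := by
    rw [Finset.sum_comm, ← hg]
    refine Finset.sum_congr rfl fun j hj => ?_
    have hle : (P (g j)).natDegree < n :=
      Nat.lt_succ_of_le (Finset.le_sup (f := fun j => (P (g j)).natDegree) hj)
    rw [Subalgebra.smul_def, ← hP (g j), Polynomial.aeval_eq_sum_range' hle, smul_eq_mul,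
      Finset.sum_mul]
    refine Finset.sum_congr rfl fun i _ => ?_
    rw [smul_mul_assoc]
  rw [← Finset.sum_product'] at hsum
  have h5 := linearIndependent_iff'.mp h4 _ (fun q : ℕ × ι => (P (g q.2)).coeff q.1) hsum
  have h6 : P (g j) = 0 := by
    ext i
    by_cases hi : i < n
    · simpa using h5 (i, j) (by simp [hi, hj])
    · have hle : (P (g j)).natDegree < n :=
        Nat.lt_succ_of_le (Finset.le_sup (f := fun j => (P (g j)).natDegree) hj)
      simpa using Polynomial.coeff_eq_zero_of_natDegree_lt (by omega)
  apply Subtype.ext
  rw [← hP (g j), h6]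
  simp

variable (K) in
include K in
/-- `F'` is generated over `K'` by the image of `F` (proved here directly from the definition) -/
theorem adjoin_range_algebraMap_eq_top :
    IntermediateField.adjoin K' (Set.range (algebraMap F F')) = ⊤ := by
  rw [eq_top_iff]
  intro z _
  have key : ∀ a : K' ⊗[K] F, mulMap K F K' F' a ∈
      IntermediateField.adjoin K' (Set.range (algebraMap F F')) := by
    intro a
    induction a using TensorProduct.induction_on with
    | zero => simp
    | tmul c f =>
      rw [mulMap_tmul]
      exact mul_mem (IntermediateField.algebraMap_mem _ c)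
        (IntermediateField.subset_adjoin _ _ ⟨f, rfl⟩)
    | add a b ha hb => rw [map_add]; exact add_mem ha hb
  obtain ⟨a, b, -, rfl⟩ := IsConstExt.exists_div (K := K) (F := F) (K' := K') z
  exact div_mem (key a) (key b)

/-- a `K(x)`-spanning finite family of `F` spans `F'` over `K'(x)` -/
theorem span_adjoin_algebraMap {x : F} {ι : Type*} [Finite ι] {b : ι → F}
    (hb : ⊤ ≤ Submodule.span K⟮x⟯ (Set.range b)) :
    ⊤ ≤ Submodule.span K'⟮algebraMap F F' x⟯ (Set.range fun j => algebraMap F F' (b j)) := by
  set L' := K'⟮algebraMap F F' x⟯ with hL'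
  set S : Set F' := Set.range (algebraMap F F') with hS
  set M := Submodule.span L' (Set.range fun j => algebraMap F F' (b j)) with hM
  -- the image of `F` lies in `M`
  have h1 : S ⊆ (M : Set F') := by
    rintro _ ⟨f, rfl⟩
    have hf : f ∈ Submodule.span K⟮x⟯ (Set.range b) := hb trivial
    induction hf using Submodule.span_induction with
    | mem y hy =>
      obtain ⟨j, rfl⟩ := hy
      exact Submodule.subset_span ⟨j, rfl⟩
    | zero => simp
    | add y z _ _ hy hz => rw [map_add]; exact M.add_mem hy hz
    | smul c y _ hy =>
      rw [IntermediateField.smul_def, smul_eq_mul, map_mul]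
      have hc : algebraMap F F' (c : F) ∈ L' := algebraMap_mem_adjoin c.2
      exact M.smul_mem ⟨_, hc⟩ hy
  have h2 : Subalgebra.toSubmodule (Algebra.adjoin L' S) = M := by
    rw [Algebra.adjoin_eq_span]
    have hcl : (Submonoid.closure S : Set F') = S := by
      have : S = (MonoidHom.mrange (algebraMap F F' : F →* F') : Set F') := by
        ext; simp [hS]
      rw [this, Submonoid.closure_eq]
    rw [hcl]
    apply le_antisymm
    · exact Submodule.span_le.mpr h1
    · apply Submodule.span_mono
      rintro _ ⟨j, rfl⟩
      exact ⟨b j, rfl⟩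
  have h3 : (Subalgebra.toSubmodule (Algebra.adjoin L' S)).FG := by
    rw [h2]
    exact Submodule.fg_span (Set.finite_range _)
  have h4 : ∀ y ∈ S, IsAlgebraic L' y := fun y hy =>
    (IsIntegral.of_mem_of_fg _ h3 y (Algebra.subset_adjoin hy)).isAlgebraic
  have h5 : (IntermediateField.adjoin L' S).toSubalgebra = Algebra.adjoin L' S :=
    IntermediateField.adjoin_toSubalgebra_of_isAlgebraic h4
  have h6 : IntermediateField.adjoin K' S ≤ (IntermediateField.adjoin L' S).restrictScalars K' :=
    IntermediateField.adjoin_le_iff.mpr (IntermediateField.subset_adjoin L' S)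
  rw [adjoin_range_algebraMap_eq_top K] at h6
  intro z _
  have hz : z ∈ (IntermediateField.adjoin L' S).restrictScalars K' := h6 trivial
  have hz' : z ∈ (IntermediateField.adjoin L' S).toSubalgebra := hz
  rw [h5] at hz'
  rw [← h2]
  exact hz'

/-- the basis of `F'` over `K'(x)` induced by a basis of `F` over `K(x)` -/
def basisAdjoinAlgebraMap {x : F} (hx : Transcendental K x) {ι : Type*} [Finite ι]
    (b : Module.Basis ι K⟮x⟯ F) : Module.Basis ι K'⟮algebraMap F F' x⟯ F' :=
  Module.Basis.mk (linearIndependent_adjoin_algebraMap hx b.linearIndependent)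
    (span_adjoin_algebraMap (by rw [b.span_eq]))

theorem finiteDimensional_adjoin_algebraMap [IsFF1 K F] {x : F} (hx : Transcendental K x) :
    FiniteDimensional K'⟮algebraMap F F' x⟯ F' := by
  have : FiniteDimensional K⟮x⟯ F := IsFF1.finite x hx
  exact Module.Finite.of_basis
    (basisAdjoinAlgebraMap (K' := K') (F' := F') hx (Module.finBasis K⟮x⟯ F))

theorem finrank_adjoin_algebraMap [IsFF1 K F] {x : F} (hx : Transcendental K x) :
    Module.finrank K'⟮algebraMap F F' x⟯ F' = Module.finrank K⟮x⟯ F := by
  have : FiniteDimensional K⟮x⟯ F := IsFF1.finite x hx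
  rw [Module.finrank_eq_card_basis
    (basisAdjoinAlgebraMap (K' := K') (F' := F') hx (Module.finBasis K⟮x⟯ F))]
  simp

variable (K F K' F') in
theorem isFF1_of_isConstExt [IsFF1 K F] (hF : ∃ x : F, Transcendental K x) : IsFF1 K' F' := by
  obtain ⟨x, hx⟩ := hF
  have := finiteDimensional_adjoin_algebraMap (K' := K') (F' := F') hx
  exact IsFF1.of_exists (algebraMap F F' x)
end H1

end Fermat.Agent.S27.H
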