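import Fermat.Agent.S27.H.Degree

/-!
# S27, Part H: `IsFF1` descends along a constant field extension
Task H1b (see the `tasks` table, stmt = 'S27').  Sub-captain of Part H: helper87.
Proved by helper129.
-/

set_option autoImplicit false

noncomputable section

namespace Fermat.Agent.S27.H

open AlgebraicCurve Fermat.Agent.S24.FF IntermediateField
open scoped TensorProduct

section General

variable {k E : Type*} [Field k] [Field E] [Algebra k E]

/-- The powers of a transcendental element are linearly independent (inside `k⟮y⟯`). -/
theorem linearIndependent_gen_pow_of_transcendental {y : E} (hy : Transcendental k y) :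
    LinearIndependent k (fun i : ℕ => (AdjoinSimple.gen k y) ^ i) := by
  have hinj : Function.Injective (Polynomial.aeval (R := k) (AdjoinSimple.gen k y)) := by
    rw [← transcendental_iff_injective]
    intro h
    apply hy
    have := h.algebraMap (A := E)
    simpa using this
  have h1 : LinearIndependent k (fun i : ℕ => (Polynomial.X : Polynomial k) ^ i) := by
    have := (Polynomial.basisMonomials k).linearIndependent
    convert this using 1
    funext i
    simp [Polynomial.X_pow_eq_monomial]
  have h2 := h1.map' (Polynomial.aeval (R := k) (AdjoinSimple.gen k y)).toLinearMap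
    (LinearMap.ker_eq_bot.mpr hinj)
  have h3 : (fun i : ℕ => (AdjoinSimple.gen k y) ^ i)
      = (Polynomial.aeval (R := k) (AdjoinSimple.gen k y)).toLinearMap ∘
        fun i : ℕ => (Polynomial.X : Polynomial k) ^ i := by
    funext i
    simp
  rw [h3]
  exact h2

/-- If the family `y ^ i * c j` is `k`-independent, then `c` is independent over the polynomial
ring `k[y]`. -/
theorem linearIndependent_algebraAdjoin_of_pow_mul {y : E} {ι : Type*} {c : ι → E}
    (h : LinearIndependent k (fun p : ℕ × ι => y ^ p.1 * c p.2)) :
    LinearIndependent (Algebra.adjoin k {y}) c := by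
  classical
  rw [linearIndependent_iff']
  intro s g hg j hj
  have hP : ∀ i, ∃ P : Polynomial k, Polynomial.aeval y P = (g i : E) := by
    intro i
    have : (g i : E) ∈ (Polynomial.aeval (R := k) y).range := by
      rw [← Algebra.adjoin_singleton_eq_range_aeval]
      exact (g i).2
    exact this
  choose P hP using hP
  set N : ℕ := s.sup (fun i => (P i).natDegree) + 1 with hN
  have hlt : ∀ i ∈ s, (P i).natDegree < N := by
    intro i hi
    have : (P i).natDegree ≤ s.sup (fun i => (P i).natDegree) :=
      Finset.le_sup (f := fun i => (P i).natDegree) hi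
    omega
  have hsum : ∑ p ∈ Finset.range N ×ˢ s, (P p.2).coeff p.1 • (y ^ p.1 * c p.2) = 0 := by
    rw [Finset.sum_product_right]
    rw [← hg]
    refine Finset.sum_congr rfl fun i hi => ?_
    have h1 : (g i) • c i = (g i : E) * c i := rfl
    rw [h1, ← hP i, Polynomial.aeval_eq_sum_range' (hlt i hi), Finset.sum_mul]
    refine Finset.sum_congr rfl fun n _ => ?_
    rw [smul_mul_assoc]
  have hz := linearIndependent_iff'.mp h _ (fun p => (P p.2).coeff p.1) hsum
  have hPj : P j = 0 := by
    ext n
    by_cases hn : n < N
    · exact hz (n, j) (Finset.mem_product.mpr ⟨Finset.mem_range.mpr hn, hj⟩)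
    · rw [Polynomial.coeff_zero]
      exact Polynomial.coeff_eq_zero_of_natDegree_lt (lt_of_lt_of_le (hlt j hj) (not_lt.mp hn))
  apply Subtype.ext
  rw [← hP j, hPj]
  simp

open scoped IntermediateField.algebraAdjoinAdjoin in
/-- If the family `y ^ i * c j` is `k`-independent, then `c` is independent over `k⟮y⟯`. -/
theorem linearIndependent_adjoin_of_pow_mul {y : E} {ι : Type*} {c : ι → E}
    (h : LinearIndependent k (fun p : ℕ × ι => y ^ p.1 * c p.2)) :
    LinearIndependent k⟮y⟯ c :=
  (linearIndependent_algebraAdjoin_of_pow_mul h).localization k⟮y⟯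
    (nonZeroDivisors (Algebra.adjoin k {y}))

end General

variable {K F K' F' : Type*} [Field K] [Field F] [Field K'] [Field F']
  [Algebra K F] [Algebra K K'] [Algebra K' F'] [Algebra F F'] [Algebra K F']
  [IsScalarTower K F F'] [IsScalarTower K K' F']
  [IsConstExt K F K' F']

-- `linearIndependent_adjoin_algebraMap` is proved in `Degree.lean` (same statement).

variable (K F K' F') in
theorem isFF1_of_isConstExt_down [IsFF1 K' F'] : IsFF1 K F := by
  constructor
  intro x hx
  have hx' : Transcendental K' (algebraMap F F' x) := transcendental_algebraMap hx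
  have : FiniteDimensional K'⟮algebraMap F F' x⟯ F' := IsFF1.finite _ hx'
  let B := Module.Basis.ofVectorSpace K⟮x⟯ F
  have hB := linearIndependent_adjoin_algebraMap (K' := K') (F' := F') hx B.linearIndependent
  have : Finite (Module.Basis.ofVectorSpaceIndex K⟮x⟯ F) := hB.finite_of_isNoetherian
  exact Module.Finite.of_basis B

end Fermat.Agent.S27.H
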