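import Mathlib
import Fermat.Agent.S27.H.Defs

/-!
# S27, Part H: countable fields of characteristic zero embed into `ℂ`; countable algebraically closed subfields
Task H8 (see the `tasks` table, stmt = 'S27').  Sub-captain of Part H: helper87.
SKELETON FILE: the statements are frozen interfaces; whoever owns the task replaces every `sorry`
(extra helper lemmas are welcome; do not change the statements without telling helper87).
-/

set_option autoImplicit false

noncomputable section

namespace Fermat.Agent.S27.H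

open AlgebraicCurve Fermat.Agent.S24.FF IntermediateField
open scoped TensorProduct

open Cardinal in
theorem exists_ringHom_complex (K : Type*) [Field K] [CharZero K] [Countable K] :
    Nonempty (K →+* ℂ) := by
  obtain ⟨s, hs⟩ := exists_isTranscendenceBasis ℤ K
  obtain ⟨t, ht⟩ := exists_isTranscendenceBasis ℤ ℂ
  -- the transcendence basis of `ℂ` is uncountable
  have hC : ℵ₀ < #ℂ := by rw [Cardinal.mk_complex]; exact Cardinal.aleph0_lt_continuum
  have htc : #ℂ = #t :=
    IsAlgClosed.cardinal_eq_cardinal_transcendence_basis_of_aleph0_lt' _ ht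
      (le_of_eq Cardinal.mk_int) hC
  have hsc : #s ≤ ℵ₀ := Cardinal.mk_le_aleph0_iff.2 inferInstance
  have hle : Cardinal.lift.{0} #s ≤ Cardinal.lift.{_} #t := by
    rw [← htc]
    calc Cardinal.lift.{0} #s ≤ Cardinal.lift.{0} ℵ₀ := Cardinal.lift_le.2 hsc
      _ = ℵ₀ := Cardinal.lift_aleph0
      _ = Cardinal.lift.{_} ℵ₀ := Cardinal.lift_aleph0.symm
      _ ≤ Cardinal.lift.{_} #ℂ := Cardinal.lift_le.2 hC.le
  obtain ⟨e⟩ := Cardinal.lift_mk_le'.1 hle
  -- the injective ring homomorphism on the polynomial subring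
  have hind : AlgebraicIndependent ℤ (fun i : s => ((e i : t) : ℂ)) :=
    ht.1.comp e e.injective
  let φ : Algebra.adjoin ℤ (Set.range ((↑) : s → K)) →+* ℂ :=
    ((MvPolynomial.aeval (fun i : s => ((e i : t) : ℂ))).toRingHom).comp
      hs.1.aevalEquiv.symm.toRingEquiv.toRingHom
  have hφ : Function.Injective φ := by
    intro x y hxy
    have h3 : MvPolynomial.aeval (fun i : s => ((e i : t) : ℂ)) (hs.1.aevalEquiv.symm x) =
        MvPolynomial.aeval (fun i : s => ((e i : t) : ℂ)) (hs.1.aevalEquiv.symm y) := hxy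
    exact hs.1.aevalEquiv.symm.injective (hind h3)
  let : Algebra (Algebra.adjoin ℤ (Set.range ((↑) : s → K))) ℂ := φ.toAlgebra
  have h1 : Module.IsTorsionFree (Algebra.adjoin ℤ (Set.range ((↑) : s → K))) ℂ :=
    Module.isTorsionFree_iff_algebraMap_injective.2 hφ
  have h2 : Algebra.IsAlgebraic (Algebra.adjoin ℤ (Set.range ((↑) : s → K))) K := hs.isAlgebraic
  exact ⟨(IsAlgClosed.lift : K →ₐ[Algebra.adjoin ℤ (Set.range ((↑) : s → K))] ℂ).toRingHom⟩

open Cardinal in
theorem exists_countable_isAlgClosed_subfield (K : Type*) [Field K] [IsAlgClosed K]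
    (S : Set K) (hS : S.Countable) :
    ∃ K₁ : Subfield K, S ⊆ K₁ ∧ IsAlgClosed K₁ ∧ Countable K₁ := by
  let k0 : Subfield K := Subfield.closure S
  have hk0 : #k0 ≤ ℵ₀ := by
    refine (Subfield.cardinalMk_closure_le_max S).trans (max_le ?_ le_rfl)
    exact Cardinal.mk_le_aleph0_iff.2 hS.to_subtype
  let L : IntermediateField k0 K := algebraicClosure k0 K
  have hcl : IsAlgClosure k0 L := algebraicClosure.isAlgClosure k0 K
  have halg : Algebra.IsAlgebraic k0 L := hcl.isAlgebraic
  have hL : #L ≤ ℵ₀ :=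
    (Algebra.IsAlgebraic.cardinalMk_le_max k0 L).trans (max_le hk0 le_rfl)
  refine ⟨L.toSubfield, ?_, ?_, ?_⟩
  · intro x hx
    have hx0 : x ∈ k0 := Subfield.subset_closure hx
    exact L.algebraMap_mem ⟨x, hx0⟩
  · exact hcl.isAlgClosed
  · exact Cardinal.mk_le_aleph0_iff.1 hL

end Fermat.Agent.S27.H
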