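import Mathlib

/-!
# S27/H: a field algebraic over `ℚ(finite set)` embeds in `ℂ`

More generally every countable field of characteristic zero embeds in `ℂ`: put it inside an
algebraically closed field of the cardinality of the continuum and use the classification of
uncountable algebraically closed fields.
-/

set_option autoImplicit false

namespace Fermat.Agent.S27.H

open Cardinal

universe u

/-- A field of characteristic zero with at most countably many elements embeds in `ℂ`. -/
theorem exists_ringHom_complex_of_countable (k : Type u) [Field k] [CharZero k]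
    (hk : #k ≤ ℵ₀) : Nonempty (k →+* ℂ) := by
  let P := MvPolynomial ℝ k
  let Q := FractionRing P
  let L := AlgebraicClosure Q
  let f : k →+* L := (algebraMap Q L).comp ((algebraMap P Q).comp (algebraMap k P))
  have : CharZero L := charZero_of_injective_ringHom f.injective
  -- upper bound
  have hP : #P ≤ 𝔠 := by
    refine (MvPolynomial.cardinalMk_le_max_lift (σ := ℝ) (R := k)).trans ?_
    have h1 : lift.{0} #k ≤ 𝔠 := by
      rw [lift_uzero]
      exact hk.trans aleph0_le_continuum
    have h2 : lift.{u} #ℝ ≤ 𝔠 := by rw [mk_real, lift_continuum]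
    exact max_le (max_le h1 h2) aleph0_le_continuum
  have hQ : #Q ≤ 𝔠 := (IsLocalization.cardinalMk_le (L := Q) (nonZeroDivisors P)).trans hP
  have hL : #L ≤ 𝔠 :=
    (Algebra.IsAlgebraic.cardinalMk_le_max Q L).trans (max_le hQ aleph0_le_continuum)
  -- lower bound
  have hinj : Function.Injective (fun r : ℝ => algebraMap Q L (algebraMap P Q (MvPolynomial.X r))) :=
    (algebraMap Q L).injective.comp
      ((IsFractionRing.injective P Q).comp (MvPolynomial.X_injective))
  have hL' : 𝔠 ≤ #L := by
    have := mk_le_of_injective (α := ULift.{u} ℝ) (β := L)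
      (f := fun r => algebraMap Q L (algebraMap P Q (MvPolynomial.X r.down)))
      (fun a b hab => ULift.down_injective (hinj hab))
    rwa [mk_uLift, mk_real, lift_continuum] at this
  have hcard : #L = 𝔠 := le_antisymm hL hL'
  have hLC : Nonempty (L ≃ ℂ) := by
    rw [← lift_mk_eq', hcard, mk_complex, lift_continuum, lift_continuum]
  have hunc : ℵ₀ < #L := by
    rw [hcard]; exact aleph0_lt_continuum
  obtain ⟨e⟩ := IsAlgClosed.ringEquiv_of_equiv_of_charZero hunc hLC
  exact ⟨e.toRingHom.comp f⟩

/-- A field algebraic over `ℚ(C)`, `C` finite, embeds in `ℂ`. -/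
theorem exists_ringHom_complex (k : Type*) [Field k] [CharZero k] (C : Finset k)
    [Algebra.IsAlgebraic (IntermediateField.adjoin ℚ (C : Set k)) k] : Nonempty (k →+* ℂ) := by
  apply exists_ringHom_complex_of_countable
  refine (Algebra.IsAlgebraic.cardinalMk_le_max (IntermediateField.adjoin ℚ (C : Set k)) k).trans
    (max_le ?_ le_rfl)
  have h := IntermediateField.lift_cardinalMk_adjoin_le ℚ (C : Set k)
  rw [lift_uzero] at h
  refine h.trans (max_le (max_le ?_ ?_) le_rfl)
  · simp
  · rw [lift_uzero]
    exact (lt_aleph0_of_finite _).le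

end Fermat.Agent.S27.H
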