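import Fermat.Agent.S27.H.Degree
import Fermat.Agent.S27.H.ValSubring

/-!
# S27, Part H: extension of places
Task H3 (see the `tasks` table, stmt = 'S27').  Sub-captain of Part H: helper87.
Owner of this file: helper8.
-/

set_option autoImplicit false
set_option linter.unusedSectionVars false

noncomputable section

namespace Fermat.Agent.S27.H

open AlgebraicCurve Fermat.Agent.S24.FF IntermediateField
open scoped TensorProduct

section H3a
variable {K F K' F' : Type*} [Field K] [Field F] [Field K'] [Field F']
  [Algebra K F] [Algebra K' F'] [Algebra F F']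

theorem LiesOver.exists_ord_eq_mul {w : Place K' F'} {v : Place K F} (h : LiesOver w v) :
    ∃ e : ℤ, 0 < e ∧ ∀ f : F, w.ord (algebraMap F F' f) = e * v.ord f := by
  obtain ⟨m, hm, hf⟩ := exists_eq_mul_ord v (fun f => w.ord (algebraMap F F' f))
    (fun f g hf hg => by
      show w.ord (algebraMap F F' (f * g)) = _
      rw [map_mul, w.ord_mul ((map_ne_zero _).mpr hf) ((map_ne_zero _).mpr hg)])
    (fun f _ => by
      show 0 ≤ w.ord (algebraMap F F' f) ↔ _
      rw [← h f, mem_iff_ord_nonneg])
  refine ⟨m, hm, fun f => ?_⟩
  rcases eq_or_ne f 0 with rfl | h0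
  · simp
  · exact hf f h0

/-- the maximal ideal of a place, as a `K`-subspace of `F` -/
def maxSubmodule (v : Place K F) : Submodule K F where
  carrier := {f | f ∈ v.toValuationSubring.nonunits}
  add_mem' := fun {a b} (ha : a ∈ v.toValuationSubring.nonunits)
    (hb : b ∈ v.toValuationSubring.nonunits) =>
      (add_mem ha hb : a + b ∈ v.toValuationSubring.nonunits)
  zero_mem' := (zero_mem _ : (0 : F) ∈ v.toValuationSubring.nonunits)
  smul_mem' := by
    intro c x hx
    have hx' : v.toValuationSubring.valuation x < 1 :=
      (ValuationSubring.mem_nonunits_iff _).mp hx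
    show c • x ∈ v.toValuationSubring.nonunits
    rw [ValuationSubring.mem_nonunits_iff, Algebra.smul_def, map_mul]
    have h1 : v.toValuationSubring.valuation (algebraMap K F c) ≤ 1 :=
      (ValuationSubring.valuation_le_one_iff _ _).mpr (v.algebraMap_mem' c)
    exact lt_of_le_of_lt (mul_le_of_le_one_left' h1) hx'

theorem mem_maxSubmodule {v : Place K F} {f : F} :
    f ∈ maxSubmodule v ↔ f ∈ v.toValuationSubring.nonunits := Iff.rfl

end H3a

variable {K F K' F' : Type*} [Field K] [Field F] [Field K'] [Field F']
  [Algebra K F] [Algebra K K'] [Algebra K' F'] [Algebra F F'] [Algebra K F']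
  [IsScalarTower K F F'] [IsScalarTower K K' F']

section Span
variable [IsConstExt K F K' F']

variable (K' F') in
/-- linear disjointness: an element outside a `K`-subspace stays outside its `K'`-span -/
theorem notMem_span_image (M : Submodule K F) {x : F} (hx : x ∉ M) :
    algebraMap F F' x ∉ Submodule.span K' (algebraMap F F' '' (M : Set F)) := by
  classical
  let b := Module.Basis.ofVectorSpace K M
  have hb : LinearIndependent K (fun i => ((b i : M) : F)) :=
    b.linearIndependent.map' M.subtype (Submodule.ker_subtype M)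
  have hspan : Submodule.span K (Set.range fun i => ((b i : M) : F)) = M := by
    have h1 : (Set.range fun i => ((b i : M) : F)) = M.subtype '' Set.range b := by
      rw [← Set.range_comp]; rfl
    rw [h1, ← Submodule.map_span, b.span_eq, Submodule.map_top, Submodule.range_subtype]
  have hopt : LinearIndependent K
      (fun o => Option.casesOn' o x (fun i => ((b i : M) : F)) : Option _ → F) :=
    hb.option (by rw [hspan]; exact hx)
  have hopt' := IsConstExt.linearIndependent K F K' F' hopt
  rw [linearIndependent_option] at hopt'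
  have h2 := hopt'.2
  intro hmem
  apply h2
  have hle : Submodule.span K' (algebraMap F F' '' (M : Set F)) ≤
      Submodule.span K' (Set.range fun i => algebraMap F F' ((b i : M) : F)) := by
    rw [Submodule.span_le]
    rintro _ ⟨m, hm, rfl⟩
    have hm' : m ∈ Submodule.span K (Set.range fun i => ((b i : M) : F)) := by
      rw [hspan]; exact hm
    clear hm
    induction hm' using Submodule.span_induction with
    | mem y hy =>
      obtain ⟨i, rfl⟩ := hy
      exact Submodule.subset_span ⟨i, rfl⟩
    | zero => simp
    | add y z _ _ hy hz =>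
      rw [map_add]; exact add_mem hy hz
    | smul c y _ hy =>
      rw [Algebra.smul_def, map_mul, ← IsScalarTower.algebraMap_apply K F F',
        IsScalarTower.algebraMap_apply K K' F', ← Algebra.smul_def]
      exact Submodule.smul_mem _ _ hy
  exact hle hmem

variable (K' F') in
/-- the `K'`-subalgebra of `F'` generated by the valuation ring of `v` -/
def bigRing (v : Place K F) : Subalgebra K' F' :=
  Algebra.adjoin K' ((v.toValuationSubring.toSubring.map (algebraMap F F')).toSubmonoid : Set F')

variable (K' F') in
/-- the `K'`-span of the maximal ideal of `v` -/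
def bigMax (v : Place K F) : Submodule K' F' :=
  Submodule.span K' (algebraMap F F' '' (maxSubmodule v : Set F))

theorem one_notMem_bigMax (v : Place K F) : (1 : F') ∉ bigMax K' F' v := by
  have h := notMem_span_image K' F' (maxSubmodule v) (x := 1) (by
    rw [mem_maxSubmodule, ValuationSubring.mem_nonunits_iff, map_one]
    exact lt_irrefl _)
  rwa [map_one] at h

theorem mul_mem_bigMax (v : Place K F) {a m : F'} (ha : a ∈ bigRing K' F' v)
    (hm : m ∈ bigMax K' F' v) : a * m ∈ bigMax K' F' v := by
  have ha' : a ∈ Subalgebra.toSubmodule (bigRing K' F' v) := ha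
  rw [bigRing, Algebra.adjoin_eq_span, Submonoid.closure_eq] at ha'
  have h1 := Submodule.mul_mem_mul ha' hm
  rw [bigMax, Submodule.span_mul_span] at h1
  refine Submodule.span_mono ?_ h1
  rintro _ ⟨_, ⟨x, hx, rfl⟩, _, ⟨y, hy, rfl⟩, rfl⟩
  refine ⟨x * y, ?_, map_mul _ _ _⟩
  have hy' : v.toValuationSubring.valuation y < 1 :=
    (ValuationSubring.mem_nonunits_iff _).mp hy
  have hx' : v.toValuationSubring.valuation x ≤ 1 :=
    (ValuationSubring.valuation_le_one_iff _ _).mpr hx
  show x * y ∈ v.toValuationSubring.nonunits
  rw [ValuationSubring.mem_nonunits_iff, map_mul]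
  exact lt_of_le_of_lt (mul_le_of_le_one_left' hx') hy'

theorem algebraMap_mem_bigRing (v : Place K F) {f : F} (hf : f ∈ v.toValuationSubring) :
    algebraMap F F' f ∈ bigRing K' F' v :=
  Algebra.subset_adjoin ⟨f, hf, rfl⟩

/-- a valuation subring of `F'` dominating `K' · O_v` -/
theorem exists_valuationSubring (v : Place K F) :
    ∃ B : ValuationSubring F', (∀ c : K', algebraMap K' F' c ∈ B) ∧
      (∀ f : F, f ∈ v.toValuationSubring → algebraMap F F' f ∈ B) ∧
      (∀ f : F, f ∈ v.toValuationSubring.nonunits → algebraMap F F' f ∈ B.nonunits) := by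
  let A : Subring F' := (bigRing K' F' v).toSubring
  let I : Ideal A := Ideal.span {a : A | (a : F') ∈ algebraMap F F' '' (maxSubmodule v : Set F)}
  have hI : ∀ a ∈ I, (a : F') ∈ bigMax K' F' v := by
    intro a ha
    induction ha using Submodule.span_induction with
    | mem y hy => exact Submodule.subset_span hy
    | zero => exact zero_mem _
    | add y z _ _ hy hz => exact add_mem hy hz
    | smul c y _ hy => exact mul_mem_bigMax v c.2 hy
  have hItop : I ≠ ⊤ := by
    intro h
    exact one_notMem_bigMax v (hI 1 (h ▸ Submodule.mem_top))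
  obtain ⟨B, hAB, hIB⟩ := Ideal.image_subset_nonunits_valuationSubring I hItop
  refine ⟨B, fun c => hAB (Subalgebra.algebraMap_mem (bigRing K' F' v) c),
    fun f hf => hAB (algebraMap_mem_bigRing v hf), fun f hf => ?_⟩
  have hfA : algebraMap F F' f ∈ A :=
    algebraMap_mem_bigRing v (ValuationSubring.nonunits_subset hf)
  exact hIB ⟨⟨_, hfA⟩, Ideal.subset_span ⟨f, hf, rfl⟩, rfl⟩

end Span

variable [IsAlgClosed K] [CharZero K] [IsAlgClosed K'] [CharZero K'] [IsFF1 K F] [IsFF1 K' F']
  [IsConstExt K F K' F']

section H3

theorem exists_liesOver (v : Place K F) : ∃ w : Place K' F', LiesOver w v := by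
  obtain ⟨B, hK, hO, hm⟩ := exists_valuationSubring (K' := K') (F' := F') v
  have key : ∀ f : F, f ∉ v.toValuationSubring → algebraMap F F' f ∉ B := by
    intro f hf
    have h1 : f⁻¹ ∈ v.toValuationSubring.nonunits :=
      (ValuationSubring.inv_mem_nonunits_iff _).mpr (Or.inr hf)
    have h2 := hm _ h1
    rw [map_inv₀, ValuationSubring.inv_mem_nonunits_iff] at h2
    rcases h2 with h2 | h2
    · exfalso
      apply hf
      rw [(map_eq_zero _).mp h2]
      exact zero_mem _
    · exact h2
  have hB : B ≠ ⊤ := by
    intro h
    have hv := v.ne_top'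
    apply hv
    refine SetLike.ext fun f => ⟨fun _ => ValuationSubring.mem_top f, fun _ => ?_⟩
    by_contra hf
    exact key f hf (h ▸ ValuationSubring.mem_top _)
  refine ⟨placeOfValuationSubring B hK hB, fun f => ⟨fun h => ?_, fun h => hO f h⟩⟩
  by_contra hf
  exact key f hf h

/-- **Counting.**  For any choice `g` of extensions of places and any transcendental `t`, the
zeros of `t` in `F'` are exactly the chosen extensions of the zeros of `t` in `F`, with the same
multiplicities. -/
theorem counting (g : Place K F → Place K' F') (hg : ∀ v, LiesOver (g v) v) {t : F}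
    (ht : Transcendental K t) :
    (∀ v : Place K F, 0 < v.ord t → (g v).ord (algebraMap F F' t) = v.ord t) ∧
      (∀ w : Place K' F', 0 < w.ord (algebraMap F F' t) → ∃ v, g v = w) := by
  classical
  obtain ⟨s, hs, hsum⟩ := exists_finset_ord_pos t ht
  obtain ⟨s', hs', hsum'⟩ := exists_finset_ord_pos (algebraMap F F' t)
    (transcendental_algebraMap (K' := K') (F' := F') ht)
  rw [finrank_adjoin_algebraMap ht, ← hsum] at hsum'
  have hinj : Function.Injective g := by
    intro v v' h
    have h2 := hg v'
    rw [← h] at h2
    exact (hg v).right_unique h2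
  have hge : ∀ v ∈ s, v.ord t ≤ (g v).ord (algebraMap F F' t) := by
    intro v hv
    obtain ⟨e, he, hef⟩ := (hg v).exists_ord_eq_mul
    rw [hef t]
    have := (hs v).mp hv
    nlinarith
  have hsub : s.image g ⊆ s' := by
    intro w hw
    obtain ⟨v, hv, rfl⟩ := Finset.mem_image.mp hw
    rw [hs']
    exact lt_of_lt_of_le ((hs v).mp hv) (hge v hv)
  have h1 : ∑ w ∈ s' \ s.image g, w.ord (algebraMap F F' t)
      + ∑ w ∈ s.image g, w.ord (algebraMap F F' t) = ∑ w ∈ s', w.ord (algebraMap F F' t) :=
    Finset.sum_sdiff hsub
  rw [Finset.sum_image (fun a _ b _ h => hinj h), hsum'] at h1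
  have h2 : ∑ w ∈ s' \ s.image g, w.ord (algebraMap F F' t)
      + ∑ v ∈ s, ((g v).ord (algebraMap F F' t) - v.ord t) = 0 := by
    rw [Finset.sum_sub_distrib]
    linarith
  have hn1 : 0 ≤ ∑ w ∈ s' \ s.image g, w.ord (algebraMap F F' t) :=
    Finset.sum_nonneg fun w hw => le_of_lt ((hs' w).mp (Finset.mem_sdiff.mp hw).1)
  have hn2 : 0 ≤ ∑ v ∈ s, ((g v).ord (algebraMap F F' t) - v.ord t) :=
    Finset.sum_nonneg fun v hv => sub_nonneg.mpr (hge v hv)
  have hz1 : ∑ w ∈ s' \ s.image g, w.ord (algebraMap F F' t) = 0 := by linarith
  have hz2 : ∑ v ∈ s, ((g v).ord (algebraMap F F' t) - v.ord t) = 0 := by linarith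
  constructor
  · intro v hv
    have := (Finset.sum_eq_zero_iff_of_nonneg
      (fun v hv => sub_nonneg.mpr (hge v hv))).mp hz2 v ((hs v).mpr hv)
    linarith
  · intro w hw
    by_contra hcon
    have hmem : w ∈ s' \ s.image g := by
      rw [Finset.mem_sdiff]
      refine ⟨(hs' w).mpr hw, fun h => ?_⟩
      obtain ⟨v, _, rfl⟩ := Finset.mem_image.mp h
      exact hcon ⟨v, rfl⟩
    have := (Finset.sum_eq_zero_iff_of_nonneg
      (fun w hw => le_of_lt ((hs' w).mp (Finset.mem_sdiff.mp hw).1))).mp hz1 w hmem
    omega

/-- a uniformizer is transcendental -/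
theorem transcendental_of_ord_ne_zero (v : Place K F) {t : F} (ht : v.ord t ≠ 0) :
    Transcendental K t := by
  apply transcendental_of_forall_ne
  rintro c rfl
  exact ht (ord_algebraMap v c)

/-- a choice of extensions of all places with a prescribed value at `v` -/
theorem exists_choice {w : Place K' F'} {v : Place K F} (h : LiesOver w v) :
    ∃ g : Place K F → Place K' F', (∀ v', LiesOver (g v') v') ∧ g v = w := by
  classical
  refine ⟨Function.update (fun v' => (exists_liesOver (K' := K') (F' := F') v').choose) v w,
    fun v' => ?_, Function.update_self _ _ _⟩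
  by_cases hv : v' = v
  · subst hv
    rw [Function.update_self]
    exact h
  · rw [Function.update_of_ne hv]
    exact (exists_liesOver (K' := K') (F' := F') v').choose_spec

theorem LiesOver.ord_eq {w : Place K' F'} {v : Place K F} (h : LiesOver w v) (f : F) :
    w.ord (algebraMap F F' f) = v.ord f := by
  obtain ⟨g, hg, rfl⟩ := exists_choice h
  obtain ⟨t, ht⟩ := exists_ord_eq_one v
  obtain ⟨e, _, hef⟩ := h.exists_ord_eq_mul
  have h1 := (counting g hg (transcendental_of_ord_ne_zero v (by rw [ht]; exact one_ne_zero))).1 v
    (by rw [ht]; exact one_pos)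
  rw [hef t, ht, mul_one] at h1
  rw [hef f, h1, one_mul]

theorem LiesOver.left_unique {w w' : Place K' F'} {v : Place K F}
    (h : LiesOver w v) (h' : LiesOver w' v) : w = w' := by
  obtain ⟨g, hg, rfl⟩ := exists_choice h
  obtain ⟨t, ht⟩ := exists_ord_eq_one v
  obtain ⟨v'', hv''⟩ := (counting g hg (transcendental_of_ord_ne_zero v
    (by rw [ht]; exact one_ne_zero))).2 w'
    (by rw [h'.ord_eq, ht]; exact one_pos)
  have h2 := hg v''
  rw [hv''] at h2
  rw [← hv'', h2.right_unique h']

/-- a place of `F'` which is nontrivial on `F` lies over a place of `F` -/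
theorem exists_liesOver_of_ord_pos (w : Place K' F') {f : F}
    (hf : 0 < w.ord (algebraMap F F' f)) : ∃ v : Place K F, LiesOver w v := by
  have hK : ∀ a : K, algebraMap K F a ∈ w.toValuationSubring.comap (algebraMap F F') := by
    intro a
    rw [ValuationSubring.mem_comap, ← IsScalarTower.algebraMap_apply K F F',
      IsScalarTower.algebraMap_apply K K' F']
    exact w.algebraMap_mem' _
  have hA : w.toValuationSubring.comap (algebraMap F F') ≠ ⊤ := by
    intro h
    have h1 : f⁻¹ ∈ w.toValuationSubring.comap (algebraMap F F') := h ▸ ValuationSubring.mem_top _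
    rw [ValuationSubring.mem_comap, mem_iff_ord_nonneg, map_inv₀, w.ord_inv] at h1
    omega
  exact ⟨placeOfValuationSubring _ hK hA, fun _ => Iff.rfl⟩

variable (K' F') in
/-- the unique extension of a place -/
def eps (v : Place K F) : Place K' F' := (exists_liesOver (K' := K') (F' := F') v).choose

theorem eps_liesOver (v : Place K F) : LiesOver (eps K' F' v) v :=
  (exists_liesOver (K' := K') (F' := F') v).choose_spec

theorem eps_injective : Function.Injective (eps K' F' : Place K F → Place K' F') := by
  intro v v' h
  have h1 := eps_liesOver (K' := K') (F' := F') v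
  have h2 := eps_liesOver (K' := K') (F' := F') v'
  rw [← h] at h2
  exact h1.right_unique h2

theorem ord_eps (v : Place K F) (f : F) : (eps K' F' v).ord (algebraMap F F' f) = v.ord f :=
  (eps_liesOver v).ord_eq f

variable (K' F') in
/-- push-forward of divisors -/
def epsDiv : Divisor K F →+ Divisor K' F' := Finsupp.mapDomain.addMonoidHom (eps K' F')

theorem epsDiv_apply_eps (D : Divisor K F) (v : Place K F) :
    epsDiv K' F' D (eps K' F' v) = D v :=
  Finsupp.mapDomain_apply eps_injective D v

theorem epsDiv_apply_of_forall_ne (D : Divisor K F) (w : Place K' F')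
    (hw : ∀ v : Place K F, eps K' F' v ≠ w) : epsDiv K' F' D w = 0 :=
  Finsupp.mapDomain_of_notMem_range D w (by rintro ⟨v, hv⟩; exact hw v hv)

theorem degree_epsDiv (D : Divisor K F) :
    Divisor.degree (epsDiv K' F' D) = Divisor.degree D := by
  induction D using Finsupp.induction_linear with
  | zero => simp
  | add D E hD hE => rw [map_add, map_add, map_add, hD, hE]
  | single v n =>
    have h : epsDiv K' F' (Finsupp.single v n) = Finsupp.single (eps K' F' v) n :=
      Finsupp.mapDomain_single
    rw [h, Divisor.degree_single, Divisor.degree_single, deg_eq_one, deg_eq_one]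

end H3

end Fermat.Agent.S27.H
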