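import Fermat.Agent.S27.H.TensorDomain
import Fermat.Agent.S27.H.ConstExtBasic

/-!
# S27, Part H (upper layer), HU8a: a criterion for `IsConstExt` (linear disjointness for free)
Sub-captain of the upper layer: helper47.  Proved by helper288.

Here `K₁ ⊆ K` are the constant fields, `F₁ ⊆ F` the function fields.

PROOF.  `A := K ⊗[K₁] F₁` is a domain (`isDomain_tensorProduct_of_isAlgClosed`, `K₁` alg. closed).
Make `A` a `K[X]`-algebra by `Polynomial.aeval ((1 : K) ⊗ₜ x)`.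
(a) every `a : A` is algebraic over `K[X]`.
(b) `mulMap ∘ algebraMap K[X] A = aeval (algebraMap F₁ F x)` is injective (`hx`).
(c) injectivity of `mulMap`: if `mulMap z = 0`, `z ≠ 0` then `IsAlgebraic.exists_nonzero_dvd` gives
`0 ≠ r : K[X]` with `z ∣ algebraMap r`, so `aeval _ r = 0`, contradiction.
(d) `exists_div`: via `quotField`.
-/

set_option autoImplicit false

noncomputable section

namespace Fermat.Agent.S27.H

open IntermediateField Polynomial
open scoped TensorProduct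

namespace LinDisj

section

variable (K₁ F₁ K : Type*) [Field K₁] [Field F₁] [Field K] [Algebra K₁ F₁] [Algebra K₁ K]
  (x : F₁)

/-- `K[X] → K ⊗ F₁`, `X ↦ 1 ⊗ x`. -/
def polyMap : K[X] →ₐ[K] K ⊗[K₁] F₁ := Polynomial.aeval ((1 : K) ⊗ₜ[K₁] x)

/-- the `K[X]`-algebra structure on `K ⊗ F₁` given by `polyMap`. -/
@[reducible] def polyAlgebra : Algebra K[X] (K ⊗[K₁] F₁) := (polyMap K₁ F₁ K x).toRingHom.toAlgebra

/-- the `K₁[X]`-algebra structure on `F₁` given by `X ↦ x`. -/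
@[reducible] def polyAlgebra₁ : Algebra K₁[X] F₁ := (Polynomial.aeval x : K₁[X] →ₐ[K₁] F₁).toRingHom.toAlgebra

open scoped IntermediateField.algebraAdjoinAdjoin in
theorem isAlgebraic₁ (halg : Algebra.IsAlgebraic K₁⟮x⟯ F₁) (f : F₁) :
    @IsAlgebraic K₁[X] F₁ _ _ (polyAlgebra₁ K₁ F₁ x) f := by
  let _ := polyAlgebra₁ K₁ F₁ x
  have h1 : IsAlgebraic (Algebra.adjoin K₁ {x}) f :=
    (IsFractionRing.isAlgebraic_iff (Algebra.adjoin K₁ {x}) K₁⟮x⟯ F₁).2 (halg.isAlgebraic f)
  let φ : K₁[X] →+* Algebra.adjoin K₁ {x} :=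
    ((Polynomial.aeval x : K₁[X] →ₐ[K₁] F₁).codRestrict (Algebra.adjoin K₁ {x}) (fun p => by
      rw [Algebra.adjoin_singleton_eq_range_aeval]; exact ⟨p, rfl⟩)).toRingHom
  have hφ : Function.Surjective φ := by
    rintro ⟨y, hy⟩
    rw [Algebra.adjoin_singleton_eq_range_aeval] at hy
    obtain ⟨p, hp⟩ := hy
    exact ⟨p, Subtype.ext hp⟩
  exact IsAlgebraic.of_ringHom_of_comp_eq (a := f) φ (RingHom.id F₁) h1 hφ
    Function.injective_id (by ext <;> rfl)

theorem isAlgebraic_one_tmul (halg : Algebra.IsAlgebraic K₁⟮x⟯ F₁) (f : F₁) :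
    @IsAlgebraic K[X] (K ⊗[K₁] F₁) _ _ (polyAlgebra K₁ F₁ K x) ((1 : K) ⊗ₜ[K₁] f) := by
  let _ := polyAlgebra₁ K₁ F₁ x
  let _ := polyAlgebra K₁ F₁ K x
  have h1 := isAlgebraic₁ K₁ F₁ x halg f
  have h2 := IsAlgebraic.ringHom_of_comp_eq (a := f) (S := K[X]) (B := K ⊗[K₁] F₁)
    (Polynomial.mapRingHom (algebraMap K₁ K))
    (Algebra.TensorProduct.includeRight : F₁ →ₐ[K₁] K ⊗[K₁] F₁).toRingHom h1
    (Polynomial.map_injective _ (algebraMap K₁ K).injective) (by
      apply Polynomial.ringHom_ext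
      · intro a
        show polyMap K₁ F₁ K x (Polynomial.map (algebraMap K₁ K) (C a))
          = (1 : K) ⊗ₜ[K₁] (Polynomial.aeval x (C a : K₁[X]))
        rw [Polynomial.map_C, polyMap, Polynomial.aeval_C, Polynomial.aeval_C,
          Algebra.TensorProduct.algebraMap_apply, Algebra.algebraMap_self, RingHom.id_apply,
          Algebra.algebraMap_eq_smul_one, Algebra.algebraMap_eq_smul_one, TensorProduct.smul_tmul]
      · show polyMap K₁ F₁ K x (Polynomial.map (algebraMap K₁ K) X)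
          = (1 : K) ⊗ₜ[K₁] (Polynomial.aeval x (X : K₁[X]))
        rw [Polynomial.map_X, polyMap, Polynomial.aeval_X, Polynomial.aeval_X])
  exact h2

theorem isAlgebraic (halg : Algebra.IsAlgebraic K₁⟮x⟯ F₁) (a : K ⊗[K₁] F₁) :
    @IsAlgebraic K[X] (K ⊗[K₁] F₁) _ _ (polyAlgebra K₁ F₁ K x) a := by
  let _ := polyAlgebra K₁ F₁ K x
  induction a using TensorProduct.induction_on with
  | zero => exact isAlgebraic_zero
  | tmul c f =>
    have h1 : c ⊗ₜ[K₁] f = algebraMap K[X] (K ⊗[K₁] F₁) (C c) * ((1 : K) ⊗ₜ[K₁] f) := by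
      show c ⊗ₜ[K₁] f = polyMap K₁ F₁ K x (C c) * ((1 : K) ⊗ₜ[K₁] f)
      rw [polyMap, Polynomial.aeval_C, Algebra.TensorProduct.algebraMap_apply,
        Algebra.algebraMap_self, RingHom.id_apply, Algebra.TensorProduct.tmul_mul_tmul, mul_one,
        one_mul]
    rw [h1]
    exact (isAlgebraic_algebraMap _).mul (isAlgebraic_one_tmul K₁ F₁ K x halg f)
  | add y z hy hz => exact hy.add hz

end

end LinDisj

theorem isConstExt_of_isAlgebraic (K₁ F₁ K F : Type*) [Field K₁] [Field F₁] [Field K] [Field F]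
    [Algebra K₁ F₁] [Algebra K₁ K] [Algebra K F] [Algebra F₁ F] [Algebra K₁ F]
    [IsScalarTower K₁ F₁ F] [IsScalarTower K₁ K F] [IsAlgClosed K₁]
    (x : F₁) (hx : Transcendental K (algebraMap F₁ F x))
    (halg : Algebra.IsAlgebraic K₁⟮x⟯ F₁)
    (hgen : IntermediateField.adjoin K (Set.range (algebraMap F₁ F)) = ⊤) :
    IsConstExt K₁ F₁ K F := by
  constructor
  · have hdom : IsDomain (K ⊗[K₁] F₁) := isDomain_tensorProduct_of_isAlgClosed K₁ K F₁
    let _ := LinDisj.polyAlgebra K₁ F₁ K x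
    rw [injective_iff_map_eq_zero]
    intro z hz
    by_contra hz0
    obtain ⟨r, hr0, hr⟩ := (LinDisj.isAlgebraic K₁ F₁ K x halg z).exists_nonzero_dvd
      (mem_nonZeroDivisors_of_ne_zero hz0)
    have h1 : mulMap K₁ F₁ K F (algebraMap K[X] (K ⊗[K₁] F₁) r) = 0 := by
      obtain ⟨w, hw⟩ := hr
      rw [hw, map_mul, hz, zero_mul]
    have h2 : mulMap K₁ F₁ K F (algebraMap K[X] (K ⊗[K₁] F₁) r)
        = Polynomial.aeval (algebraMap F₁ F x) r := by
      have h3 : (mulMap K₁ F₁ K F).comp (LinDisj.polyMap K₁ F₁ K x)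
          = Polynomial.aeval (algebraMap F₁ F x) :=
        Polynomial.algHom_ext (by simp [LinDisj.polyMap])
      exact DFunLike.congr_fun h3 r
    rw [h2] at h1
    exact hr0 ((transcendental_iff.1 hx) r h1)
  · intro z
    have hle : IntermediateField.adjoin K (Set.range (algebraMap F₁ F)) ≤ quotField K₁ F₁ K F := by
      rw [IntermediateField.adjoin_le_iff]
      rintro _ ⟨f, rfl⟩
      exact ⟨1 ⊗ₜ[K₁] f, 1, by simp, by simp⟩
    rw [hgen] at hle
    exact hle (IntermediateField.mem_top (x := z))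

end Fermat.Agent.S27.H
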