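import Fermat.Agent.S27.H.Genus
import Fermat.Agent.S27.H.Conj
import Fermat.Agent.S27.H.FixedField

/-!
# S27, Part H: places fixed by a finite index subgroup of `Aut(K'/K)` are rational
Task H7b (see the `tasks` table, stmt = 'S27').  Sub-captain of Part H: helper87.
Proofs: helper171.
-/

set_option autoImplicit false

noncomputable section

namespace Fermat.Agent.S27.H

open AlgebraicCurve Fermat.Agent.S24.FF IntermediateField
open scoped TensorProduct

variable {K F K' F' : Type*} [Field K] [Field F] [Field K'] [Field F']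
  [Algebra K F] [Algebra K K'] [Algebra K' F'] [Algebra F F'] [Algebra K F']
  [IsScalarTower K F F'] [IsScalarTower K K' F']
  [IsAlgClosed K] [CharZero K] [IsAlgClosed K'] [CharZero K'] [IsFF1 K F] [IsFF1 K' F']
  [IsConstExt K F K' F']

theorem conj_smul_eps (σ : K' ≃ₐ[K] K') (v : Place K F) :
    conj K F K' F' σ • eps K' F' v = eps K' F' v := by
  have h : LiesOver (conj K F K' F' σ • eps K' F' v) v := by
    intro f
    have h1 := SemiAut.mem_smul_iff (conj K F K' F' σ) (eps K' F' v) (algebraMap F F' f)
    rw [conj_algebraMap_right] at h1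
    rw [h1]
    exact eps_liesOver v f
  exact h.left_unique (eps_liesOver v)

theorem epsDiv_single (v : Place K F) (n : ℤ) :
    epsDiv K' F' (Finsupp.single v n) = Finsupp.single (eps K' F' v) n :=
  Finsupp.mapDomain_single

theorem conj_smul_epsDiv (σ : K' ≃ₐ[K] K') (D : Divisor K F) :
    conj K F K' F' σ • epsDiv K' F' D = epsDiv K' F' D := by
  induction D using Finsupp.induction_linear with
  | zero => rw [map_zero, smul_zero]
  | add D E hD hE => rw [map_add, smul_add, hD, hE]
  | single v n => rw [epsDiv_single, SemiAut.smul_single, conj_smul_eps]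

theorem exists_eq_eps_of_fixed (hF : ∃ x : F, Transcendental K x) (w : Place K' F')
    (Γ₁ : Subgroup (K' ≃ₐ[K] K')) [Γ₁.FiniteIndex]
    (hw : ∀ σ ∈ Γ₁, conj K F K' F' σ • w = w) : ∃ v : Place K F, w = eps K' F' v := by
  -- a transcendental element of `F` which is integral at `w`
  obtain ⟨x, hx, hx0⟩ : ∃ x : F, Transcendental K x ∧ 0 ≤ w.ord (algebraMap F F' x) := by
    obtain ⟨x, hx⟩ := hF
    by_cases h : 0 ≤ w.ord (algebraMap F F' x)
    · exact ⟨x, hx, h⟩
    · refine ⟨x⁻¹, ?_, ?_⟩
      · intro halg
        apply hx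
        have := halg.inv
        rwa [inv_inv] at this
      · rw [map_inv₀, w.ord_inv]
        omega
  have hx' : Transcendental K' (algebraMap F F' x) := transcendental_algebraMap hx
  obtain ⟨c, hc⟩ := exists_const_of_ord_nonneg w hx0
  have hc' : 0 < w.ord (algebraMap F F' x - algebraMap K' F' c) := by
    rcases hc with hc | hc
    · exfalso
      apply hx'
      rw [hc]
      exact isAlgebraic_algebraMap c
    · exact hc
  have hfix : ∀ σ ∈ Γ₁, σ c = c := by
    intro σ hσ
    have h1 := SemiAut.ord_smul (conj K F K' F' σ) w (algebraMap F F' x - algebraMap K' F' c)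
    rw [hw σ hσ] at h1
    have h2 : conj K F K' F' σ (algebraMap F F' x - algebraMap K' F' c)
        = algebraMap F F' x - algebraMap K' F' (σ c) := by
      have h3 : conj K F K' F' σ (algebraMap F F' x - algebraMap K' F' c)
          = conj K F K' F' σ (algebraMap F F' x) - conj K F K' F' σ (algebraMap K' F' c) :=
        map_sub ((conj K F K' F' σ : SemiAut K' F') : RingAut F') _ _
      rw [h3, conj_algebraMap_left, conj_algebraMap_right]
    rw [h2] at h1
    exact const_unique w (by rw [h1]; exact hc') hc'
  obtain ⟨a, rfl⟩ := mem_range_of_forall_fixed Γ₁ hfix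
  have hpos : 0 < w.ord (algebraMap F F' (x - algebraMap K F a)) := by
    rw [map_sub, ← IsScalarTower.algebraMap_apply K F F', IsScalarTower.algebraMap_apply K K' F']
    exact hc'
  obtain ⟨v, hv⟩ := exists_liesOver_of_ord_pos (K := K) w hpos
  exact ⟨v, hv.left_unique (eps_liesOver v)⟩

/-- a divisor supported on rational places comes from `F` -/
theorem exists_epsDiv_eq (E : Divisor K' F')
    (hE : ∀ w ∈ E.support, ∃ v : Place K F, w = eps K' F' v) :
    ∃ E₀ : Divisor K F, epsDiv K' F' E₀ = E := by
  classical
  induction E using Finsupp.induction with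
  | zero => exact ⟨0, map_zero _⟩
  | single_add w n E hwE hn ih =>
    have hwE0 : E w = 0 := Finsupp.notMem_support_iff.mp hwE
    obtain ⟨E₀, hE₀⟩ := ih (fun w' hw' => hE w' (by
      have hne : w' ≠ w := fun h => hwE (h ▸ hw')
      rw [Finsupp.mem_support_iff] at hw' ⊢
      rwa [Finsupp.add_apply, Finsupp.single_apply, if_neg (Ne.symm hne), zero_add]))
    obtain ⟨v, rfl⟩ := hE w (by
      rw [Finsupp.mem_support_iff, Finsupp.add_apply, Finsupp.single_eq_same, hwE0, add_zero]
      exact hn)
    exact ⟨Finsupp.single v n + E₀, by rw [map_add, epsDiv_single, hE₀]⟩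

end Fermat.Agent.S27.H
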